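import Fermat.Agent.S16.Factor
import Fermat.Agent.S22.Lattice

/-!
# S16/Lower : `ev P = 0 ⇒ n ∣ ε(P)`    (Hecke equivariance of `χ`)

`B = Additive (ZMod p)ˣ`,  `χ(γ) = (γ₁₁ mod p)^12`.  `χ` kills parabolic and elliptic elements, hence factors through the
period lattice `Λ`; it is an eigenvector of the Hecke operators with the Eisenstein eigenvalues.
-/

set_option autoImplicit false

open CongruenceSubgroup ModularCurve CuspForm
open scoped MatrixGroups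

namespace Fermat.Agent.S16

namespace Lower

open Fermat.Agent.S22 Matrix.SpecialLinearGroup UpperHalfPlane
open scoped ModularForm

section decomp

variable {N : ℕ} [NeZero N]

theorem period_comp_of_decomp {ι : Type*} [Fintype ι] (δ : ι → GL (Fin 2) ℝ)
    (t : Module.End ℂ (CuspForm (Gamma0 N) (((0 : ℕ) : ℤ) + 2)))
    (ht : ∀ f, ((t f : CuspForm (Gamma0 N) (((0 : ℕ) : ℤ) + 2)) : ℍ → ℂ)
      = ∑ u, (f : ℍ → ℂ) ∣[((0 : ℕ) : ℤ) + 2] δ u)
    (hpos : ∀ u, 0 < (δ u).det.val)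
    (h0 : ∀ (f : ℍ → ℂ), Tower (0 + 1) f → ∀ u X Y, Coc 0 f (δ u) X Y = 0)
    (hT : ∀ (f : ℍ → ℂ), Tower (0 + 1) f → ∀ u, Tower (0 + 1) (f ∣[((0 : ℕ) : ℤ) + 2] δ u))
    (γ : Gamma0 N) (γ' : ι → Gamma0 N) (u' : ι → ι)
    (hmul : ∀ u, δ u * mapGL ℝ (γ : SL(2, ℤ)) = mapGL ℝ (γ' u : SL(2, ℤ)) * δ (u' u))
    (f : CuspForm (Gamma0 N) (((0 : ℕ) : ℤ) + 2)) :
    ModularCurve.periodMap N (t f) (Additive.ofMul γ)
      = ∑ u, ModularCurve.periodMap N f (Additive.ofMul (γ' u)) := by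
  rw [← Lam.Coc_zero_eq N γ (t f) 0 0, ht, Coc_sum]
  · refine Finset.sum_congr rfl fun u _ => ?_
    rw [Coc_slash_of_comm f (γ' u).2 (hpos u) (h0 f (tower_cuspForm f _) u)
      (h0 f (tower_cuspForm f _) (u' u)) (hT f (tower_cuspForm f _) u) (hmul u), Lam.Coc_zero_eq]
  · exact fun u _ => hT f (tower_cuspForm f _) u
  · intro u _
    rw [← SlashAction.slash_mul, hmul u, SlashAction.slash_mul, slash_eq_self f (γ' u).2]
    exact hT f (tower_cuspForm f _) (u' u)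

open P2MW.S_ModularForm_heckeT_slash_eq_self_of_mem_Gamma0.ModularForm.HeckeSlashInvariance in
open ModularForm in
theorem period_heckeT {ℓ : ℕ} [Fact ℓ.Prime] (hℓ : ℓ.Prime) (hℓN : ¬ ℓ ∣ N) (γ : Gamma0 N) :
    ∃ (γ' : OnePoint (ZMod ℓ) → Gamma0 N) (σ : Equiv.Perm (OnePoint (ZMod ℓ))),
      (∀ u, heckeRep ℓ u * mapGL ℝ (γ : SL(2, ℤ))
        = mapGL ℝ (γ' u : SL(2, ℤ)) * heckeRep ℓ (σ u)) ∧
      ∀ f : CuspForm (Gamma0 N) (((0 : ℕ) : ℤ) + 2),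
        ModularCurve.periodMap N (CuspForm.heckeTLin (((0 : ℕ) : ℤ) + 2) hℓ hℓN f) (Additive.ofMul γ)
          = ∑ u, ModularCurve.periodMap N f (Additive.ofMul (γ' u)) := by
  have hp0 : ℓ ≠ 0 := hℓ.ne_zero
  have hcN : (N : ℤ) ∣ (γ : SL(2, ℤ)) 1 0 :=
    (ZMod.intCast_zmod_eq_zero_iff_dvd _ _).mp (CongruenceSubgroup.Gamma0_mem.mp γ.2)
  choose g' hg' hmul using heckeRep_mul hℓN (γ : SL(2, ℤ)) hcN
  refine ⟨fun u => ⟨g' u, CongruenceSubgroup.Gamma0_mem.mpr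
    ((ZMod.intCast_zmod_eq_zero_iff_dvd _ _).mpr (hg' u))⟩,
    MulAction.toPerm (redMatrix ℓ (γ : SL(2, ℤ))), hmul, fun f => ?_⟩
  refine period_comp_of_decomp (heckeRep ℓ) (CuspForm.heckeTLin (((0 : ℕ) : ℤ) + 2) hℓ hℓN) ?_ ?_ ?_ ?_ γ
    (fun u => ⟨g' u, CongruenceSubgroup.Gamma0_mem.mpr
    ((ZMod.intCast_zmod_eq_zero_iff_dvd _ _).mpr (hg' u))⟩) (fun u => redMatrix ℓ (γ : SL(2, ℤ)) • u) hmul f
  · intro f
    rw [CuspForm.coe_heckeTLin_apply, heckeT_eq_sum_onePoint]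
  · intro u
    induction u using OnePoint.rec with
    | infty => exact det_heckeDiagMatrix_pos ℓ
    | coe j => exact det_heckeMatrix_pos ℓ _
  · intro f hf u X Y
    induction u using OnePoint.rec with
    | infty => exact Coc_heckeDiagMatrix hf hp0 X Y
    | coe j => exact Coc_heckeMatrix hf hp0 _ X Y
  · intro f hf u
    induction u using OnePoint.rec with
    | infty => exact hf.slash_heckeDiagMatrix _ hp0
    | coe j => exact hf.slash_heckeMatrix _ hp0 _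

open P2MW.S_ModularForm_heckeT_slash_eq_self_of_mem_Gamma0.ModularForm.HeckeSlashInvariance in
open ModularForm in
theorem period_heckeU {q : ℕ} [NeZero q] (hqN : q ∣ N) (γ : Gamma0 N) :
    ∃ (γ' : ZMod q → Gamma0 N) (σ : Equiv.Perm (ZMod q)),
      (∀ u : ZMod q, heckeMatrix q u.val * mapGL ℝ (γ : SL(2, ℤ))
        = mapGL ℝ (γ' u : SL(2, ℤ)) * heckeMatrix q (σ u).val) ∧
      ∀ f : CuspForm (Gamma0 N) (((0 : ℕ) : ℤ) + 2),
        ModularCurve.periodMap N (CuspForm.heckeULin (((0 : ℕ) : ℤ) + 2) hqN f) (Additive.ofMul γ)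
          = ∑ u, ModularCurve.periodMap N f (Additive.ofMul (γ' u)) := by
  have hp0 : q ≠ 0 := NeZero.ne q
  have hcN : (N : ℤ) ∣ (γ : SL(2, ℤ)) 1 0 :=
    (ZMod.intCast_zmod_eq_zero_iff_dvd _ _).mp (CongruenceSubgroup.Gamma0_mem.mp γ.2)
  have hc : (q : ℤ) ∣ (γ : SL(2, ℤ)) 1 0 := (Int.natCast_dvd_natCast.mpr hqN).trans hcN
  choose g' hg' hmul using heckeMatrix_mul_of_dvd (γ : SL(2, ℤ)) hc
  have hmem : ∀ u, g' u ∈ Gamma0 N := by
    intro u
    rw [CongruenceSubgroup.Gamma0_mem, hg']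
    push_cast
    rw [CongruenceSubgroup.Gamma0_mem.mp γ.2, mul_zero]
  refine ⟨fun u => ⟨g' u, hmem u⟩, affinePerm (γ : SL(2, ℤ)) _, hmul, fun f => ?_⟩
  refine period_comp_of_decomp (fun x : ZMod q => heckeMatrix q x.val)
    (CuspForm.heckeULin (((0 : ℕ) : ℤ) + 2) hqN) ?_ ?_ ?_ ?_ γ (fun u => ⟨g' u, hmem u⟩)
    (fun u => affinePerm (γ : SL(2, ℤ)) ((ZMod.intCast_zmod_eq_zero_iff_dvd _ _).mpr hc) u) hmul f
  · intro f
    rw [CuspForm.coe_heckeULin_apply, heckeU_eq_sum_zmod]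
  · intro u
    exact det_heckeMatrix_pos q _
  · intro f hf u X Y
    exact Coc_heckeMatrix hf hp0 _ X Y
  · intro f hf u
    exact hf.slash_heckeMatrix _ hp0 _

end decomp

section chi

variable (p : ℕ)

/-- `γ ↦ γ₁₁ mod p` as a unit. -/
noncomputable def dU : Gamma0 p →* (ZMod p)ˣ := (Gamma0Map p).toHomUnits

theorem coe_dU (γ : Gamma0 p) :
    ((dU p γ : (ZMod p)ˣ) : ZMod p) = (((γ : SL(2, ℤ)) 1 1 : ℤ) : ZMod p) := rfl

/-- `χ(γ) = (γ₁₁ mod p)^12`. -/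
noncomputable def chi : Additive (Gamma0 p) →+ Additive (ZMod p)ˣ :=
  MonoidHom.toAdditive ((powMonoidHom 12).comp (dU p))

theorem chi_apply (γ : Gamma0 p) : chi p (Additive.ofMul γ) = Additive.ofMul (dU p γ ^ 12) := rfl

theorem a_mul_d (γ : Gamma0 p) :
    (((γ : SL(2, ℤ)) 0 0 : ℤ) : ZMod p) * (((γ : SL(2, ℤ)) 1 1 : ℤ) : ZMod p) = 1 :=
  P2MW.S_ModularForm_heckeT_slash_eq_self_of_mem_Gamma0.ModularForm.HeckeSlashInvariance.unit_of_apply_one_zero_eq_zero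
    _ (Gamma0_mem.mp γ.2)

theorem chi_parEll [Fact p.Prime] : ParEll (chi p) := by
  rintro γ (h | h)
  · rw [chi_apply]
    have h1 := a_mul_d p γ
    set a : ZMod p := (((γ : SL(2, ℤ)) 0 0 : ℤ) : ZMod p) with ha
    set d : ZMod p := (((γ : SL(2, ℤ)) 1 1 : ℤ) : ZMod p) with hd
    have h2 : (a + d) ^ 2 = 4 := by
      rw [Matrix.trace_fin_two] at h
      have := congrArg (Int.cast : ℤ → ZMod p) h
      push_cast at this
      exact this
    have h3 : (d ^ 2 - 1) ^ 2 = 0 := by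
      linear_combination d ^ 2 * h2 - (a * d + 1 + 2 * d ^ 2) * h1
    have h4 : d ^ 2 = 1 := by
      have := pow_eq_zero_iff (two_ne_zero) |>.mp h3
      linear_combination this
    have h5 : dU p γ ^ 12 = 1 := by
      apply Units.ext
      rw [Units.val_pow_eq_pow_val, coe_dU, ← hd, Units.val_one]
      calc d ^ 12 = (d ^ 2) ^ 6 := by ring
        _ = 1 := by rw [h4, one_pow]
    rw [h5]; rfl
  · rw [chi_apply, ← map_pow, h, map_one]; rfl

theorem entry11 {δ δ' : GL (Fin 2) ℝ} {γ γ' : SL(2, ℤ)} {D D' b' : ℤ}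
    (h10 : δ 1 0 = 0) (h11 : δ 1 1 = (D : ℝ)) (h01' : δ' 0 1 = (b' : ℝ)) (h11' : δ' 1 1 = (D' : ℝ))
    (hmul : δ * mapGL ℝ γ = mapGL ℝ γ' * δ') : D * γ 1 1 = γ' 1 0 * b' + γ' 1 1 * D' := by
  have h := congrArg (fun M : GL (Fin 2) ℝ => M 1 1) hmul
  simp only [Matrix.GeneralLinearGroup.coe_mul, Matrix.mul_apply, Fin.sum_univ_two, h10, h11, h01', h11',
    P2MW.S_ModularForm_heckeT_slash_eq_self_of_mem_Gamma0.ModularForm.HeckeSlashInvariance.mapGL_apply] at h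
  have h' : ((D * γ 1 1 : ℤ) : ℝ) = ((γ' 1 0 * b' + γ' 1 1 * D' : ℤ) : ℝ) := by
    push_cast
    linarith
  exact_mod_cast h'

theorem entry00 {δ δ' : GL (Fin 2) ℝ} {γ γ' : SL(2, ℤ)} {b : ℤ}
    (h00 : δ 0 0 = 1) (h01 : δ 0 1 = (b : ℝ)) (h00' : δ' 0 0 = 1) (h10' : δ' 1 0 = 0)
    (hmul : δ * mapGL ℝ γ = mapGL ℝ γ' * δ') : γ 0 0 + b * γ 1 0 = γ' 0 0 := by
  have h := congrArg (fun M : GL (Fin 2) ℝ => M 0 0) hmul
  simp only [Matrix.GeneralLinearGroup.coe_mul, Matrix.mul_apply, Fin.sum_univ_two, h00, h01, h00', h10',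
    P2MW.S_ModularForm_heckeT_slash_eq_self_of_mem_Gamma0.ModularForm.HeckeSlashInvariance.mapGL_apply] at h
  have h' : ((γ 0 0 + b * γ 1 0 : ℤ) : ℝ) = ((γ' 0 0 : ℤ) : ℝ) := by
    push_cast
    linarith
  exact_mod_cast h'

open P2MW.S_ModularForm_heckeT_slash_eq_self_of_mem_Gamma0.ModularForm.HeckeSlashInvariance in
open ModularForm in
theorem prod_dU_T [Fact p.Prime] {ℓ : ℕ} [Fact ℓ.Prime] (hℓp : ¬ ℓ ∣ p) (γ : Gamma0 p)
    (γ' : OnePoint (ZMod ℓ) → Gamma0 p) (σ : Equiv.Perm (OnePoint (ZMod ℓ)))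
    (hmul : ∀ u, heckeRep ℓ u * mapGL ℝ (γ : SL(2, ℤ))
      = mapGL ℝ (γ' u : SL(2, ℤ)) * heckeRep ℓ (σ u)) :
    ∏ u, dU p (γ' u) = dU p γ ^ (ℓ + 1) := by
  have hℓ0 : ℓ ≠ 0 := (Fact.out : ℓ.Prime).ne_zero
  obtain ⟨D, b, hD, h10, h11, h01⟩ : ∃ (D b : OnePoint (ZMod ℓ) → ℤ), (∀ u, D u = 1 ∨ D u = ℓ) ∧
      (∀ u, heckeRep ℓ u 1 0 = 0) ∧ (∀ u, heckeRep ℓ u 1 1 = (D u : ℝ)) ∧
      (∀ u, heckeRep ℓ u 0 1 = (b u : ℝ)) := by
    refine ⟨fun u => u.elim 1 (fun _ => ℓ), fun u => u.elim 0 (fun j => j.val), ?_, ?_, ?_, ?_⟩ <;>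
    · intro u
      induction u using OnePoint.rec with
      | infty => simp [val_heckeDiagMatrix hℓ0]
      | coe j => simp [val_heckeMatrix hℓ0]
  have hne : ∀ u, ((D u : ℤ) : ZMod p) ≠ 0 := by
    intro u
    rcases hD u with h | h
    · rw [h]; simp
    · rw [h, Int.cast_natCast, Ne, ZMod.natCast_eq_zero_iff]
      intro hdvd
      exact hℓp (((Nat.prime_dvd_prime_iff_eq Fact.out Fact.out).mp hdvd) ▸ dvd_rfl)
  have key : ∀ u, ((D u : ℤ) : ZMod p) * (dU p γ : ZMod p)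
      = (dU p (γ' u) : ZMod p) * ((D (σ u) : ℤ) : ZMod p) := by
    intro u
    have h := entry11 (h10 u) (h11 u) (h01 (σ u)) (h11 (σ u)) (hmul u)
    have h' := congrArg (Int.cast : ℤ → ZMod p) h
    push_cast at h'
    rw [Gamma0_mem.mp (γ' u).2, zero_mul, zero_add] at h'
    exact h'
  apply Units.ext
  rw [Units.coe_prod, Units.val_pow_eq_pow_val]
  have h1 : ∏ u, (((D u : ℤ) : ZMod p) * (dU p γ : ZMod p))
      = ∏ u, ((dU p (γ' u) : ZMod p) * ((D (σ u) : ℤ) : ZMod p)) :=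
    Finset.prod_congr rfl fun u _ => key u
  rw [Finset.prod_mul_distrib, Finset.prod_mul_distrib,
    Equiv.prod_comp σ (fun u => ((D u : ℤ) : ZMod p)), Finset.prod_const, Finset.card_univ] at h1
  have hcard : Fintype.card (OnePoint (ZMod ℓ)) = ℓ + 1 := by
    have : Fintype.card (Option (ZMod ℓ)) = ℓ + 1 := by rw [Fintype.card_option, ZMod.card]
    exact this
  rw [hcard] at h1
  have h2 : ∏ u, ((D u : ℤ) : ZMod p) ≠ 0 := Finset.prod_ne_zero_iff.mpr fun u _ => hne u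
  apply mul_left_cancel₀ h2
  rw [h1, mul_comm]

open P2MW.S_ModularForm_heckeT_slash_eq_self_of_mem_Gamma0.ModularForm.HeckeSlashInvariance in
open ModularForm in
theorem dU_U [NeZero p] (γ : Gamma0 p) (γ' : Gamma0 p) (j j' : ℕ)
    (hmul : heckeMatrix p j * mapGL ℝ (γ : SL(2, ℤ)) = mapGL ℝ (γ' : SL(2, ℤ)) * heckeMatrix p j') :
    dU p γ' = dU p γ := by
  have hp0 : p ≠ 0 := NeZero.ne p
  have h := entry00 (δ := heckeMatrix p j) (δ' := heckeMatrix p j') (b := (j : ℤ))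
    (by simp [val_heckeMatrix hp0]) (by simp [val_heckeMatrix hp0]) (by simp [val_heckeMatrix hp0])
    (by simp [val_heckeMatrix hp0]) hmul
  have h' := congrArg (Int.cast : ℤ → ZMod p) h
  push_cast at h'
  rw [Gamma0_mem.mp γ.2, mul_zero, add_zero] at h'
  apply Units.ext
  rw [coe_dU, coe_dU]
  have h1 := a_mul_d p γ
  have h2 := a_mul_d p γ'
  rw [← h'] at h2
  calc (((γ' : SL(2, ℤ)) 1 1 : ℤ) : ZMod p)
      = ((((γ : SL(2, ℤ)) 0 0 : ℤ) : ZMod p) * (((γ : SL(2, ℤ)) 1 1 : ℤ) : ZMod p))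
          * (((γ' : SL(2, ℤ)) 1 1 : ℤ) : ZMod p) := by rw [h1, one_mul]
    _ = ((((γ : SL(2, ℤ)) 0 0 : ℤ) : ZMod p) * (((γ' : SL(2, ℤ)) 1 1 : ℤ) : ZMod p))
          * (((γ : SL(2, ℤ)) 1 1 : ℤ) : ZMod p) := by ring
    _ = _ := by rw [h2, one_mul]

end chi

section main

variable (p : ℕ) [Fact p.Prime]

/-- the action of the Hecke algebra on the period lattice. -/
noncomputable def act (t : heckeAlgebra p 2 ∅) (l : ↥(Lat p 0)) : ↥(Lat p 0) :=
  ⟨(l : CuspForm (Gamma0 p) (((0 : ℕ) : ℤ) + 2) →ₗ[ℂ] ℂ) ∘ₗ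
      (t : Module.End ℂ (CuspForm (Gamma0 p) 2)),
    comp_mem_Lat_of_mem_heckeAlgebra (m := 0) (S := ∅) t.2 l.2⟩

theorem act_apply (t : heckeAlgebra p 2 ∅) (l : ↥(Lat p 0)) (f : CuspForm (Gamma0 p) 2) :
    (act p t l : CuspForm (Gamma0 p) (((0 : ℕ) : ℤ) + 2) →ₗ[ℂ] ℂ) f
      = (l : CuspForm (Gamma0 p) (((0 : ℕ) : ℤ) + 2) →ₗ[ℂ] ℂ)
          ((t : Module.End ℂ (CuspForm (Gamma0 p) 2)) f) := rfl

theorem act_add (s t : heckeAlgebra p 2 ∅) (l : ↥(Lat p 0)) :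
    act p (s + t) l = act p s l + act p t l := by
  apply Subtype.ext
  ext f
  exact map_add (l : CuspForm (Gamma0 p) (((0 : ℕ) : ℤ) + 2) →ₗ[ℂ] ℂ) _ _

theorem act_mul (s t : heckeAlgebra p 2 ∅) (l : ↥(Lat p 0)) :
    act p (s * t) l = act p t (act p s l) := rfl

theorem act_algebraMap (a : ℤ) (l : ↥(Lat p 0)) :
    act p (algebraMap ℤ (heckeAlgebra p 2 ∅) a) l = a • l := by
  apply Subtype.ext
  ext f
  rw [act_apply]
  have h1 : ((algebraMap ℤ (heckeAlgebra p 2 ∅) a : heckeAlgebra p 2 ∅) :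
      Module.End ℂ (CuspForm (Gamma0 p) 2)) f = a • f := by
    simp
  rw [h1]
  exact map_zsmul (l : CuspForm (Gamma0 p) (((0 : ℕ) : ℤ) + 2) →ₗ[ℂ] ℂ) a f

theorem act_zero (l : ↥(Lat p 0)) : act p 0 l = 0 := by
  apply Subtype.ext
  ext f
  exact map_zero (l : CuspForm (Gamma0 p) (((0 : ℕ) : ℤ) + 2) →ₗ[ℂ] ℂ)

theorem coe_sum_lam_apply {ι : Type*} [Fintype ι] (γ' : ι → Gamma0 p) (f : CuspForm (Gamma0 p) 2) :
    ((∑ u, lam p (Additive.ofMul (γ' u)) : ↥(Lat p 0)) :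
      CuspForm (Gamma0 p) (((0 : ℕ) : ℤ) + 2) →ₗ[ℂ] ℂ) f
      = ∑ u, ModularCurve.periodMap p f (Additive.ofMul (γ' u)) := by
  rw [AddSubmonoidClass.coe_finsetSum, LinearMap.sum_apply]
  exact Finset.sum_congr rfl fun u _ => lam_apply p (γ' u) f

variable {p} in
theorem y_gen (y : ↥(Lat p 0) →+ Additive (ZMod p)ˣ) (hy : ∀ γ, y (lam p γ) = chi p γ)
    (ℓ : Nat.Primes) (l : ↥(Lat p 0)) :
    y (act p (heckeFormsGen p 2 ℓ) l) = eisensteinSystem p ℓ • y l := by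
  obtain ⟨γ, rfl⟩ := lam_surjective p l
  obtain ⟨γ, rfl⟩ := Additive.ofMul.surjective γ
  rw [hy, chi_apply]
  obtain ⟨q, hq⟩ := ℓ
  by_cases h : q ∣ p
  · rw [heckeFormsGen_of_dvd (q := ⟨q, hq⟩) h, eisensteinSystem_of_dvd (ℓ := ⟨q, hq⟩) h, one_smul]
    obtain rfl : q = p := (Nat.prime_dvd_prime_iff_eq hq Fact.out).mp h
    obtain ⟨γ', σ, hmul, hper⟩ := period_heckeU (N := q) (q := q) h γ
    have h1 : act q (heckeAlgebra.U hq h (Set.notMem_empty _)) (lam q (Additive.ofMul γ))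
        = ∑ u, lam q (Additive.ofMul (γ' u)) := by
      apply Subtype.ext
      ext f
      rw [act_apply, coe_sum_lam_apply, lam_apply]
      exact hper f
    rw [h1, map_sum]
    have h2 : ∀ u, y (lam q (Additive.ofMul (γ' u))) = Additive.ofMul (dU q γ ^ 12) := by
      intro u
      rw [hy, chi_apply, dU_U q γ (γ' u) _ _ (hmul u)]
    rw [Finset.sum_congr rfl fun u _ => h2 u, Finset.sum_const, Finset.card_univ, ZMod.card,
      ← ofMul_pow]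
    congr 1
    have h3 := ZMod.units_pow_card_sub_one_eq_one q (dU q γ ^ 12)
    calc (dU q γ ^ 12) ^ q = (dU q γ ^ 12) ^ (q - 1 + 1) := by
          rw [Nat.sub_add_cancel hq.one_le]
      _ = dU q γ ^ 12 := by rw [pow_succ, h3, one_mul]
  · rw [heckeFormsGen_of_not_dvd (ℓ := ⟨q, hq⟩) h, eisensteinSystem_of_not_dvd (ℓ := ⟨q, hq⟩) h]
    have : Fact q.Prime := ⟨hq⟩
    obtain ⟨γ', σ, hmul, hper⟩ := period_heckeT (N := p) hq h γ
    have h1 : act p (heckeAlgebra.T hq h (Set.notMem_empty _)) (lam p (Additive.ofMul γ))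
        = ∑ u, lam p (Additive.ofMul (γ' u)) := by
      apply Subtype.ext
      ext f
      rw [act_apply, coe_sum_lam_apply, lam_apply]
      exact hper f
    rw [h1, map_sum]
    have h2 : ∀ u, y (lam p (Additive.ofMul (γ' u))) = Additive.ofMul (dU p (γ' u) ^ 12) := by
      intro u
      rw [hy, chi_apply]
    rw [Finset.sum_congr rfl fun u _ => h2 u, ← ofMul_prod, Finset.prod_pow,
      prod_dU_T p h γ γ' σ hmul]
    have h3 : (1 + ((⟨q, hq⟩ : Nat.Primes) : ℕ) : ℤ) = ((q + 1 : ℕ) : ℤ) := by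
      push_cast; ring
    rw [h3, natCast_zsmul, ← ofMul_pow]
    congr 1
    rw [← pow_mul, ← pow_mul, mul_comm]

variable {p} in
theorem y_act (y : ↥(Lat p 0) →+ Additive (ZMod p)ˣ) (hy : ∀ γ, y (lam p γ) = chi p γ)
    (P : HeckeAlg) : ∀ l : ↥(Lat p 0),
    y (act p (heckeEvalForms p 2 P) l) = (MvPolynomial.aeval (eisensteinSystem p) P : ℤ) • y l := by
  induction P using MvPolynomial.induction_on with
  | C a =>
    intro l
    rw [heckeEvalForms_C, act_algebraMap, map_zsmul, MvPolynomial.aeval_C]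
    rfl
  | add P Q hP hQ =>
    intro l
    rw [map_add, act_add, map_add, hP, hQ, map_add, add_zsmul]
  | mul_X P i hP =>
    intro l
    rw [map_mul, act_mul, map_mul, MvPolynomial.aeval_X]
    have : heckeEvalForms p 2 (MvPolynomial.X i) = heckeFormsGen p 2 i :=
      heckeEvalForms_heckeGen p 2 i
    rw [this, y_gen y hy, hP, mul_zsmul']

theorem dU_surjective : Function.Surjective (dU p) := by
  intro x
  have hcop : IsCoprime ((x : ZMod p).val : ℤ) (p : ℤ) := by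
    rw [Nat.isCoprime_iff_coprime]
    exact (ZMod.val_coe_unit_coprime x)
  obtain ⟨a, b, hab⟩ := hcop
  let g : SL(2, ℤ) := ⟨!![a, -b; (p : ℤ), ((x : ZMod p).val : ℤ)], by
    rw [Matrix.det_fin_two_of]; linarith⟩
  have hg : g ∈ Gamma0 p := by
    rw [Gamma0_mem]
    simp [g]
  refine ⟨⟨g, hg⟩, ?_⟩
  apply Units.ext
  rw [coe_dU]
  simp [g]

end main

end Lower

open Lower in
theorem lower (p : ℕ) [Fact p.Prime] (P : HeckeAlg) (hP : heckeEvalForms p 2 P = 0) :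
    (eisensteinNumerator p : ℤ) ∣ MvPolynomial.aeval (eisensteinSystem p) P := by
  obtain ⟨y, hy⟩ := exists_factor p (Additive (ZMod p)ˣ) (chi p) (chi_parEll p)
  set ε : ℤ := MvPolynomial.aeval (eisensteinSystem p) P with hε
  have h0 : ∀ γ : Gamma0 p, ε • chi p (Additive.ofMul γ) = 0 := by
    intro γ
    rw [← hy, hε, ← y_act y hy P, hP, act_zero, map_zero]
  obtain ⟨ω, hω⟩ := IsCyclic.exists_generator (α := (ZMod p)ˣ)
  have hord : orderOf ω = p - 1 := by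
    rw [orderOf_eq_card_of_forall_mem_zpowers hω, Nat.card_eq_fintype_card, ZMod.card_units]
  obtain ⟨γ, hγ⟩ := dU_surjective p ω
  have h1 : ω ^ (12 * ε) = 1 := by
    have := h0 γ
    rw [chi_apply, hγ, ← ofMul_zpow] at this
    have h2 : (ω ^ 12) ^ ε = 1 := this
    rw [zpow_mul]
    exact_mod_cast h2
  have h2 : ((p - 1 : ℕ) : ℤ) ∣ 12 * ε := by
    rw [← hord]
    exact orderOf_dvd_iff_zpow_eq_one.mpr h1
  unfold eisensteinNumerator
  set g := Nat.gcd (p - 1) 12 with hg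
  have hgpos : 0 < g := Nat.gcd_pos_of_pos_right _ (by norm_num)
  have hcop : Nat.Coprime ((p - 1) / g) (12 / g) := Nat.coprime_div_gcd_div_gcd hgpos
  have e1 : (p - 1) = g * ((p - 1) / g) := (Nat.mul_div_cancel' (Nat.gcd_dvd_left _ _)).symm
  have e2 : 12 = g * (12 / g) := (Nat.mul_div_cancel' (Nat.gcd_dvd_right _ _)).symm
  have h3 : ((g : ℤ) * (((p - 1) / g : ℕ) : ℤ)) ∣ (g : ℤ) * (((12 / g : ℕ) : ℤ) * ε) := by
    have e1' : ((p - 1 : ℕ) : ℤ) = (g : ℤ) * (((p - 1) / g : ℕ) : ℤ) := by exact_mod_cast e1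
    have e2' : (12 : ℤ) = (g : ℤ) * (((12 / g : ℕ) : ℤ)) := by exact_mod_cast e2
    rw [← e1', ← mul_assoc, ← e2']
    exact h2
  have h4 := (mul_dvd_mul_iff_left (by exact_mod_cast hgpos.ne' : (g : ℤ) ≠ 0)).mp h3
  exact (Nat.isCoprime_iff_coprime.mpr hcop).dvd_of_dvd_mul_left h4

end Fermat.Agent.S16
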