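import Fermat.Agent.S16.Defs
import Fermat.Agent.S20
import Fermat.Agent.S23.Main

/-!
# S16/Small : `p ∈ {2, 3}`   (tiny)
`S₂(Γ₀(p)) = 0` by `Fermat.Agent.S20.result` (`genusFormula 2 = genusFormula 3 = 0`),
so `End = 0`, `ev 1 = 0`, `ε(1) = 1 = eisensteinNumerator p`.
-/

set_option autoImplicit false

open CongruenceSubgroup ModularCurve CuspForm

namespace Fermat.Agent.S16

namespace Small

theorem nuTwo_two : nuTwo 2 = 1 := by
  unfold nuTwo
  rw [Nat.card_eq_fintype_card]
  decide

theorem nuThree_two : nuThree 2 = 0 := by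
  unfold nuThree
  rw [Nat.card_eq_fintype_card]
  decide

theorem nuTwo_three : nuTwo 3 = 0 := by
  unfold nuTwo
  rw [Nat.card_eq_fintype_card]
  decide

theorem nuThree_three : nuThree 3 = 1 := by
  unfold nuThree
  rw [Nat.card_eq_fintype_card]
  decide

theorem dedekindPsi_prime (p : ℕ) (hp : p.Prime) : dedekindPsi p = p + 1 := by
  unfold dedekindPsi
  rw [Nat.Prime.divisors hp, Finset.filter_true_of_mem, Finset.sum_pair hp.one_lt.ne,
    Nat.div_one, Nat.div_self hp.pos]
  intro d hd
  rcases Finset.mem_insert.1 hd with rfl | hd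
  · exact squarefree_one
  · rw [Finset.mem_singleton] at hd
    subst hd
    exact hp.prime.irreducible.squarefree

theorem genus_two : genusFormula 2 = 0 := by
  have h1 : dedekindPsi 2 = 3 := dedekindPsi_prime 2 Nat.prime_two
  have h2 : cuspCount 2 = 2 := by decide
  rw [genusFormula, h1, h2, nuTwo_two, nuThree_two]
  norm_num

theorem genus_three : genusFormula 3 = 0 := by
  have h1 : dedekindPsi 3 = 4 := dedekindPsi_prime 3 Nat.prime_three
  have h2 : cuspCount 3 = 2 := by decide
  rw [genusFormula, h1, h2, nuTwo_three, nuThree_three]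
  norm_num

end Small

theorem small_case (p : ℕ) [Fact p.Prime] (hp : p < 5) :
    ∃ P : HeckeAlg, heckeEvalForms p 2 P = 0 ∧
      MvPolynomial.aeval (eisensteinSystem p) P = (eisensteinNumerator p : ℤ) := by
  have hpp : p.Prime := Fact.out
  have : NeZero p := ⟨hpp.ne_zero⟩
  have hg : genusFormula p = 0 ∧ eisensteinNumerator p = 1 := by
    have h2 := hpp.two_le
    interval_cases p
    · exact ⟨Small.genus_two, by decide⟩
    · exact ⟨Small.genus_three, by decide⟩
    · exact absurd hpp (by decide)
  have h0 : Module.finrank ℂ (CuspForm (Gamma0 p) 2) = 0 := by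
    have := Fermat.Agent.S20.result p
    rw [hg.1] at this
    exact_mod_cast this
  have := Fermat.Agent.S23.finiteDimensional_cuspForm p 2
  have hs : Subsingleton (CuspForm (Gamma0 p) 2) := Module.finrank_zero_iff.1 h0
  refine ⟨1, ?_, ?_⟩
  · apply Subtype.ext
    apply LinearMap.ext
    intro f
    exact Subsingleton.elim _ _
  · rw [hg.2]
    simp

end Fermat.Agent.S16
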