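import Fermat.Agent.S16.TS

/-!
# S16/R2 : the residual case `ℓ = 2`, `8 ∣ p + 1`  (FORMAL, application of `TS` with `i = 4`)

Write `p + 1 = 8 t`, `P = (p-1)/2 = 4 t - 1` (odd), `d = 2 e`.  `𝔾 = 2 𝔾₁`, `𝔾₁ = P + 12 d = P + 24 e`,
`𝔾₁' = -(P + 24 U e)` (`PF.snd_eq`, `PF.cancel` with `c = 2`).
`X = sigSer 3`, `W = (5 sigSer 3 + 7 sigSer 5)/12 ∈ ℤ[[q]]` (`12 ∣ 5 σ₃(n) + 7 σ₅(n)` since `12 ∣ 5 x³ + 7 x⁵` for all integers `x`), so
`E₄ = 1 + 240 X`, `E₆ = 1 - 864 W + 360 X`.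
The `b₈`-form (weight 8, `i = 4`):   `num  = -𝔾₁⁴ + 6 𝔾₁² P² E₄ - 8 𝔾₁ P³ E₆ + 3 P⁴ E₄²`,
                                    `num' = -𝔾₁'⁴ + 6 𝔾₁'² P² p² E₄(q^p) - 8 𝔾₁' P³ p³ E₆(q^p) + 3 P⁴ p⁴ E₄(q^p)²`
`PF p 4 num num'` by `PF.pow/mul/smul/add/sub/of_L1` (`L1_E4`, `L1_E6`; `L1 8 (E4ser^2)` is not needed: multiply pair forms).
POLYNOMIAL IDENTITIES (checked by computer; prove with `ring` after substituting `p = 8 t - 1`, `P = 4 t - 1`):
  `num  = 6912 P⁴ (W + 25 X²) + 512 Qinf(t, e, X, W)`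
  `num' = 6912 p⁴ P⁴ (W' + 25 X'²) + 512 Q0(t, e', X', W')`,   `e' = U e`, `X' = expand p X`, `W' = expand p W`,
 Qinf = (-324)*e*W + (1620)*e^2*X + (108)*e^3 + (-648)*e^4 + (3888)*t*e*W + (-12960)*t*e^2*X + (-432)*t*e^3 + (-15552)*t^2*e*W + (25920)*t^2*e^2*X + (20736)*t^3*e*W
 Q0 = (-324)*e*W + (1620)*e^2*X + (108)*e^3 + (-648)*e^4 + (108)*t*W + (11664)*t*e*W + (-1080)*t*e*X + (-108)*t*e^2 + (-38880)*t*e^2*X + (-432)*t*e^3 + (-4320)*t^2*W + (180)*t^2*X + (36)*t^2*e + (-171072)*t^2*e*W + (30240)*t^2*e*X + (1296)*t^2*e^2 + (336960)*t^2*e^2*X + (-4)*t^3 + (72576)*t^3*W + (-5760)*t^3*X + (-624)*t^3*e + (1306368)*t^3*e*W + (-328320)*t^3*e*X + (-5184)*t^3*e^2 + (-1244160)*t^3*e^2*X + (88)*t^4 + (-663552)*t^4*W + (74880)*t^4*X + (4032)*t^4*e + (-5474304)*t^4*e*W + (1728000)*t^4*e*X + (6912)*t^4*e^2 + (1658880)*t^4*e^2*X + (-768)*t^5 + (3566592)*t^5*W + (-506880)*t^5*X + (-11520)*t^5*e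 + (11943936)*t^5*e*W + (-4423680)*t^5*e*X + (3328)*t^6 + (-11280384)*t^6*W + (1889280)*t^6*X + (12288)*t^6*e + (-10616832)*t^6*e*W + (4423680)*t^6*e*X + (-7168)*t^7 + (19464192)*t^7*W + (-3686400)*t^7*X + (6144)*t^8 + (-14155776)*t^8*W + (2949120)*t^8*X
Hence `num = 256 h`, `num' = 256 h'`, `h = s + 2 Qinf`, `h' = p⁴ expand p s + 2 Q0`, `s = 27 P⁴ (W + 25 X²)`; `PF.cancel` (`c = 256`).
`s₀ = 0`, `s₁ = 27 P⁴` odd.  `TS` (`ℓ = 2`, `12 n ≤ 8 ⇒ n = 0`) gives `2 ∣ s₁`: contradiction.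
-/

set_option autoImplicit false
set_option linter.unusedVariables false

namespace Fermat.Agent.S16

open PowerSeries

def r2Qinf {R : Type*} [CommRing R] (t e X W : R) : R :=
  (-324)*e*W + (1620)*e^2*X + (108)*e^3 + (-648)*e^4 + (3888)*t*e*W + (-12960)*t*e^2*X + (-432)*t*e^3 + (-15552)*t^2*e*W + (25920)*t^2*e^2*X + (20736)*t^3*e*W

def r2Q0 {R : Type*} [CommRing R] (t e X W : R) : R :=
  (-324)*e*W + (1620)*e^2*X + (108)*e^3 + (-648)*e^4 + (108)*t*W + (11664)*t*e*W + (-1080)*t*e*X + (-108)*t*e^2 + (-38880)*t*e^2*X + (-432)*t*e^3 + (-4320)*t^2*W + (180)*t^2*X + (36)*t^2*e + (-171072)*t^2*e*W + (30240)*t^2*e*X + (1296)*t^2*e^2 + (336960)*t^2*e^2*X + (-4)*t^3 + (72576)*t^3*W + (-5760)*t^3*X + (-624)*t^3*e + (1306368)*t^3*e*W + (-328320)*t^3*e*X + (-5184)*t^3*e^2 + (-1244160)*t^3*e^2*X + (88)*t^4 + (-663552)*t^4*W + (74880)*t^4*X + (4032)*t^4*e + (-5474304)*t^4*e*W + (1728000)*t^4*e*X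 + (6912)*t^4*e^2 + (1658880)*t^4*e^2*X + (-768)*t^5 + (3566592)*t^5*W + (-506880)*t^5*X + (-11520)*t^5*e + (11943936)*t^5*e*W + (-4423680)*t^5*e*X + (3328)*t^6 + (-11280384)*t^6*W + (1889280)*t^6*X + (12288)*t^6*e + (-10616832)*t^6*e*W + (4423680)*t^6*e*X + (-7168)*t^7 + (19464192)*t^7*W + (-3686400)*t^7*X + (6144)*t^8 + (-14155776)*t^8*W + (2949120)*t^8*X

theorem r2_id_inf {R : Type*} [CommRing R] (t e X W : R) :
    -((4*t-1) + 24*e)^4 + 6 * ((4*t-1) + 24*e)^2 * (4*t-1)^2 * (1 + 240*X)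
      - 8 * ((4*t-1) + 24*e) * (4*t-1)^3 * (1 - 864*W + 360*X) + 3 * (4*t-1)^4 * (1 + 240*X)^2
    = 256 * (27 * (4*t-1)^4 * (W + 25*X^2) + 2 * r2Qinf t e X W) := by
  rw [r2Qinf]; ring

theorem r2_id_zero {R : Type*} [CommRing R] (t e X W : R) :
    -(-((4*t-1) + 24*e))^4 + 6 * (-((4*t-1) + 24*e))^2 * (4*t-1)^2 * ((8*t-1)^2 * (1 + 240*X))
      - 8 * (-((4*t-1) + 24*e)) * (4*t-1)^3 * ((8*t-1)^3 * (1 - 864*W + 360*X))
      + 3 * (4*t-1)^4 * ((8*t-1)^2 * (1 + 240*X))^2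
    = 256 * ((8*t-1)^4 * (27 * (4*t-1)^4 * (W + 25*X^2)) + 2 * r2Q0 t e X W) := by
  rw [r2Q0]; ring


theorem r2_dvd12 (x : ℤ) : (12 : ℤ) ∣ 5 * x ^ 3 + 7 * x ^ 5 := by
  have h : ∀ y : ZMod 12, 5 * y ^ 3 + 7 * y ^ 5 = 0 := by decide
  have := h (x : ZMod 12)
  have h2 : ((12 : ℕ) : ℤ) ∣ 5 * x ^ 3 + 7 * x ^ 5 := by
    rw [← (ZMod.intCast_zmod_eq_zero_iff_dvd _ 12)]
    push_cast
    exact this
  exact_mod_cast h2

theorem r2_dvd12_sigma (n : ℕ) :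
    (12 : ℤ) ∣ 5 * (sigSer 3).coeff n + 7 * (sigSer 5).coeff n := by
  simp only [sigSer, coeff_mk]
  split_ifs with h
  · simp
  · rw [ArithmeticFunction.sigma_apply, ArithmeticFunction.sigma_apply]
    push_cast
    rw [Finset.mul_sum, Finset.mul_sum, ← Finset.sum_add_distrib]
    exact Finset.dvd_sum fun d _ => r2_dvd12 d

/-- `W = (5 σ₃ + 7 σ₅)/12` -/
noncomputable def r2W : PowerSeries ℤ :=
  PowerSeries.mk fun n => (5 * (sigSer 3).coeff n + 7 * (sigSer 5).coeff n) / 12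

theorem r2W_spec : 12 * r2W = 5 * sigSer 3 + 7 * sigSer 5 := by
  ext n
  have h12 : (12 : PowerSeries ℤ) = C 12 := by simp
  have h5 : (5 : PowerSeries ℤ) = C 5 := by simp
  have h7 : (7 : PowerSeries ℤ) = C 7 := by simp
  rw [h12, h5, h7, map_add, coeff_C_mul, coeff_C_mul, coeff_C_mul, r2W, coeff_mk,
    Int.mul_ediv_cancel' (r2_dvd12_sigma n)]

theorem r2_E6 : E6ser = 1 - 864 * r2W + 360 * sigSer 3 := by
  rw [E6ser]
  linear_combination (72 : PowerSeries ℤ) * r2W_spec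

theorem Up_C (p : ℕ) (hp : p ≠ 0) (c : ℤ) : Up p (C c) = C c := by
  ext n
  rw [coeff_Up, coeff_C, coeff_C]
  simp [hp]

theorem R2 {p : ℕ} [Fact p.Prime] (hp5 : 5 ≤ p) (hdvd : 8 ∣ p + 1)
    {d b : PowerSeries ℤ} (hd0 : d.coeff 0 = 0)
    (hG : PF p 1 (C ((p : ℤ) - 1) + 24 * d) b) (hM : ∀ k, (2 : ℤ) ∣ d.coeff k) : False := by
  have hp0 : p ≠ 0 := (Fact.out : p.Prime).ne_zero
  obtain ⟨t, ht⟩ := hdvd
  have hpt : (p : ℤ) = 8 * t - 1 := by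
    have : ((p + 1 : ℕ) : ℤ) = ((8 * t : ℕ) : ℤ) := by rw [ht]
    push_cast at this
    linarith
  -- `d = 2 e`
  set e : PowerSeries ℤ := PowerSeries.mk fun k => d.coeff k / 2 with he
  have hde : d = C 2 * e := by
    ext k
    rw [coeff_C_mul, he, coeff_mk, Int.mul_ediv_cancel' (hM k)]
  set T : PowerSeries ℤ := C (t : ℤ) with hT
  have hC : ∀ n : ℕ, (C ((p : ℤ) ^ n) : PowerSeries ℤ) = (8 * T - 1) ^ n := by
    intro n
    rw [hpt, hT, map_pow, map_sub, map_mul, map_one]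
    congr 2
  have hb := hG.snd_eq
  set e' := Up p e with he'
  have h24 : (24 : PowerSeries ℤ) = C 24 := by simp
  have h2 : (C 2 : PowerSeries ℤ) = 2 := by simp
  have hCp : (C ((p : ℤ) - 1) : PowerSeries ℤ) = 2 * (4 * T - 1) := by
    rw [hpt, hT, h2.symm]
    have : ((8 : ℤ) * t - 1 - 1) = 2 * (4 * t - 1) := by ring
    rw [this, map_mul, map_sub, map_mul, map_one]
    congr 2
  have hG1 : PF p 1 ((4 * T - 1) + 24 * e) (-((4 * T - 1) + 24 * e')) := by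
    apply PF.cancel (c := 2) (by norm_num)
    convert hG using 1
    · rw [hCp, hde, h2]; ring
    · rw [hb, Up_add, Up_C p hp0, h24, Up_C_mul, hde, Up_C_mul, hCp, h2, ← he']; ring
  set X := sigSer 3 with hX
  set W := r2W with hW
  set X' := expand p (NeZero.ne p) X with hX'
  set W' := expand p (NeZero.ne p) W with hW'
  have hE4 : PF p 2 (1 + 240 * X) ((8 * T - 1) ^ 2 * (1 + 240 * X')) := by
    have := PF.of_L1 (p := p) (i := 2) L1_E4
    rw [hC, E4ser] at this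
    simpa only [map_add, map_mul, map_one, map_ofNat] using this
  have hE6 : PF p 3 (1 - 864 * W + 360 * X) ((8 * T - 1) ^ 3 * (1 - 864 * W' + 360 * X')) := by
    have := PF.of_L1 (p := p) (i := 3) L1_E6
    rw [hC, r2_E6] at this
    simpa only [map_add, map_sub, map_mul, map_one, map_ofNat] using this
  set P0 : ℤ := 4 * t - 1 with hP0
  have hCP0 : (C P0 : PowerSeries ℤ) = 4 * T - 1 := by
    rw [hP0, hT, map_sub, map_mul, map_one]
    congr 2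
  have h256 : (C 256 : PowerSeries ℤ) = 256 := by simp
  have hc6 : (C 6 : PowerSeries ℤ) = 6 := by simp
  have hc8 : (C 8 : PowerSeries ℤ) = 8 := by simp
  have hc3 : (C 3 : PowerSeries ℤ) = 3 := by simp
  set s : PowerSeries ℤ := 27 * (4 * T - 1) ^ 4 * (W + 25 * X ^ 2) with hs
  have hnum : PF p 4 (C 256 * (s + 2 * r2Qinf T e X W))
      (C 256 * ((8 * T - 1) ^ 4 * (27 * (4 * T - 1) ^ 4 * (W' + 25 * X' ^ 2)) + 2 * r2Q0 T e' X' W')) := by
    have h := (((hG1.pow 4).neg.add (((hG1.pow 2).mul hE4).smul (6 * P0 ^ 2))).sub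
      ((hG1.mul hE6).smul (8 * P0 ^ 3))).add ((hE4.pow 2).smul (3 * P0 ^ 4))
    convert h using 1
    · rw [h256, hs, ← r2_id_inf]
      simp only [map_mul, map_pow, hCP0, hc6, hc8, hc3]
      ring
    · rw [h256, ← r2_id_zero]
      simp only [map_mul, map_pow, hCP0, hc6, hc8, hc3]
      ring
  have hh := PF.cancel (c := 256) (by norm_num) hnum
  have hc2 : (2 : PowerSeries ℤ) = C 2 := by simp
  have hexp : expand p (NeZero.ne p) s = 27 * (4 * T - 1) ^ 4 * (W' + 25 * X' ^ 2) := by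
    rw [hs, hT]
    simp only [map_add, map_sub, map_mul, map_pow, map_one, map_ofNat, expand_C]
    rfl
  have key := TS (p := p) (ℓ := 2) Nat.prime_two (Dvd.dvd.trans (by norm_num) ⟨t, ht⟩) (i := 4)
    (by norm_num) (s := s) hh ?_ ?_ ?_ 1
  · have hs' : s = C (27 * P0 ^ 4) * (W + C 25 * X ^ 2) := by
      rw [hs, map_mul, map_pow, hCP0]
      congr 2
    have hX0 : X.coeff 0 = 0 := by simp [hX, sigSer]
    have hX2 : (X ^ 2).coeff 1 = 0 := by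
      rw [pow_two, coeff_mul, Finset.Nat.sum_antidiagonal_eq_sum_range_succ_mk]
      simp [Finset.sum_range_succ, hX0]
    have hW1 : W.coeff 1 = 1 := by
      simp [hW, r2W, sigSer]
    rw [hs', coeff_C_mul, map_add, coeff_C_mul, hX2, hW1] at key
    have hodd : Odd (27 * P0 ^ 4 * (1 + 25 * 0)) := by
      have h1 : Odd P0 := ⟨2 * t - 1, by rw [hP0]; ring⟩
      simpa using (show Odd (27 : ℤ) by decide).mul (h1.pow (n := 4))
    exact (Int.not_even_iff_odd.mpr hodd) (even_iff_two_dvd.mpr (by exact_mod_cast key))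
  · intro n
    rw [add_sub_cancel_left, hc2, coeff_C_mul]
    exact dvd_mul_right _ _
  · intro n
    rw [hC, hexp, add_sub_cancel_left, hc2, coeff_C_mul]
    exact dvd_mul_right _ _
  · intro n hn
    have : n = 0 := by omega
    subst this
    have hX0 : constantCoeff X = 0 := by simp [hX, sigSer]
    have hW0 : constantCoeff W = 0 := by simp [hW, r2W, sigSer]
    rw [hs, coeff_zero_eq_constantCoeff_apply]
    simp only [map_mul, map_add, map_pow, hX0, hW0]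
    simp

end Fermat.Agent.S16
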