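import Fermat.Agent.S16.Defs

/-!
# S16/UpperArith : pure arithmetic  (no modular forms)

`n = eisensteinNumerator p = (p-1)/gcd(p-1,12)`.  Prime by prime (`ℓ^t ∥ M`, `t ≥ 1`; `M ≠ 0` by `h1`):
* `ℓ ≥ 5`: `ℓ ∤ p+1` (h5); `gcd(10p-11, 30p-31) ∣ 2`, so `ℓ^t ∣ p - 1`.
* `ℓ = 3`: `3 ∤ p+1` (h3) so `p ≡ 1 (3)`, `10p-11 ≡ -1`; `3^{t+1} ∣ p-1`; `v₃(n) = v₃(p-1) - 1`.
* `ℓ = 2`: `8 ∤ p+1` (h2), `10p-11` odd: `t + 3 ≤ v₂(p-1) + v₂(p+1)`.  `p ≡ 1 (4)`: `v₂(p+1) = 1`, `v₂(n) = v₂(p-1) - 2`.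
   `p ≡ 3 (4)`: `v₂(p-1) = 1`, `v₂(p+1) = 2`: `t ≤ 0`, contradiction.
We prove `M * gcd(p-1,12) ∣ p - 1`.
-/

set_option autoImplicit false

namespace Fermat.Agent.S16

namespace UpperArith

/-- Bezout step: `24 M ∣ c (p²-1)` with `c = 3` if `3 ∣ p+1` and `c = 1` otherwise. -/
theorem step_c {p : ℕ} (hp : p.Prime) (hp5 : 5 ≤ p) {M : ℤ}
    (h1 : 24 * M ∣ ((p : ℤ) ^ 2 - 1) * (10 * p - 11))
    (h1' : 24 * M ∣ 3 * (((p : ℤ) ^ 2 - 1) * (30 * p - 31))) :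
    ∃ c : ℕ, ((c = 1 ∧ ¬ 3 ∣ p + 1) ∨ (c = 3 ∧ 3 ∣ p + 1)) ∧
      24 * M ∣ (c : ℤ) * ((p : ℤ) ^ 2 - 1) := by
  have h6 : 24 * M ∣ 6 * ((p : ℤ) ^ 2 - 1) := by
    have := dvd_sub h1' (h1.mul_left 9)
    have e : 3 * (((p : ℤ) ^ 2 - 1) * (30 * p - 31)) - 9 * (((p : ℤ) ^ 2 - 1) * (10 * p - 11))
        = 6 * ((p : ℤ) ^ 2 - 1) := by ring
    rwa [e] at this
  have h3 : ¬ 3 ∣ p := by
    intro h
    have := (Nat.prime_dvd_prime_iff_eq Nat.prime_three hp).mp h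
    omega
  obtain ⟨t, ht | ht⟩ : ∃ t : ℕ, p = 3 * t + 1 ∨ p = 3 * t + 2 := by
    refine ⟨p / 3, ?_⟩
    omega
  · refine ⟨1, Or.inl ⟨rfl, by omega⟩, ?_⟩
    have := dvd_sub (h6.mul_left (5 * (t : ℤ))) h1
    have e : 5 * (t : ℤ) * (6 * ((p : ℤ) ^ 2 - 1)) - ((p : ℤ) ^ 2 - 1) * (10 * p - 11)
        = ((1 : ℕ) : ℤ) * ((p : ℤ) ^ 2 - 1) := by
      subst ht; push_cast; ring
    rwa [e] at this
  · refine ⟨3, Or.inr ⟨rfl, by omega⟩, ?_⟩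
    have := dvd_sub h1 (h6.mul_left (5 * (t : ℤ) + 1))
    have e : ((p : ℤ) ^ 2 - 1) * (10 * p - 11) - (5 * (t : ℤ) + 1) * (6 * ((p : ℤ) ^ 2 - 1))
        = ((3 : ℕ) : ℤ) * ((p : ℤ) ^ 2 - 1) := by
      subst ht; push_cast; ring
    rwa [e] at this

/-- the statement over `ℕ`. -/
theorem nat_version {p : ℕ} (hp5 : 5 ≤ p) {m c : ℕ}
    (hc : (c = 1 ∧ ¬ 3 ∣ p + 1) ∨ (c = 3 ∧ 3 ∣ p + 1))
    (h : 24 * m ∣ c * ((p - 1) * (p + 1)))
    (h5 : ∀ ℓ : ℕ, ℓ.Prime → 5 ≤ ℓ → ℓ ∣ p + 1 → ¬ ℓ ∣ m)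
    (h3 : 3 ∣ p + 1 → ¬ 3 ∣ m)
    (h2 : 8 ∣ p + 1 → ¬ 2 ∣ m) :
    m * Nat.gcd (p - 1) 12 ∣ p - 1 := by
  have hc0 : c ≠ 0 := by rcases hc with ⟨rfl, _⟩ | ⟨rfl, _⟩ <;> norm_num
  have hA : p - 1 ≠ 0 := by omega
  have hB : p + 1 ≠ 0 := by omega
  have hm : m ≠ 0 := by
    rintro rfl
    simp only [mul_zero, zero_dvd_iff, mul_eq_zero] at h
    omega
  have hg : Nat.gcd (p - 1) 12 ≠ 0 := Nat.gcd_ne_zero_right (by norm_num)
  rw [← Nat.factorization_prime_le_iff_dvd (mul_ne_zero hm hg) hA]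
  intro ℓ hℓ
  have F1 := (Nat.factorization_le_iff_dvd (mul_ne_zero (by norm_num) hm)
    (mul_ne_zero hc0 (mul_ne_zero hA hB))).mpr h ℓ
  rw [Nat.factorization_mul (by norm_num) hm, Nat.factorization_mul hc0 (mul_ne_zero hA hB),
    Nat.factorization_mul hA hB] at F1
  simp only [Finsupp.add_apply] at F1
  have F2 := (Nat.factorization_le_iff_dvd hg hA).mpr (Nat.gcd_dvd_left (p - 1) 12) ℓ
  have F3 := (Nat.factorization_le_iff_dvd hg (by norm_num)).mpr (Nat.gcd_dvd_right (p - 1) 12) ℓ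
  rw [Nat.factorization_mul hm hg]
  simp only [Finsupp.add_apply]
  have key : ∀ (k n : ℕ), n ≠ 0 → (ℓ ^ k ∣ n ↔ k ≤ n.factorization ℓ) :=
    fun k n hn => hℓ.pow_dvd_iff_le_factorization hn
  by_cases hμ : ℓ ∣ m
  swap
  · have : m.factorization ℓ = 0 := Nat.factorization_eq_zero_of_not_dvd hμ
    omega
  by_cases hl2 : ℓ = 2
  · subst hl2
    have e24 : 3 ≤ (24 : ℕ).factorization 2 := (key 3 24 (by norm_num)).mp (by norm_num)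
    have e12 : ¬ 3 ≤ (12 : ℕ).factorization 2 := fun hh =>
      absurd ((key 3 12 (by norm_num)).mpr hh) (by norm_num)
    have ec : c.factorization 2 = 0 := by
      apply Nat.factorization_eq_zero_of_not_dvd
      rcases hc with ⟨rfl, _⟩ | ⟨rfl, _⟩ <;> norm_num
    have eb : ¬ 3 ≤ (p + 1).factorization 2 := fun hh => by
      have h8 : 2 ^ 3 ∣ p + 1 := (key 3 _ hB).mpr hh
      exact h2 (by simpa using h8) hμ
    have eab : ¬ (2 ≤ (p - 1).factorization 2 ∧ 2 ≤ (p + 1).factorization 2) := by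
      rintro ⟨ha, hb⟩
      have h4a : 2 ^ 2 ∣ p - 1 := (key 2 _ hA).mpr ha
      have h4b : 2 ^ 2 ∣ p + 1 := (key 2 _ hB).mpr hb
      omega
    omega
  by_cases hl3 : ℓ = 3
  · subst hl3
    have e24 : 1 ≤ (24 : ℕ).factorization 3 := (key 1 24 (by norm_num)).mp (by norm_num)
    have e12 : ¬ 2 ≤ (12 : ℕ).factorization 3 := fun hh =>
      absurd ((key 2 12 (by norm_num)).mpr hh) (by norm_num)
    rcases hc with ⟨rfl, h3'⟩ | ⟨rfl, h3'⟩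
    · have eb : (p + 1).factorization 3 = 0 := Nat.factorization_eq_zero_of_not_dvd h3'
      have ec : (1 : ℕ).factorization 3 = 0 := by simp
      omega
    · exact absurd hμ (h3 h3')
  · have hl5 : 5 ≤ ℓ := by
      have := hℓ.two_le
      have h4 : ℓ ≠ 4 := by
        rintro rfl
        exact absurd hℓ (by norm_num)
      omega
    have e12 : (12 : ℕ).factorization ℓ = 0 := by
      apply Nat.factorization_eq_zero_of_not_dvd
      intro hd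
      have : ℓ ∣ 2 ^ 2 * 3 := by simpa using hd
      rcases (Nat.Prime.dvd_mul hℓ).mp this with hh | hh
      · have := (Nat.prime_dvd_prime_iff_eq hℓ Nat.prime_two).mp (hℓ.dvd_of_dvd_pow hh)
        omega
      · have := (Nat.prime_dvd_prime_iff_eq hℓ Nat.prime_three).mp hh
        omega
    have ec : c.factorization ℓ = 0 := by
      apply Nat.factorization_eq_zero_of_not_dvd
      rcases hc with ⟨rfl, _⟩ | ⟨rfl, _⟩
      · intro hd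
        have := Nat.le_of_dvd (by norm_num) hd
        omega
      · intro hd
        have := Nat.le_of_dvd (by norm_num) hd
        omega
    have eb : (p + 1).factorization ℓ = 0 :=
      Nat.factorization_eq_zero_of_not_dvd fun hd => h5 ℓ hℓ hl5 hd hμ
    omega

end UpperArith

theorem upper_arith {p : ℕ} (hp : p.Prime) (hp5 : 5 ≤ p) {M : ℤ}
    (h1 : 24 * M ∣ ((p : ℤ) ^ 2 - 1) * (10 * p - 11))
    (h1' : 24 * M ∣ 3 * (((p : ℤ) ^ 2 - 1) * (30 * p - 31)))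
    (h5 : ∀ ℓ : ℕ, ℓ.Prime → 5 ≤ ℓ → ℓ ∣ p + 1 → ¬ (ℓ : ℤ) ∣ M)
    (h3 : 3 ∣ p + 1 → ¬ (3 : ℤ) ∣ M)
    (h2 : 8 ∣ p + 1 → ¬ (2 : ℤ) ∣ M) :
    M ∣ (ModularCurve.eisensteinNumerator p : ℤ) := by
  obtain ⟨c, hc, hcX⟩ := UpperArith.step_c hp hp5 h1 h1'
  have hnat : 24 * M.natAbs ∣ c * ((p - 1) * (p + 1)) := by
    have e1 : ((c * ((p - 1) * (p + 1)) : ℕ) : ℤ) = (c : ℤ) * ((p : ℤ) ^ 2 - 1) := by
      have : ((p - 1 : ℕ) : ℤ) = (p : ℤ) - 1 := by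
        rw [Nat.cast_sub (by omega)]; simp
      push_cast
      rw [this]; ring
    have e2 := Int.natAbs_dvd_natAbs.mpr hcX
    rw [← e1, Int.natAbs_natCast, Int.natAbs_mul] at e2
    simpa using e2
  have conv : ∀ k : ℕ, k ∣ M.natAbs → (k : ℤ) ∣ M := fun k hk =>
    Int.natCast_dvd.mpr hk
  have hmain := UpperArith.nat_version hp5 hc hnat
    (fun ℓ hℓ h5' hd hm => h5 ℓ hℓ h5' hd (conv ℓ hm))
    (fun hd hm => h3 hd (by simpa using conv 3 hm))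
    (fun hd hm => h2 hd (by simpa using conv 2 hm))
  have hfin : M.natAbs ∣ ModularCurve.eisensteinNumerator p := by
    unfold ModularCurve.eisensteinNumerator
    apply Nat.dvd_div_of_mul_dvd
    rwa [mul_comm]
  exact Int.natAbs_dvd.mp (Int.natCast_dvd_natCast.mpr hfin)

end Fermat.Agent.S16
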