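import Fermat.Agent.S16.R5
import Fermat.Agent.S16.R2
import Fermat.Agent.S16.UpperArith

/-!
# S16/Upper : `f ≡ e mod M ⇒ M ∣ n`  (assembly of T1, R5, R3, R2, UpperArith)
-/

set_option autoImplicit false

open CongruenceSubgroup

namespace Fermat.Agent.S16

open PowerSeries

theorem upper_formal {p : ℕ} [Fact p.Prime] (hp5 : 5 ≤ p) {d b : PowerSeries ℤ}
    (hd0 : d.coeff 0 = 0) (hG : PF p 1 (C ((p : ℤ) - 1) + 24 * d) b) {M : ℤ}
    (hM : ∀ k, M ∣ d.coeff k) : M ∣ (ModularCurve.eisensteinNumerator p : ℤ) := by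
  obtain ⟨h1, h1'⟩ := T1 hp5 hd0 hG hM
  refine upper_arith Fact.out hp5 h1 h1' ?_ ?_ ?_
  · intro ℓ hℓ h5 hdvd hℓM
    exact R5 hp5 hℓ h5 hdvd hd0 hG fun k => hℓM.trans (hM k)
  · intro hdvd h3M
    exact R3 hp5 hdvd hd0 hG fun k => h3M.trans (hM k)
  · intro hdvd h2M
    exact R2 hp5 hdvd hd0 hG fun k => h2M.trans (hM k)

/-- a cusp form congruent to `e` modulo `M`.  (Turn `f` into a modular form, `PF.of_weight_two`, `PF_EE`, `PF.smul`,
`PF.sub`; `a₀ = 0` for a cusp form; `EEser p - 24 a = C (p-1) + 24 (eSer p - a)`.) -/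
theorem upper {p : ℕ} [Fact p.Prime] (hp5 : 5 ≤ p) (f : CuspForm (Gamma0 p) 2) {a : PowerSeries ℤ}
    (hf : HasQ f a) {M : ℤ} (hM : ∀ k, M ∣ (eSer p - a).coeff k) :
    M ∣ (ModularCurve.eisensteinNumerator p : ℤ) := by
  have hp : p.Prime := Fact.out
  have : NeZero p := ⟨hp.ne_zero⟩
  -- the constant term of `a` vanishes
  have ha0 : a.coeff 0 = 0 := by
    have h0 := CuspFormClass.qExpansion_coeff_zero f one_pos
      (CongruenceSubgroup.one_mem_strictPeriods_Gamma0 p)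
    rw [HasQ] at hf
    rw [hf, PowerSeries.coeff_map] at h0
    simpa using h0
  have h1 : PF p 1 a (-(Up p a)) :=
    PF.of_weight_two (CuspForm.toModularFormₗ f) (a := a) hf
  have h2 := (PF_EE (p := p)).sub (PF.smul 24 h1)
  have e : EEser p - C (24 : ℤ) * a = C ((p : ℤ) - 1) + 24 * (eSer p - a) := by
    have h24 : (C (24 : ℤ) : PowerSeries ℤ) = 24 := by
      simp
    rw [EEser, h24]; ring
  rw [e] at h2
  refine upper_formal hp5 ?_ h2 hM
  rw [map_sub, ha0, eSer, PowerSeries.coeff_mk]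
  simp [sigP]

end Fermat.Agent.S16
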