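import Fermat.Agent.S16.Dual

/-!
# S16/UpperWrap : from the congruence statement to the polynomial statement   (ALGEBRA)

`J := {ε(P) | ev P = 0}` is an ideal of `ℤ`, `J = (m)`.  Choose a `ℤ`-basis `t_j = ev(Q_j)` of the free module `T₀` and let
`φ : T₀ → ℤ` be linear with `φ(t_j) = ε(Q_j)`.  Then `φ(ev P) ≡ ε(P) mod m` for all `P` (`ev(P - ∑ c_j Q_j) = 0`).
`dual_surj` gives `f` with `a_1(t f) = φ t`; by `exists_coeffPoly`, `a_k(f) = φ(ev P_k) ≡ σ'(k) mod m` (`k ≥ 1`), `a_0(f) = 0 = σ'(0)`.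
So `h` gives `m ∣ n`, i.e. `n ∈ J`.
-/

set_option autoImplicit false
set_option linter.style.haveILetI false

open CongruenceSubgroup ModularCurve CuspForm ModularFormClass

namespace Fermat.Agent.S16

theorem exists_poly_of_upper (p : ℕ) [Fact p.Prime] (n : ℕ)
    (h : ∀ (f : CuspForm (Gamma0 p) 2) (a : PowerSeries ℤ), HasQ f a → ∀ M : ℤ,
      (∀ k, M ∣ (eSer p - a).coeff k) → M ∣ (n : ℤ)) :
    ∃ P : HeckeAlg, heckeEvalForms p 2 P = 0 ∧
      MvPolynomial.aeval (eisensteinSystem p) P = (n : ℤ) := by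
  set Ψ := heckeEvalForms p 2 with hΨdef
  have hΨ : Function.Surjective Ψ := heckeEvalForms_surjective p
  set I := Ideal.map Ψ (eisensteinIdeal p) with hI
  have hmk : ∀ P : HeckeAlg, Ideal.Quotient.mk I (Ψ P)
      = ((MvPolynomial.aeval (eisensteinSystem p) P : ℤ) : ↥(heckeAlgebra p 2 ∅) ⧸ I) := by
    intro P
    have h2 := Ideal.mem_map_of_mem Ψ (Wrap.sub_C_mem p P)
    rw [← hI, ← Ideal.Quotient.eq_zero_iff_mem, map_sub, map_sub, sub_eq_zero] at h2
    rw [h2, Wrap.C_eq_intCast, map_intCast, map_intCast]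
  have hsurj : Function.Surjective (Int.castRingHom (↥(heckeAlgebra p 2 ∅) ⧸ I)) := by
    intro x
    obtain ⟨t, rfl⟩ := Ideal.Quotient.mk_surjective x
    obtain ⟨P, rfl⟩ := hΨ t
    exact ⟨_, (hmk P).symm⟩
  set m := ringChar (↥(heckeAlgebra p 2 ∅) ⧸ I) with hm
  have hchar : CharP (↥(heckeAlgebra p 2 ∅) ⧸ I) m := ringChar.charP _
  haveI : Module.Finite ℤ ↥(heckeAlgebra p 2 ∅) := Fermat.Agent.S22.result p 2 ∅
  haveI : Module.Free ℤ ↥(heckeAlgebra p 2 ∅) := Module.free_of_finite_type_torsion_free'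
  obtain ⟨φ, hφ⟩ := Module.projective_lifting_property
    (Int.castRingHom (↥(heckeAlgebra p 2 ∅) ⧸ I)).toAddMonoidHom.toIntLinearMap
    (Ideal.Quotient.mk I).toAddMonoidHom.toIntLinearMap hsurj
  have hφ' : ∀ t : ↥(heckeAlgebra p 2 ∅),
      ((φ t : ℤ) : ↥(heckeAlgebra p 2 ∅) ⧸ I) = Ideal.Quotient.mk I t := fun t =>
    congrArg (fun F : ↥(heckeAlgebra p 2 ∅) →ₗ[ℤ] (↥(heckeAlgebra p 2 ∅) ⧸ I) => F t) hφ
  obtain ⟨f, hint, hf⟩ := dual_surj p φ
  choose c hc using hint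
  have hQ : HasQ f (PowerSeries.mk c) := by
    rw [HasQ]
    ext k
    rw [PowerSeries.coeff_map, PowerSeries.coeff_mk]
    exact hc k
  have hcong : ∀ k, (m : ℤ) ∣ (eSer p - PowerSeries.mk c).coeff k := by
    intro k
    rw [map_sub, PowerSeries.coeff_mk, eSer, PowerSeries.coeff_mk]
    rcases Nat.eq_zero_or_pos k with rfl | hk
    · have h0 : qCoeff f 0 = 0 :=
        CuspFormClass.qExpansion_coeff_zero f one_pos
          (CongruenceSubgroup.one_mem_strictPeriods_Gamma0 p)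
      rw [hc 0] at h0
      have : c 0 = 0 := by exact_mod_cast h0
      simp [this, sigP]
    · obtain ⟨P, hP, eP⟩ := exists_coeffPoly p k hk
      have h1 : c k = φ (Ψ P) := by
        have := hP f
        rw [hc k, hf] at this
        exact_mod_cast this
      rw [← CharP.intCast_eq_zero_iff (↥(heckeAlgebra p 2 ∅) ⧸ I) m, Int.cast_sub, sub_eq_zero, h1,
        hφ', hmk, eP]
  have hdvd := h f _ hQ (m : ℤ) hcong
  have h1 : (((n : ℕ) : ℤ) : ↥(heckeAlgebra p 2 ∅)) ∈ I := by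
    rw [← Ideal.Quotient.eq_zero_iff_mem, map_intCast,
      CharP.intCast_eq_zero_iff (↥(heckeAlgebra p 2 ∅) ⧸ I) m]
    exact hdvd
  rw [hI, Ideal.mem_map_iff_of_surjective Ψ hΨ] at h1
  obtain ⟨Q, hQm, hQn⟩ := h1
  refine ⟨MvPolynomial.C (n : ℤ) - Q, ?_, ?_⟩
  · rw [map_sub, hQn, Wrap.C_eq_intCast, map_intCast, sub_self]
  · rw [eisensteinIdeal, mem_eigenIdeal_iff] at hQm
    rw [map_sub, hQm, sub_zero, MvPolynomial.aeval_C]
    simp

end Fermat.Agent.S16
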