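import Fermat.Agent.S16.Defs

/-!
# S16/Chi : the character `χ(γ) = (γ₁₁ mod p)^12` of `Γ₀(p)`
-/

set_option autoImplicit false

open CongruenceSubgroup ModularCurve
open scoped MatrixGroups

namespace Fermat.Agent.S16

variable (p : ℕ) [Fact p.Prime]

/-- `γ ↦ γ₁₁ mod p` as a unit. -/
noncomputable def chiUnit : Gamma0 p →* (ZMod p)ˣ := (Gamma0Map p).toHomUnits

lemma chiUnit_val (γ : Gamma0 p) :
    ((chiUnit p γ : (ZMod p)ˣ) : ZMod p) = (((γ : SL(2, ℤ)) 1 1 : ℤ) : ZMod p) := rfl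

/-- `χ(γ) = (γ₁₁ mod p)^12`. -/
noncomputable def chi : Additive (Gamma0 p) →+ Additive (ZMod p)ˣ :=
  MonoidHom.toAdditive ((powMonoidHom 12).comp (chiUnit p))

lemma chi_apply (γ : Gamma0 p) :
    chi p (Additive.ofMul γ) = Additive.ofMul ((chiUnit p γ) ^ 12) := rfl

lemma chiUnit_mul_eq_one (γ : Gamma0 p) :
    (((γ : SL(2, ℤ)) 0 0 : ℤ) : ZMod p) * (((γ : SL(2, ℤ)) 1 1 : ℤ) : ZMod p) = 1 := by
  have hdet : ((γ : SL(2, ℤ)) : Matrix (Fin 2) (Fin 2) ℤ).det = 1 := (γ : SL(2, ℤ)).2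
  rw [Matrix.det_fin_two] at hdet
  have h := congrArg (Int.cast : ℤ → ZMod p) hdet
  have hc : (((γ : SL(2, ℤ)) 1 0 : ℤ) : ZMod p) = 0 := Gamma0_mem.mp γ.2
  push_cast at h
  rw [hc, mul_zero, sub_zero] at h
  exact h

theorem chi_parEll : ParEll (chi p) := by
  intro γ hγ
  rw [chi_apply]
  rcases hγ with h | h
  · have h1 := chiUnit_mul_eq_one p γ
    rw [Matrix.trace_fin_two] at h
    have h2 := congrArg (Int.cast : ℤ → ZMod p) h
    push_cast at h2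
    set a : ZMod p := (((γ : SL(2, ℤ)) 0 0 : ℤ) : ZMod p) with ha
    set d : ZMod p := (((γ : SL(2, ℤ)) 1 1 : ℤ) : ZMod p) with hd
    have h3 : (a - d) ^ 2 = 0 := by linear_combination h2 - 4 * h1
    have h4 : a = d := sub_eq_zero.mp (pow_eq_zero_iff (two_ne_zero)|>.mp h3)
    have h5 : d ^ 2 = 1 := by rw [h4] at h1; rw [pow_two]; exact h1
    have h6 : (chiUnit p γ) ^ 12 = 1 := by
      apply Units.ext
      rw [Units.val_pow_eq_pow_val, chiUnit_val, ← hd, Units.val_one]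
      calc d ^ 12 = (d ^ 2) ^ 6 := by ring
        _ = 1 := by rw [h5, one_pow]
    rw [h6]; rfl
  · rw [← map_pow, h, map_one]; rfl

lemma chiUnit_surjective : Function.Surjective (chiUnit p) := by
  intro u
  have hp : (p : ℕ).Prime := Fact.out
  have hcop : IsCoprime ((u : ZMod p).val : ℤ) (p : ℤ) := by
    rw [Nat.isCoprime_iff_coprime]
    exact (ZMod.val_coe_unit_coprime u)
  obtain ⟨x, y, hxy⟩ := hcop
  let A : SL(2, ℤ) := ⟨!![x, -y; (p : ℤ), ((u : ZMod p).val : ℤ)], by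
    rw [Matrix.det_fin_two_of]; linarith⟩
  have hA : A ∈ Gamma0 p := by
    rw [Gamma0_mem]
    simp [A]
  refine ⟨⟨A, hA⟩, ?_⟩
  apply Units.ext
  rw [chiUnit_val]
  simp [A]

theorem dvd_of_smul_chi (c : ℤ) (h : ∀ γ, c • chi p γ = 0) : (eisensteinNumerator p : ℤ) ∣ c := by
  have hp : (p : ℕ).Prime := Fact.out
  obtain ⟨ω, hω⟩ := IsCyclic.exists_generator (α := (ZMod p)ˣ)
  have hord : orderOf ω = p - 1 := by
    rw [orderOf_eq_card_of_forall_mem_zpowers hω, Nat.card_eq_fintype_card, ZMod.card_units]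
  obtain ⟨γ, hγ⟩ := chiUnit_surjective p ω
  have h1 := h (Additive.ofMul γ)
  rw [chi_apply, hγ, ← ofMul_zpow] at h1
  have h2 : (ω ^ 12) ^ c = 1 := h1
  rw [← zpow_natCast, ← zpow_mul] at h2
  have h3 := (orderOf_dvd_iff_zpow_eq_one).mpr h2
  rw [hord] at h3
  -- arithmetic
  set g := Nat.gcd (p - 1) 12 with hg
  have hg0 : 0 < g := Nat.gcd_pos_of_pos_right _ (by norm_num)
  have hcop : Nat.Coprime ((p - 1) / g) (12 / g) := Nat.coprime_div_gcd_div_gcd hg0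
  have e1 : (p - 1) / g * g = p - 1 := Nat.div_mul_cancel (Nat.gcd_dvd_left _ _)
  have e2 : 12 / g * g = 12 := Nat.div_mul_cancel (Nat.gcd_dvd_right _ _)
  have h4 : (((p - 1) / g : ℕ) : ℤ) * (g : ℤ) ∣ (((12 / g : ℕ) : ℤ) * c) * (g : ℤ) := by
    have e1' : (((p - 1) / g : ℕ) : ℤ) * (g : ℤ) = ((p - 1 : ℕ) : ℤ) := by exact_mod_cast e1
    have e2' : (((12 / g : ℕ) : ℤ)) * (g : ℤ) = ((12 : ℕ) : ℤ) := by exact_mod_cast e2
    rw [e1']
    calc ((p - 1 : ℕ) : ℤ) ∣ ((12 : ℕ) : ℤ) * c := h3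
      _ = (((12 / g : ℕ) : ℤ) * c) * (g : ℤ) := by rw [← e2']; ring
  have h5 := Int.dvd_of_mul_dvd_mul_right (by exact_mod_cast hg0.ne') h4
  have hcop' : IsCoprime (((p - 1) / g : ℕ) : ℤ) ((12 / g : ℕ) : ℤ) :=
    Nat.isCoprime_iff_coprime.mpr hcop
  exact hcop'.dvd_of_dvd_mul_left h5

end Fermat.Agent.S16
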