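import Mathlib

/-!
# S16/CountAbs : counting homomorphisms `Γ → B` by Shapiro cocycles   (abstract group theory)

`X = G ⧸ Γ`, `cEl g q = (out (g • q))⁻¹ * (g * out q) ∈ Γ`, `cEl (g h) q = cEl g (h • q) * cEl h q`.
For `φ : Γ → B`: `κ_g(q) = φ(cEl g q)`.  We construct an injective map
`H × (X → B) → (Y₂ → B) × (Y₃ → B) × (Y₃ → B)`, where `Y₂`, `Y₃` are sets of representatives of the free orbits
of `S`, `R` on `X`.
-/

set_option autoImplicit false

namespace Fermat.Agent.S16

section count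

variable {X : Type*} [Finite X]

lemma countAbs_two (e : X → ℕ) (he : Function.Injective e) (σ : Equiv.Perm X)
    (hσ : ∀ q, σ (σ q) = q) :
    2 * Nat.card {q : X // e q < e (σ q)} + Nat.card {q : X // σ q = q} = Nat.card X := by
  classical
  have := Fintype.ofFinite X
  simp only [Nat.card_eq_fintype_card, Fintype.card_subtype, Finset.card_filter]
  have key : ∀ q : X, (if e q < e (σ q) then 1 else 0) + (if e (σ q) < e (σ (σ q)) then 1 else 0)
      + (if σ q = q then 1 else 0) = 1 := by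
    intro q
    rw [hσ]
    by_cases h : σ q = q
    · simp [h]
    · have : e (σ q) ≠ e q := fun h' => h (he h')
      simp only [h, if_false]
      split_ifs <;> omega
  have hs : ∑ q : X, (if e (σ q) < e (σ (σ q)) then 1 else 0)
      = ∑ q : X, (if e q < e (σ q) then 1 else 0) :=
    Equiv.sum_comp σ (fun q => if e q < e (σ q) then 1 else 0)
  have := Finset.sum_congr (s₁ := (Finset.univ : Finset X)) rfl (fun q _ => key q)
  rw [Finset.sum_add_distrib, Finset.sum_add_distrib, hs] at this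
  simp only [Finset.sum_const, Finset.card_univ, smul_eq_mul, mul_one] at this
  omega

lemma countAbs_three (e : X → ℕ) (he : Function.Injective e) (σ : Equiv.Perm X)
    (hσ : ∀ q, σ (σ (σ q)) = q) :
    3 * Nat.card {q : X // e q < e (σ q) ∧ e q < e (σ (σ q))} + Nat.card {q : X // σ q = q}
      = Nat.card X := by
  classical
  have := Fintype.ofFinite X
  simp only [Nat.card_eq_fintype_card, Fintype.card_subtype, Finset.card_filter]
  set F : X → ℕ := fun q => if e q < e (σ q) ∧ e q < e (σ (σ q)) then 1 else 0 with hF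
  have key : ∀ q : X, F q + F (σ q) + F (σ (σ q)) + (if σ q = q then 1 else 0) = 1 := by
    intro q
    simp only [hF, hσ]
    by_cases h : σ q = q
    · simp [h]
    · have h1 : e (σ q) ≠ e q := fun h' => h (he h')
      have h2 : e (σ (σ q)) ≠ e (σ q) := fun h' => h (σ.injective (he h'))
      have h3 : e (σ (σ q)) ≠ e q := fun h' => h (by
        have := congrArg σ (he h')
        rw [hσ] at this
        exact this.symm)
      simp only [h, if_false]
      split_ifs <;> omega
  have hs1 : ∑ q : X, F (σ q) = ∑ q : X, F q := Equiv.sum_comp σ F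
  have hs2 : ∑ q : X, F (σ (σ q)) = ∑ q : X, F q :=
    (Equiv.sum_comp σ (fun q => F (σ q))).trans hs1
  have := Finset.sum_congr (s₁ := (Finset.univ : Finset X)) rfl (fun q _ => key q)
  rw [Finset.sum_add_distrib, Finset.sum_add_distrib, Finset.sum_add_distrib] at this
  simp only [Finset.sum_const, Finset.card_univ, smul_eq_mul, mul_one] at this
  have h0 : Finset.univ.sum F = ∑ q, F q := rfl
  omega

variable {B : Type*} [AddCommGroup B]

omit [Finite X] in
lemma countAbs_ext_two (e : X → ℕ) (he : Function.Injective e) (σ : Equiv.Perm X)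
    (hσ : ∀ q, σ (σ q) = q) {a a' : X → B}
    (h1 : ∀ q, a (σ q) = - a q) (h1' : ∀ q, a' (σ q) = - a' q)
    (h2 : ∀ q, σ q = q → a q = 0) (h2' : ∀ q, σ q = q → a' q = 0)
    (hY : ∀ q, e q < e (σ q) → a q = a' q) : a = a' := by
  funext q
  rcases lt_trichotomy (e q) (e (σ q)) with h | h | h
  · exact hY q h
  · have : σ q = q := (he h).symm
    rw [h2 q this, h2' q this]
  · have h3 := hY (σ q) (by rw [hσ]; exact h)
    rw [h1, h1'] at h3
    exact neg_injective h3

omit [Finite X] in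
lemma countAbs_ext_three (e : X → ℕ) (he : Function.Injective e) (σ : Equiv.Perm X)
    (hσ : ∀ q, σ (σ (σ q)) = q) {b b' : X → B}
    (h1 : ∀ q, b (σ (σ q)) + b (σ q) + b q = 0) (h1' : ∀ q, b' (σ (σ q)) + b' (σ q) + b' q = 0)
    (h2 : ∀ q, σ q = q → b q = 0) (h2' : ∀ q, σ q = q → b' q = 0)
    (hY : ∀ q, e q < e (σ q) ∧ e q < e (σ (σ q)) → b q = b' q ∧ b (σ q) = b' (σ q)) : b = b' := by
  funext q
  by_cases h : σ q = q
  · rw [h2 q h, h2' q h]
  have n1 : e (σ q) ≠ e q := fun h' => h (he h')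
  have n2 : e (σ (σ q)) ≠ e (σ q) := fun h' => h (σ.injective (he h'))
  have n3 : e (σ (σ q)) ≠ e q := fun h' => h (by
    have := congrArg σ (he h')
    rw [hσ] at this
    exact this.symm)
  by_cases c1 : e q < e (σ q) ∧ e q < e (σ (σ q))
  · exact (hY q c1).1
  by_cases c2 : e (σ q) < e (σ (σ q)) ∧ e (σ q) < e q
  · obtain ⟨k1, k2⟩ := hY (σ q) (by rw [hσ]; exact c2)
    have e1 := h1 q
    have e2 := h1' q
    rw [k1, k2] at e1
    exact add_left_cancel (e1.trans e2.symm)
  · have c3 : e (σ (σ q)) < e q ∧ e (σ (σ q)) < e (σ q) := by omega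
    have := (hY (σ (σ q)) (by rw [hσ]; exact c3)).2
    rwa [hσ] at this

end count

variable {G : Type*} [Group G] (Γ : Subgroup G)

/-- the `Γ`-valued cocycle attached to the section `Quotient.out`. -/
noncomputable def cEl (g : G) (q : G ⧸ Γ) : Γ :=
  ⟨(Quotient.out (g • q))⁻¹ * (g * Quotient.out q), by
    rw [← QuotientGroup.eq, QuotientGroup.out_eq']
    conv_lhs => rw [← QuotientGroup.out_eq' q]
    rfl⟩

theorem cEl_coe (g : G) (q : G ⧸ Γ) :
    (cEl Γ g q : G) = (Quotient.out (g • q))⁻¹ * (g * Quotient.out q) := rfl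

theorem cEl_mul (g h : G) (q : G ⧸ Γ) :
    cEl Γ (g * h) q = cEl Γ g (h • q) * cEl Γ h q := by
  apply Subtype.ext
  rw [Subgroup.coe_mul, cEl_coe, cEl_coe, cEl_coe, mul_smul]
  group

section coc

variable {B : Type*} [AddCommGroup B]

/-- abstract cocycles with values in `(G ⧸ Γ) → B`. -/
def IsCocB (c : G → (G ⧸ Γ) → B) : Prop := ∀ g h q, c (g * h) q = c g (h • q) + c h q

variable {Γ}

theorem IsCocB.one {c : G → (G ⧸ Γ) → B} (hc : IsCocB Γ c) (q : G ⧸ Γ) : c 1 q = 0 := by
  have := hc 1 1 q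
  rw [mul_one, one_smul] at this
  exact left_eq_add.mp this

theorem IsCocB.eq_zero {c : G → (G ⧸ Γ) → B} (hc : IsCocB Γ c) {s : Set G}
    (hs : Subgroup.closure s = ⊤) (h0 : ∀ g ∈ s, ∀ q, c g q = 0) (g : G) : ∀ q, c g q = 0 := by
  have hg : g ∈ Subgroup.closure s := by rw [hs]; trivial
  induction hg using Subgroup.closure_induction with
  | mem x hx => exact h0 x hx
  | one => exact hc.one
  | mul x y _ _ hx hy => intro q; rw [hc, hx, hy, add_zero]
  | inv x _ hx =>
    intro q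
    have := hc x x⁻¹ q
    rw [mul_inv_cancel, hc.one, hx, zero_add] at this
    exact this.symm

/-- the cocycle of `φ` plus the coboundary of `v`. -/
noncomputable def cocB (φ : Additive Γ →+ B) (v : (G ⧸ Γ) → B) (g : G) (q : G ⧸ Γ) : B :=
  φ (Additive.ofMul (cEl Γ g q)) + (v (g • q) - v q)

theorem isCocB_cocB (φ : Additive Γ →+ B) (v : (G ⧸ Γ) → B) : IsCocB Γ (cocB φ v) := by
  intro g h q
  simp only [cocB, cEl_mul, ofMul_mul, map_add, mul_smul]
  abel

theorem cocB_sub (φ φ' : Additive Γ →+ B) (v v' : (G ⧸ Γ) → B) (g : G) (q : G ⧸ Γ) :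
    cocB (φ - φ') (v - v') g q = cocB φ v g q - cocB φ' v' g q := by
  simp only [cocB, AddMonoidHom.sub_apply, Pi.sub_apply]
  abel

/-- a pair `(φ, v)` whose cocycle vanishes: `φ = 0` and `v` is constant. -/
theorem eq_zero_of_cocB_eq_zero (φ : Additive Γ →+ B) (v : (G ⧸ Γ) → B)
    (h : ∀ g q, cocB φ v g q = 0) : φ = 0 ∧ ∀ q, v q = v (QuotientGroup.mk 1) := by
  have hφ : φ = 0 := by
    refine AddMonoidHom.ext fun γ => ?_
    obtain ⟨γ, rfl⟩ := Additive.ofMul.surjective γ
    set q₀ : G ⧸ Γ := QuotientGroup.mk 1 with hq₀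
    have hfix : (γ : G) • q₀ = q₀ := by
      rw [hq₀, MulAction.Quotient.smul_mk, QuotientGroup.eq]
      simp
    have hρ : Quotient.out q₀ ∈ Γ := by
      have : (QuotientGroup.mk (Quotient.out q₀) : G ⧸ Γ) = QuotientGroup.mk 1 :=
        QuotientGroup.out_eq' q₀
      rw [QuotientGroup.eq] at this
      simpa using Γ.inv_mem this
    have h1 := h γ q₀
    rw [cocB, hfix, sub_self, add_zero] at h1
    have h2 : cEl Γ (γ : G) q₀ = (⟨_, hρ⟩ : Γ)⁻¹ * (γ * ⟨_, hρ⟩) := by
      apply Subtype.ext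
      rw [cEl_coe, hfix]
      rfl
    rw [h2, ofMul_mul, ofMul_mul, ofMul_inv, map_add, map_add, map_neg] at h1
    rw [AddMonoidHom.zero_apply, ← h1]
    abel
  refine ⟨hφ, fun q => ?_⟩
  obtain ⟨g, rfl⟩ := QuotientGroup.mk_surjective q
  have h1 := h g (QuotientGroup.mk 1)
  rw [cocB, hφ, AddMonoidHom.zero_apply, zero_add, MulAction.Quotient.smul_mk, smul_eq_mul,
    mul_one, sub_eq_zero] at h1
  exact h1

end coc

theorem card_hom_mul_le [Finite (G ⧸ Γ)] {S R : G} (hgen : Subgroup.closure {S, R} = ⊤)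
    (hS2 : ∀ q : G ⧸ Γ, (S * S) • q = q) (hR3 : ∀ q : G ⧸ Γ, (R ^ 3) • q = q)
    (hS : S ∉ Γ) (hT : R * S⁻¹ ∈ Γ)
    {B : Type*} [AddCommGroup B] [Finite B] (H : Set (Additive Γ →+ B))
    (h1 : ∀ φ ∈ H, ∀ q, φ (Additive.ofMul (cEl Γ (S * S) q)) = 0)
    (h2 : ∀ φ ∈ H, ∀ q, φ (Additive.ofMul (cEl Γ (R ^ 3) q)) = 0)
    (h3 : ∀ φ ∈ H, ∀ q, S • q = q → φ (Additive.ofMul (cEl Γ S q)) = 0)
    (h4 : ∀ φ ∈ H, ∀ q, R • q = q → φ (Additive.ofMul (cEl Γ R q)) = 0)
    (h5 : ∀ φ ∈ H, φ (Additive.ofMul (cEl Γ (R * S⁻¹) (QuotientGroup.mk 1))) = 0)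
    {y₂ y₃ : ℕ} (hy₂ : 2 * y₂ + Nat.card {q : G ⧸ Γ // S • q = q} = Nat.card (G ⧸ Γ))
    (hy₃ : 3 * y₃ + Nat.card {q : G ⧸ Γ // R • q = q} = Nat.card (G ⧸ Γ)) :
    Nat.card H * Nat.card B ^ Nat.card (G ⧸ Γ) ≤ Nat.card B ^ (y₂ + 2 * y₃) := by
  classical
  obtain ⟨n, ⟨eq⟩⟩ := Finite.exists_equiv_fin (G ⧸ Γ)
  set e : G ⧸ Γ → ℕ := fun q => (eq q : ℕ) with he_def
  have he : Function.Injective e := fun a b h => eq.injective (Fin.ext h)
  set σS : Equiv.Perm (G ⧸ Γ) := MulAction.toPerm S with hσSdef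
  set σR : Equiv.Perm (G ⧸ Γ) := MulAction.toPerm R with hσRdef
  have hσS : ∀ q, σS (σS q) = q := fun q => by
    have := hS2 q
    rwa [mul_smul] at this
  have hσR : ∀ q, σR (σR (σR q)) = q := fun q => by
    have := hR3 q
    rwa [pow_succ, pow_two, mul_smul, mul_smul] at this
  have c2 := countAbs_two e he σS hσS
  have c3 := countAbs_three e he σR hσR
  have hY2 : Nat.card {q : G ⧸ Γ // e q < e (σS q)} = y₂ := by
    have : Nat.card {q : G ⧸ Γ // σS q = q} = Nat.card {q : G ⧸ Γ // S • q = q} := rfl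
    omega
  have hY3 : Nat.card {q : G ⧸ Γ // e q < e (σR q) ∧ e q < e (σR (σR q))} = y₃ := by
    have : Nat.card {q : G ⧸ Γ // σR q = q} = Nat.card {q : G ⧸ Γ // R • q = q} := rfl
    omega
  set qi : G ⧸ Γ := QuotientGroup.mk 1 with hqi
  set q0 : G ⧸ Γ := S⁻¹ • qi with hq0
  have hSq0 : S • q0 = qi := smul_inv_smul S qi
  have hSqi : S • qi = q0 := by
    have := hS2 q0
    rwa [mul_smul, hSq0] at this
  have hne : q0 ≠ qi := by
    intro h
    apply hS
    have h1 : S • qi = qi := by rw [hSqi, h]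
    rw [hqi, MulAction.Quotient.smul_mk, QuotientGroup.eq] at h1
    simpa using Γ.inv_mem h1
  have hTqi : (R * S⁻¹) • qi = qi := by
    rw [hqi, MulAction.Quotient.smul_mk, QuotientGroup.eq]
    simpa using Γ.inv_mem hT
  let D : B → (G ⧸ Γ) → B := fun β q => (if q = qi then β else 0) - (if q = q0 then β else 0)
  have hD1 : ∀ β q, D β (S • q) = - D β q := by
    intro β q
    have e1 : S • q = qi ↔ q = q0 := by
      constructor
      · intro h; rw [hq0, ← h, inv_smul_smul]
      · intro h; rw [h, hSq0]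
    have e2 : S • q = q0 ↔ q = qi := by
      constructor
      · intro h
        have := congrArg (fun x => S • x) h
        beta_reduce at this
        rw [← mul_smul, hS2, hSq0] at this
        exact this
      · intro h; rw [h, hSqi]
    simp only [D, e1, e2]
    abel
  have hD2 : ∀ β q, S • q = q → D β q = 0 := by
    intro β q hq
    have n1 : q ≠ qi := by
      intro h
      rw [h] at hq
      exact hne (hSqi.symm.trans hq)
    have n2 : q ≠ q0 := by
      intro h
      rw [h] at hq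
      exact hne (hq.symm.trans hSq0)
    simp [D, n1, n2]
  have hD3 : ∀ β, D β q0 = -β := by
    intro β
    simp [D, hne]
  have hA1 : ∀ φ ∈ H, ∀ v q, cocB φ v S (S • q) = - cocB φ v S q := by
    intro φ hφ v q
    have h := isCocB_cocB φ v S S q
    have h' : cocB φ v (S * S) q = 0 := by rw [cocB, h1 φ hφ q, hS2 q, sub_self, add_zero]
    rw [h'] at h
    exact eq_neg_of_add_eq_zero_left h.symm
  have hA2 : ∀ φ ∈ H, ∀ v q, S • q = q → cocB φ v S q = 0 := by
    intro φ hφ v q hq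
    rw [cocB, h3 φ hφ q hq, hq, sub_self, add_zero]
  have hB1 : ∀ φ ∈ H, ∀ v q,
      cocB φ v R (R • R • q) + cocB φ v R (R • q) + cocB φ v R q = 0 := by
    intro φ hφ v q
    have h' : cocB φ v (R ^ 3) q = 0 := by rw [cocB, h2 φ hφ q, hR3 q, sub_self, add_zero]
    rw [pow_succ, pow_two, isCocB_cocB φ v (R * R) R q, isCocB_cocB φ v R R (R • q)] at h'
    exact h'
  have hB2 : ∀ φ ∈ H, ∀ v q, R • q = q → cocB φ v R q = 0 := by
    intro φ hφ v q hq
    rw [cocB, h4 φ hφ q hq, hq, sub_self, add_zero]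
  have hρ : ∀ φ ∈ H, ∀ v, cocB φ v R q0 = cocB φ v S q0 := by
    intro φ hφ v
    have h := isCocB_cocB φ v (R * S⁻¹) S q0
    rw [inv_mul_cancel_right, hSq0] at h
    have h' : cocB φ v (R * S⁻¹) qi = 0 := by rw [cocB, h5 φ hφ, hTqi, sub_self, add_zero]
    rw [h, h', zero_add]
  let Ψ : H × ((G ⧸ Γ) → B) → ({q : G ⧸ Γ // e q < e (σS q)} → B) ×
      ({q : G ⧸ Γ // e q < e (σR q) ∧ e q < e (σR (σR q))} → B) ×
      ({q : G ⧸ Γ // e q < e (σR q) ∧ e q < e (σR (σR q))} → B) :=
    fun x => (fun y => cocB x.1.1 x.2 S y.1 + D (x.2 qi) y.1, fun y => cocB x.1.1 x.2 R y.1,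
      fun y => cocB x.1.1 x.2 R (R • y.1))
  have hΨ : Function.Injective Ψ := by
    rintro ⟨⟨φ, hφ⟩, v⟩ ⟨⟨φ', hφ'⟩, v'⟩ hxy
    simp only [Ψ, Prod.mk.injEq] at hxy
    obtain ⟨ha, hb, hb'⟩ := hxy
    have hA : (fun q => cocB φ v S q + D (v qi) q) = fun q => cocB φ' v' S q + D (v' qi) q := by
      apply countAbs_ext_two e he σS hσS
      · intro q
        show cocB φ v S (S • q) + D (v qi) (S • q) = _
        rw [hA1 φ hφ, hD1]; abel
      · intro q
        show cocB φ' v' S (S • q) + D (v' qi) (S • q) = _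
        rw [hA1 φ' hφ', hD1]; abel
      · intro q hq
        show _ + _ = (0 : B)
        rw [hA2 φ hφ v q hq, hD2 _ q hq, add_zero]
      · intro q hq
        show _ + _ = (0 : B)
        rw [hA2 φ' hφ' v' q hq, hD2 _ q hq, add_zero]
      · intro q hq
        exact congrFun ha ⟨q, hq⟩
    have hBB : (fun q => cocB φ v R q) = fun q => cocB φ' v' R q := by
      apply countAbs_ext_three e he σR hσR
      · exact hB1 φ hφ v
      · exact hB1 φ' hφ' v'
      · exact hB2 φ hφ v
      · exact hB2 φ' hφ' v'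
      · intro q hq
        exact ⟨congrFun hb ⟨q, hq⟩, congrFun hb' ⟨q, hq⟩⟩
    have hv : v qi = v' qi := by
      have e1 := congrFun hA q0
      have e2 := congrFun hBB q0
      beta_reduce at e1 e2
      rw [hD3, hD3, ← hρ φ hφ, ← hρ φ' hφ', e2] at e1
      exact neg_injective (add_left_cancel e1)
    have hz : ∀ g q, cocB (φ - φ') (v - v') g q = 0 := by
      apply (isCocB_cocB (φ - φ') (v - v')).eq_zero hgen
      intro g hg q
      rw [cocB_sub, sub_eq_zero]
      rcases hg with rfl | rfl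
      · have e1 := congrFun hA q
        beta_reduce at e1
        rw [hv] at e1
        exact add_right_cancel e1
      · exact congrFun hBB q
    obtain ⟨z1, z2⟩ := eq_zero_of_cocB_eq_zero _ _ hz
    have k1 : φ = φ' := sub_eq_zero.mp z1
    have k2 : v = v' := by
      funext q
      have := z2 q
      simp only [Pi.sub_apply] at this
      rw [← hqi, hv, sub_self, sub_eq_zero] at this
      exact this
    subst k1 k2
    rfl
  have hcard := Nat.card_le_card_of_injective Ψ hΨ
  rw [Nat.card_prod, Nat.card_prod, Nat.card_prod, Nat.card_fun, Nat.card_fun, Nat.card_fun, hY2,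
    hY3] at hcard
  calc _ ≤ _ := hcard
    _ = _ := by ring

end Fermat.Agent.S16
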