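import Fermat.Statements.S16
import Mathlib.NumberTheory.ModularForms.NormTrace
import Mathlib.NumberTheory.ModularForms.LevelOne.DimensionFormula
import Mathlib.RingTheory.PowerSeries.Expand

/-!
# S16: common definitions

`PF p i a b` : "pair form" of weight `2 i` on `Γ₀(p)`: a modular form `h` with integral
`q`-expansion `a`, whose Fricke transform `h' (z) = p^{-i} z^{-2i} h(-1/(p z))` has integral
`q`-expansion `b`.   `L1 k a` : a level one form of weight `k` with integral `q`-expansion `a`.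
-/

set_option autoImplicit false

open UpperHalfPlane hiding I
open CongruenceSubgroup ModularFormClass Matrix.SpecialLinearGroup
open scoped MatrixGroups ModularForm Manifold

namespace Fermat.Agent.S16

/-- `f` has the integral `q`-expansion `a`. -/
def HasQ (f : ℍ → ℂ) (a : PowerSeries ℤ) : Prop :=
  qExpansion 1 f = a.map (Int.castRingHom ℂ)

/-- the Fricke matrix `(0, -1; p, 0)`. -/
noncomputable def fricke (p : ℕ) [NeZero p] : GL (Fin 2) ℝ :=
  Matrix.GeneralLinearGroup.mkOfDetNeZero !![0, -1; (p : ℝ), 0]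
    (by simpa [Matrix.det_fin_two] using NeZero.ne p)

/-- the normalised Fricke transform (an involution on forms of weight `2 i`):
`z ↦ p^{-i} z^{-2i} h(-1/(p z))`. -/
noncomputable def frickeFun (p : ℕ) [NeZero p] (i : ℕ) (h : ℍ → ℂ) : ℍ → ℂ :=
  ((p : ℂ) ^ (1 - (i : ℤ))) • (h ∣[((2 * i : ℕ) : ℤ)] fricke p)

/-- pair forms. -/
def PF (p : ℕ) [NeZero p] (i : ℕ) (a b : PowerSeries ℤ) : Prop :=
  ∃ h : ModularForm (Gamma0 p) ((2 * i : ℕ) : ℤ), HasQ h a ∧ HasQ (frickeFun p i h) b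

/-- level one forms with integral `q`-expansion. -/
def L1 (k : ℕ) (a : PowerSeries ℤ) : Prop :=
  ∃ F : ModularForm 𝒮ℒ (k : ℤ), HasQ F a

/-- the operator `U_p` on power series. -/
noncomputable def Up (p : ℕ) (a : PowerSeries ℤ) : PowerSeries ℤ :=
  PowerSeries.mk fun n => a.coeff (n * p)

/-- `∑_{n ≥ 1} σ_k(n) q^n`. -/
noncomputable def sigSer (k : ℕ) : PowerSeries ℤ :=
  PowerSeries.mk fun n => if n = 0 then 0 else (ArithmeticFunction.sigma k n : ℤ)

/-- `σ'(n) = ∑_{d ∣ n, p ∤ d} d`. -/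
def sigP (p n : ℕ) : ℕ := ∑ d ∈ n.divisors with ¬ p ∣ d, d

/-- `e = ∑_{n ≥ 1} σ'(n) q^n`. -/
noncomputable def eSer (p : ℕ) : PowerSeries ℤ := PowerSeries.mk fun n => (sigP p n : ℤ)

/-- `𝔼 = (p - 1) + 24 e`, the `q`-expansion of `p E₂(p z) - E₂(z)`. -/
noncomputable def EEser (p : ℕ) : PowerSeries ℤ :=
  PowerSeries.C ((p : ℤ) - 1) + 24 * eSer p

noncomputable def E4ser : PowerSeries ℤ := 1 + 240 * sigSer 3
noncomputable def E6ser : PowerSeries ℤ := 1 - 504 * sigSer 5

/-- `Δ = q ∏ (1 - q^n)^24`, characterised by `1728 Δ = E₄³ - E₆²`. -/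
def IsDelta (D : PowerSeries ℤ) : Prop := 1728 * D = E4ser ^ 3 - E6ser ^ 2

/-- homomorphisms killing the parabolic elements (and `±1`) and the elements of finite order. -/
def ParEll {N : ℕ} {B : Type*} [AddCommGroup B] (φ : Additive (Gamma0 N) →+ B) : Prop :=
  ∀ γ : Gamma0 N, ((((γ : SL(2, ℤ)) : Matrix (Fin 2) (Fin 2) ℤ).trace ^ 2 = 4) ∨ γ ^ 12 = 1) →
    φ (Additive.ofMul γ) = 0

end Fermat.Agent.S16
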