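import Fermat.Agent.S16.CountAbs
import Fermat.Agent.S16.Defs
import Fermat.Agent.S21.Bound
import Fermat.Agent.S20

/-!
# S16/CountGamma : `#{φ : Γ₀(p) → B, ParEll} ≤ |B|^{2 g}`   (instantiation of CountAbs + genus arithmetic)
-/

set_option autoImplicit false

open CongruenceSubgroup
open scoped MatrixGroups

namespace Fermat.Agent.S16

namespace CountGamma

open ModularGroup

theorem dedekindPsi_prime (p : ℕ) (hp : p.Prime) : ModularCurve.dedekindPsi p = p + 1 := by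
  unfold ModularCurve.dedekindPsi
  rw [Nat.Prime.divisors hp, Finset.filter_true_of_mem, Finset.sum_pair hp.one_lt.ne,
    Nat.div_one, Nat.div_self hp.pos]
  intro d hd
  rcases Finset.mem_insert.1 hd with rfl | hd
  · exact squarefree_one
  · rw [Finset.mem_singleton] at hd
    subst hd
    exact hp.prime.irreducible.squarefree

theorem cuspCount_prime (p : ℕ) (hp : p.Prime) : ModularCurve.cuspCount p = 2 := by
  unfold ModularCurve.cuspCount
  rw [Nat.Prime.divisors hp, Finset.sum_pair hp.one_lt.ne]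
  simp [Nat.div_self hp.pos]

/-- number of fixed points of an element acting with prime order. -/
theorem exists_card_fixed {X : Type*} [Finite X] (σ : Equiv.Perm X) (ℓ : ℕ) [Fact ℓ.Prime]
    (h : σ ^ ℓ = 1) : ∃ y : ℕ, ℓ * y + Nat.card {q : X // σ q = q} = Nat.card X := by
  classical
  let _ : Fintype X := Fintype.ofFinite X
  have h1 : (Equiv.Perm.support σ)ᶜ.card ≡ Fintype.card X [MOD ℓ] :=
    Equiv.Perm.card_compl_support_modEq (p := ℓ) (n := 1) (by simpa using h)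
  have h2 : Nat.card {q : X // σ q = q} = (Equiv.Perm.support σ)ᶜ.card := by
    rw [Nat.card_eq_fintype_card, Fintype.card_subtype]
    congr 1
    ext q
    simp
  have h3 : Nat.card {q : X // σ q = q} ≤ Nat.card X :=
    Nat.card_le_card_of_injective _ Subtype.val_injective
  rw [← h2, ← Nat.card_eq_fintype_card] at h1
  obtain ⟨y, hy⟩ := (Nat.modEq_iff_dvd' h3).1 h1
  exact ⟨y, by omega⟩

theorem trace_cEl (N : ℕ) {g : SL(2, ℤ)} {q : SL(2, ℤ) ⧸ Gamma0 N} (hg : g • q = q) :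
    (((cEl (Gamma0 N) g q : Gamma0 N) : SL(2, ℤ)) : Matrix (Fin 2) (Fin 2) ℤ).trace
      = (g : Matrix (Fin 2) (Fin 2) ℤ).trace := by
  rw [cEl_coe, hg, Matrix.SpecialLinearGroup.coe_mul, Matrix.trace_mul_comm,
    ← Matrix.SpecialLinearGroup.coe_mul, mul_assoc, mul_inv_cancel, mul_one]

theorem cEl_pow (N : ℕ) {g : SL(2, ℤ)} {q : SL(2, ℤ) ⧸ Gamma0 N} (hg : g • q = q) (n : ℕ)
    (hn : g ^ n = 1) : cEl (Gamma0 N) g q ^ n = 1 := by
  apply Subtype.ext
  rw [Subgroup.coe_pow, cEl_coe, hg, Subgroup.coe_one]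
  have : (Quotient.out q)⁻¹ * (g * Quotient.out q)
      = (Quotient.out q)⁻¹ * g * ((Quotient.out q)⁻¹)⁻¹ := by
    rw [inv_inv, mul_assoc]
  rw [this, conj_pow, hn, mul_one, inv_inv, inv_mul_cancel]

theorem neg_one_sq : ((-1 : SL(2, ℤ)) ^ 2) = 1 := by
  simp

theorem S_pow_twelve : (S : SL(2, ℤ)) ^ 12 = 1 := by
  have h : (S : SL(2, ℤ)) ^ 12 = ((S * S) ^ 2) ^ 3 := by
    rw [← pow_two, ← pow_mul, ← pow_mul]
  rw [h, Fermat.Agent.S21.S_mul_S, neg_one_sq, one_pow]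

theorem TS_pow_twelve : (T * S : SL(2, ℤ)) ^ 12 = 1 := by
  have h : (T * S : SL(2, ℤ)) ^ 12 = (((T * S) ^ 3) ^ 2) ^ 2 := by
    rw [← pow_mul, ← pow_mul]
  rw [h, Fermat.Agent.S21.TS_pow_three, Fermat.Agent.S21.S_mul_S, neg_one_sq, one_pow]

end CountGamma

open CountGamma ModularGroup in
theorem card_parEll_le (p : ℕ) [Fact p.Prime] (B : Type) [AddCommGroup B] [Finite B] :
    Nat.card {φ : Additive (Gamma0 p) →+ B // ParEll φ}
      ≤ Nat.card B ^ (2 * Module.finrank ℂ (CuspForm (Gamma0 p) 2)) := by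
  have hp : p.Prime := Fact.out
  have : NeZero p := ⟨hp.ne_zero⟩
  have : Finite (SL(2, ℤ) ⧸ Gamma0 p) := Subgroup.finite_quotient_of_finiteIndex
  have hZ : ∀ q : SL(2, ℤ) ⧸ Gamma0 p, (S * S) • q = q :=
    Fermat.Agent.S21.smul_eq_self_of_conj_mem p (Fermat.Agent.S21.conj_neg_one_mem p)
  have hU3 : ∀ q : SL(2, ℤ) ⧸ Gamma0 p, ((T * S) ^ 3) • q = q := by
    rw [Fermat.Agent.S21.TS_pow_three]; exact hZ
  have : Fact (Nat.Prime 2) := ⟨Nat.prime_two⟩
  have : Fact (Nat.Prime 3) := ⟨Nat.prime_three⟩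
  obtain ⟨y₂, hy₂⟩ := exists_card_fixed (MulAction.toPerm (S : SL(2, ℤ)) :
    Equiv.Perm (SL(2, ℤ) ⧸ Gamma0 p)) 2 (by
      ext q
      have := hZ q
      rw [mul_smul] at this
      simpa [pow_two] using this)
  obtain ⟨y₃, hy₃⟩ := exists_card_fixed (MulAction.toPerm (T * S : SL(2, ℤ)) :
    Equiv.Perm (SL(2, ℤ) ⧸ Gamma0 p)) 3 (by
      ext q
      have := hU3 q
      rw [pow_succ, pow_two, mul_smul, mul_smul] at this
      simpa [pow_succ] using this)
  simp only [MulAction.toPerm_apply] at hy₂ hy₃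
  have hTm : (T : SL(2, ℤ)) ∈ Gamma0 p := by
    rw [Gamma0_mem]; simp [coe_T]
  have hRS : (T * S * S⁻¹ : SL(2, ℤ)) = T := mul_inv_cancel_right _ _
  have trS : ((S * S : SL(2, ℤ)) : Matrix (Fin 2) (Fin 2) ℤ).trace ^ 2 = 4 := by
    rw [Fermat.Agent.S21.S_mul_S]
    simp [Matrix.trace_fin_two]
  have key := card_hom_mul_le (Γ := Gamma0 p) (S := S) (R := T * S)
    Fermat.Agent.S21.closure_S_TS hZ hU3
    (by
      rw [Gamma0_mem]
      simp [coe_S]
      )
    (by rw [hRS]; exact hTm)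
    (B := B) {φ | ParEll φ}
    (fun φ hφ q => hφ _ (Or.inl (by rw [trace_cEl p (hZ q)]; exact trS)))
    (fun φ hφ q => hφ _ (Or.inl (by
      rw [trace_cEl p (hU3 q), Fermat.Agent.S21.TS_pow_three]; exact trS)))
    (fun φ hφ q hq => hφ _ (Or.inr (cEl_pow p hq 12 S_pow_twelve)))
    (fun φ hφ q hq => hφ _ (Or.inr (cEl_pow p hq 12 TS_pow_twelve)))
    (fun φ hφ => hφ _ (Or.inl (by
      rw [hRS, trace_cEl p (q := QuotientGroup.mk 1) (by
        rw [MulAction.Quotient.smul_mk, eq_comm, QuotientGroup.eq, smul_eq_mul]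
        simpa using hTm)]
      simp [coe_T, Matrix.trace_fin_two])))
    hy₂ hy₃
  rw [Fermat.Agent.S20.card_fixed_S] at hy₂
  rw [Fermat.Agent.S21.card_fixed_TS] at hy₃
  rw [Fermat.Agent.S20.card_quot, dedekindPsi_prime p hp] at hy₂ hy₃ key
  have hg := Fermat.Agent.S20.result p
  rw [ModularCurve.genusFormula, dedekindPsi_prime p hp, cuspCount_prime p hp] at hg
  have e : y₂ + 2 * y₃ = 2 * Module.finrank ℂ (CuspForm (Gamma0 p) 2) + (p + 1) := by
    have e2 : (2 * y₂ + ModularCurve.nuTwo p : ℚ) = ((p + 1 : ℕ) : ℚ) := by exact_mod_cast hy₂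
    have e3 : (3 * y₃ + ModularCurve.nuThree p : ℚ) = ((p + 1 : ℕ) : ℚ) := by exact_mod_cast hy₃
    have : (y₂ + 2 * y₃ : ℚ)
        = 2 * (Module.finrank ℂ (CuspForm (Gamma0 p) 2) : ℚ) + ((p + 1 : ℕ) : ℚ) := by
      rw [hg]
      linarith
    exact_mod_cast this
  rw [e, pow_add _ _ (p + 1)] at key
  have hB : 0 < Nat.card B ^ (p + 1) := pow_pos Nat.card_pos _
  exact Nat.le_of_mul_le_mul_right key hB

end Fermat.Agent.S16
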