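import Fermat.Agent.S16.Defs
import Fermat.Agent.S23

/-!
# S16/Wrap : reformulation of the statement   (ALGEBRA)
-/

set_option autoImplicit false

open CongruenceSubgroup ModularCurve CuspForm

namespace Fermat.Agent.S16

theorem heckeEvalForms_surjective (p : ℕ) [Fact p.Prime] :
    Function.Surjective (heckeEvalForms p 2) := by
  rintro ⟨t, ht⟩
  suffices h : ∃ P : HeckeAlg,
      (heckeEvalForms p 2 P : Module.End ℂ (CuspForm (Gamma0 p) 2)) = t by
    obtain ⟨P, hP⟩ := h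
    exact ⟨P, Subtype.ext hP⟩
  induction ht using Algebra.adjoin_induction with
  | mem x hx =>
    rcases hx with ⟨ℓ, hℓ, hℓN, -, rfl⟩ | ⟨q, hqN, hq, -, rfl⟩
    · refine ⟨heckeGen ⟨ℓ, hℓ⟩, ?_⟩
      rw [heckeEvalForms_heckeGen_of_not_dvd (ℓ := ⟨ℓ, hℓ⟩) hℓN, heckeAlgebra.coe_T]
    · refine ⟨heckeGen ⟨q, hq⟩, ?_⟩
      rw [heckeEvalForms_heckeGen_of_dvd (q := ⟨q, hq⟩) hqN, heckeAlgebra.coe_U]
  | algebraMap r =>
    exact ⟨MvPolynomial.C r, by rw [heckeEvalForms_C]; rfl⟩
  | add x y _ _ hx hy =>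
    obtain ⟨P, rfl⟩ := hx
    obtain ⟨Q, rfl⟩ := hy
    exact ⟨P + Q, by rw [map_add]; rfl⟩
  | mul x y _ _ hx hy =>
    obtain ⟨P, rfl⟩ := hx
    obtain ⟨Q, rfl⟩ := hy
    exact ⟨P * Q, by rw [map_mul]; rfl⟩

namespace Wrap

/-- a ring generated by `1` in which exactly the multiples of `n` vanish has `n` elements -/
theorem card_of_intCast {R : Type*} [Ring R] (n : ℕ)
    (hsurj : Function.Surjective (Int.castRingHom R))
    (hker : ∀ c : ℤ, (c : R) = 0 ↔ (n : ℤ) ∣ c) : Nat.card R = n := by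
  have e1 := RingHom.quotientKerEquivOfSurjective hsurj
  have hk : RingHom.ker (Int.castRingHom R) = Ideal.span {(n : ℤ)} := by
    ext c
    rw [RingHom.mem_ker, Ideal.mem_span_singleton]
    exact hker c
  rw [← Nat.card_congr e1.toEquiv, Nat.card_congr (Ideal.quotEquivOfEq hk).toEquiv,
    Nat.card_congr (Int.quotientSpanNatEquivZMod n).toEquiv, Nat.card_zmod]

theorem sub_C_mem (p : ℕ) (P : HeckeAlg) :
    P - MvPolynomial.C (MvPolynomial.aeval (eisensteinSystem p) P) ∈ eisensteinIdeal p := by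
  rw [eisensteinIdeal, mem_eigenIdeal_iff, map_sub, MvPolynomial.aeval_C]
  simp

theorem C_eq_intCast (c : ℤ) : (MvPolynomial.C c : HeckeAlg) = (c : HeckeAlg) := by simp

/-- general form: quotient of a surjective image of `HeckeAlg` by the Eisenstein ideal -/
theorem card_quot {T : Type*} [CommRing T] (p : ℕ) (ρ : HeckeAlg →+* T)
    (hρ : Function.Surjective ρ) (n : ℕ)
    (hU : ∃ P : HeckeAlg, ρ P = 0 ∧ MvPolynomial.aeval (eisensteinSystem p) P = (n : ℤ))
    (hL : ∀ P : HeckeAlg, ρ P = 0 → (n : ℤ) ∣ MvPolynomial.aeval (eisensteinSystem p) P) :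
    Nat.card (T ⧸ Ideal.map ρ (eisensteinIdeal p)) = n := by
  set I := Ideal.map ρ (eisensteinIdeal p) with hI
  have hmk : ∀ P : HeckeAlg, Ideal.Quotient.mk I (ρ P)
      = ((MvPolynomial.aeval (eisensteinSystem p) P : ℤ) : T ⧸ I) := by
    intro P
    have h2 := Ideal.mem_map_of_mem ρ (sub_C_mem p P)
    rw [← hI, ← Ideal.Quotient.eq_zero_iff_mem, map_sub, map_sub, sub_eq_zero] at h2
    rw [h2, C_eq_intCast, map_intCast, map_intCast]
  apply card_of_intCast
  · intro x
    obtain ⟨t, rfl⟩ := Ideal.Quotient.mk_surjective x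
    obtain ⟨P, rfl⟩ := hρ t
    exact ⟨_, (hmk P).symm⟩
  · intro c
    constructor
    · intro hc
      have h1 : ((c : ℤ) : T) ∈ I := by
        rw [← Ideal.Quotient.eq_zero_iff_mem, map_intCast]; exact hc
      rw [hI, Ideal.mem_map_iff_of_surjective ρ hρ] at h1
      obtain ⟨Q, hQ, hQc⟩ := h1
      have h2 := hL (MvPolynomial.C c - Q) (by
        rw [map_sub, hQc, C_eq_intCast, map_intCast, sub_self])
      rw [eisensteinIdeal, mem_eigenIdeal_iff] at hQ
      rw [map_sub, hQ, sub_zero, MvPolynomial.aeval_C] at h2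
      simpa using h2
    · rintro ⟨c', rfl⟩
      obtain ⟨P, hP, eP⟩ := hU
      have := hmk P
      rw [hP, map_zero, eP] at this
      rw [Int.cast_mul, ← this, zero_mul]

end Wrap

theorem card_eq_of (p : ℕ) [Fact p.Prime] (n : ℕ)
    (hU : ∃ P : HeckeAlg, heckeEvalForms p 2 P = 0 ∧
      MvPolynomial.aeval (eisensteinSystem p) P = (n : ℤ))
    (hL : ∀ P : HeckeAlg, heckeEvalForms p 2 P = 0 →
      (n : ℤ) ∣ MvPolynomial.aeval (eisensteinSystem p) P) :
    Nat.card (↥(heckeLatticeAlgebra p ∅) ⧸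
        Ideal.map ((latticeRestrictHom p ∅).toRingHom.comp (heckeEvalForms p 2))
          (eisensteinIdeal p)) = n := by
  have hbij := latticeRestrictHom_bijective p ∅ (Fermat.Agent.S23.result p)
  have hz : ∀ P : HeckeAlg, ((latticeRestrictHom p ∅).toRingHom.comp (heckeEvalForms p 2)) P = 0 ↔
      heckeEvalForms p 2 P = 0 := by
    intro P
    rw [RingHom.comp_apply]
    exact map_eq_zero_iff (latticeRestrictHom p ∅).toRingHom hbij.1
  apply Wrap.card_quot p
  · exact hbij.2.comp (heckeEvalForms_surjective p)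
  · obtain ⟨P, hP, eP⟩ := hU
    exact ⟨P, (hz P).2 hP, eP⟩
  · intro P hP
    exact hL P ((hz P).1 hP)

end Fermat.Agent.S16
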