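import Fermat.Agent.S16.HeckeCoeff
import Fermat.Agent.S16.Wrap
import Fermat.Agent.S22

/-!
# S16/Dual : the pairing `(t, f) ↦ a_1(t f)` between `T₀ = heckeAlgebra p 2 ∅` and
`L = intLattice p 2` is perfect   (ALGEBRA)
-/

set_option autoImplicit false

open CongruenceSubgroup ModularCurve CuspForm ModularFormClass

namespace Fermat.Agent.S16

namespace Dual

section Abstract

variable {L : Type*} [AddCommGroup L] [Module.Free ℤ L] [Module.Finite ℤ L]
  (a : ℕ → L →ₗ[ℤ] ℤ)
  {T : Type*} [CommRing T] [Module.Free ℤ T] [Module.Finite ℤ T]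
  (ι : T →+* Module.End ℤ L) (Ψ : HeckeAlg →+* T)

/-- the pairing `(f, t) ↦ a₁(t f)` -/
noncomputable def pairL : L →ₗ[ℤ] (T →ₗ[ℤ] ℤ) :=
  AddMonoidHom.toIntLinearMap
    { toFun := fun f => AddMonoidHom.toIntLinearMap
        { toFun := fun t => a 1 (ι t f)
          map_zero' := by simp
          map_add' := by intros; simp }
      map_zero' := by ext; simp
      map_add' := by intros; ext; simp }

omit [Module.Free ℤ L] [Module.Finite ℤ L] [Module.Free ℤ T] [Module.Finite ℤ T] in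
theorem pairL_apply (f : L) (t : T) : pairL a ι f t = a 1 (ι t f) := rfl

noncomputable def pairT : T →ₗ[ℤ] (L →ₗ[ℤ] ℤ) :=
  AddMonoidHom.toIntLinearMap
    { toFun := fun t => (a 1).comp (ι t)
      map_zero' := by ext; simp
      map_add' := by intros; ext; simp }

omit [Module.Free ℤ L] [Module.Finite ℤ L] [Module.Free ℤ T] [Module.Finite ℤ T] in
theorem pairT_apply (f : L) (t : T) : pairT a ι t f = a 1 (ι t f) := rfl

theorem dual_surjective
    (hι : Function.Injective ι)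
    (hPk : ∀ k, 1 ≤ k → ∃ P : HeckeAlg, ∀ f : L, a 1 (ι (Ψ P) f) = a k f)
    (h0 : ∀ f, a 0 f = 0)
    (hsep : ∀ f : L, (∀ n, a n f = 0) → f = 0)
    (hsat : ∀ (M : ℤ) (f : L), M ≠ 0 → (∀ n, M ∣ a n f) → ∃ g : L, f = M • g)
    (ψ : T →ₗ[ℤ] ℤ) : ∃ f : L, ∀ t : T, a 1 (ι t f) = ψ t := by
  have hinjL : Function.Injective (pairL a ι) := by
    rw [injective_iff_map_eq_zero]
    intro f hf
    apply hsep
    intro n
    rcases Nat.eq_zero_or_pos n with rfl | hn
    · exact h0 f
    · obtain ⟨P, hP⟩ := hPk n hn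
      rw [← hP, ← pairL_apply, hf]
      rfl
  have hinjT : Function.Injective (pairT a ι) := by
    rw [injective_iff_map_eq_zero]
    intro t ht
    apply hι
    rw [map_zero]
    ext f
    apply hsep
    intro n
    rcases Nat.eq_zero_or_pos n with rfl | hn
    · exact h0 _
    · obtain ⟨P, hP⟩ := hPk n hn
      rw [← hP, ← Module.End.mul_apply, ← map_mul, mul_comm, map_mul, Module.End.mul_apply,
        ← pairT_apply, ht]
      rfl
  have h1 : Module.finrank ℤ L ≤ Module.finrank ℤ T := by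
    have := LinearMap.finrank_le_finrank_of_injective hinjL
    rwa [Module.finrank_linearMap_self] at this
  have h2 : Module.finrank ℤ T ≤ Module.finrank ℤ L := by
    have := LinearMap.finrank_le_finrank_of_injective hinjT
    rwa [Module.finrank_linearMap_self] at this
  have h3 : Module.finrank ℤ (LinearMap.range (pairL a ι)) = Module.finrank ℤ L :=
    LinearMap.finrank_range_of_inj hinjL
  have h4 := (LinearMap.range (pairL a ι)).finrank_quotient_add_finrank
  rw [h3, Module.finrank_linearMap_self] at h4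
  have h5 : Module.finrank ℤ ((T →ₗ[ℤ] ℤ) ⧸ LinearMap.range (pairL a ι)) = 0 := by omega
  rw [Module.finrank_eq_zero_iff_isTorsion] at h5
  obtain ⟨⟨M, hM⟩, hMψ⟩ := @h5 (Submodule.Quotient.mk ψ)
  have hM0 : M ≠ 0 := nonZeroDivisors.ne_zero hM
  change M • (Submodule.Quotient.mk ψ : (T →ₗ[ℤ] ℤ) ⧸ LinearMap.range (pairL a ι)) = 0 at hMψ
  rw [← Submodule.Quotient.mk_smul, Submodule.Quotient.mk_eq_zero] at hMψ
  obtain ⟨f, hf⟩ := hMψ
  obtain ⟨g, rfl⟩ := hsat M f hM0 (by
    intro n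
    rcases Nat.eq_zero_or_pos n with rfl | hn
    · rw [h0]; exact dvd_zero _
    · obtain ⟨P, hP⟩ := hPk n hn
      rw [← hP, ← pairL_apply, hf]
      exact ⟨ψ (Ψ P), rfl⟩)
  refine ⟨g, fun t => ?_⟩
  have := congrArg (fun φ : T →ₗ[ℤ] ℤ => φ t) hf
  simp only [map_smul, LinearMap.smul_apply, smul_eq_mul, pairL_apply] at this
  exact mul_left_cancel₀ hM0 this

end Abstract

open P2MW.S_CuspForm_intLattice_fg.W3WsD

theorem exists_int (N : ℕ) (f : ↥(intLattice N 2)) (n : ℕ) :
    ∃ m : ℤ, qCoeff (f : CuspForm (Gamma0 N) 2) n = (m : ℂ) :=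
  (mem_intLattice_iff _).mp f.2 n

/-- integer coefficient -/
noncomputable def ic (N : ℕ) (n : ℕ) (f : ↥(intLattice N 2)) : ℤ := (exists_int N f n).choose

theorem ic_spec (N : ℕ) (n : ℕ) (f : ↥(intLattice N 2)) :
    qCoeff (f : CuspForm (Gamma0 N) 2) n = (ic N n f : ℂ) := (exists_int N f n).choose_spec

noncomputable def icL (N : ℕ) (n : ℕ) : ↥(intLattice N 2) →ₗ[ℤ] ℤ where
  toFun := ic N n
  map_add' f g := by
    have : ((ic N n (f + g) : ℤ) : ℂ) = ((ic N n f + ic N n g : ℤ) : ℂ) := by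
      rw [Int.cast_add, ← ic_spec, ← ic_spec, ← ic_spec, Submodule.coe_add, qCoeff_add]
    exact_mod_cast this
  map_smul' c f := by
    have : ((ic N n (c • f) : ℤ) : ℂ) = ((c * ic N n f : ℤ) : ℂ) := by
      rw [Int.cast_mul, ← ic_spec, ← ic_spec, Submodule.coe_smul, qCoeff_zsmul]
    simpa using (by exact_mod_cast this : ic N n (c • f) = c * ic N n f)

theorem icL_spec (N : ℕ) (n : ℕ) (f : ↥(intLattice N 2)) :
    ((icL N n f : ℤ) : ℂ) = qCoeff (f : CuspForm (Gamma0 N) 2) n := (ic_spec N n f).symm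

theorem qCoeff_zero_cusp (N : ℕ) (f : CuspForm (Gamma0 N) 2) : qCoeff f 0 = 0 :=
  CuspFormClass.qExpansion_coeff_zero f one_pos (hΓ N)

theorem coe_latticeActionHom (N : ℕ) [NeZero N] (t : ↥(heckeAlgebra N 2 ∅))
    (f : ↥(intLattice N 2)) :
    ((latticeActionHom N ∅ t f : ↥(intLattice N 2)) : CuspForm (Gamma0 N) 2)
      = (t : Module.End ℂ (CuspForm (Gamma0 N) 2)) f := rfl

end Dual

open _root_.Fermat.Agent.S16.Dual P2MW.S_CuspForm_intLattice_fg.W3WsD in
theorem dual_surj (p : ℕ) [Fact p.Prime] (φ : ↥(heckeAlgebra p 2 ∅) →ₗ[ℤ] ℤ) :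
    ∃ f : CuspForm (Gamma0 p) 2, (∀ n : ℕ, ∃ m : ℤ, qCoeff f n = (m : ℂ)) ∧
      ∀ t : ↥(heckeAlgebra p 2 ∅),
        qCoeff ((t : Module.End ℂ (CuspForm (Gamma0 p) 2)) f) 1 = (φ t : ℂ) := by
  have hpp : p.Prime := Fact.out
  have : NeZero p := ⟨hpp.ne_zero⟩
  have i1 : Module.Finite ℤ ↥(intLattice p 2) := intLattice.moduleFinite p
  have i2 : Module.Free ℤ ↥(intLattice p 2) := intLattice.moduleFree p
  have i3 : Module.Finite ℤ ↥(heckeAlgebra p 2 ∅) := Fermat.Agent.S22.result p 2 ∅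
  have i4 : Module.Free ℤ ↥(heckeAlgebra p 2 ∅) := Module.free_of_finite_type_torsion_free'
  obtain ⟨f, hf⟩ := dual_surjective (icL p) (latticeActionHom p ∅) (heckeEvalForms p 2)
    (latticeActionHom_injective p ∅ (Fermat.Agent.S23.result p))
    (by
      intro k hk
      obtain ⟨P, hP, -⟩ := exists_coeffPoly p k hk
      refine ⟨P, fun f => ?_⟩
      have : ((icL p 1 (latticeActionHom p ∅ (heckeEvalForms p 2 P) f) : ℤ) : ℂ)
          = ((icL p k f : ℤ) : ℂ) := by
        rw [icL_spec, icL_spec, coe_latticeActionHom, ← hP]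
      exact_mod_cast this)
    (by
      intro f
      have : ((icL p 0 f : ℤ) : ℂ) = ((0 : ℤ) : ℂ) := by
        rw [icL_spec, qCoeff_zero_cusp, Int.cast_zero]
      exact_mod_cast this)
    (by
      intro f h
      apply Subtype.ext
      apply Fermat.Agent.S49.eq_zero_of_qCoeff
      intro n
      rw [← icL_spec, h n, Int.cast_zero])
    (by
      intro M f hM h
      have hMC : (M : ℂ) ≠ 0 := by exact_mod_cast hM
      refine ⟨⟨(1 / M : ℂ) • (f : CuspForm (Gamma0 p) 2), ?_⟩, ?_⟩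
      · rw [mem_intLattice_iff]
        intro n
        obtain ⟨c, hc⟩ := h n
        refine ⟨c, ?_⟩
        rw [Fermat.Agent.S49.qCoeff_csmul, ← icL_spec, hc]
        push_cast
        field_simp
      · apply Subtype.ext
        rw [Submodule.coe_smul]
        change (f : CuspForm (Gamma0 p) 2) = M • ((1 / M : ℂ) • (f : CuspForm (Gamma0 p) 2))
        rw [← Int.cast_smul_eq_zsmul ℂ, smul_smul]
        field_simp
        simp)
    φ
  refine ⟨f, (mem_intLattice_iff _).mp f.2, fun t => ?_⟩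
  rw [← hf t, icL_spec, coe_latticeActionHom]

end Fermat.Agent.S16
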