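import Fermat.Agent.S16.Defs
import Mathlib.NumberTheory.ModularForms.EisensteinSeries.E2.Transform
import Mathlib.NumberTheory.ModularForms.EisensteinSeries.E2.MDifferentiable
import Fermat.Prelude.Thm_CongruenceSubgroup_one_mem_strictPeriods_Gamma0

/-!
# S16/Eis : the Eisenstein series `p E₂(p z) - E₂(z) ∈ M₂(Γ₀(p))`   (ANALYTIC)

RECIPE.  Mathlib: `EisensteinSeries.E2` (`E2/Defs`), its transformation under `SL(2,ℤ)` (`E2/Transform`:
`E2 ∣[2] γ = E2 - (correction c/(cz+d))`), holomorphy (`E2/MDifferentiable`), q-expansion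
`E2 = 1 - 24 ∑ σ₁(n) q^n` (`E2/Summable` or `Derivative`/`Discriminant`: logarithmic derivative of `Δ`).
For `γ = (a,b;c,d) ∈ Γ₀(p)`, `γ' = (a, p b; c/p, d) ∈ SL(2,ℤ)` and `p (γ z) = γ' (p z)`; the two correction terms cancel.
Boundedness at all cusps: for `δ ∈ SL(2,ℤ)`, `(E₂(p ·)) ∣[2] δ` is, by the Hermite form `diag(p,1) δ = δ' (a,b;0,d)`, a
multiple of `E2 ((a z + b)/d)` plus a correction which cancels; `E2` is bounded at `i∞`.
ALTERNATIVE: `EE = θ log (Δ(p z)/Δ(z))`.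
Coefficient identity: `p σ(n/p) [p ∣ n] - σ(n) = - σ'(n)`, `σ'(n) = ∑_{d ∣ n, p ∤ d} d`.
-/

set_option autoImplicit false

open UpperHalfPlane hiding I
open CongruenceSubgroup ModularFormClass Matrix.SpecialLinearGroup EisensteinSeries
open scoped MatrixGroups ModularForm Manifold

namespace Fermat.Agent.S16

/-- cocycle property of the correction term -/
theorem eis_D2_slash {p : ℕ} (hp : p ≠ 0) (δ δ' : SL(2, ℤ)) (U : GL (Fin 2) ℝ) (hU10 : U 1 0 = 0)
    (hdet : 0 < U.det.val)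
    (hmul : ModularForm.heckeDiagMatrix p * mapGL ℝ δ = mapGL ℝ δ' * U) :
    (D2 δ') ∣[(2 : ℤ)] U = D2 δ := by
  funext z
  rw [ModularForm.slash_apply, UpperHalfPlane.σ, if_pos hdet]
  have hden : denom (mapGL ℝ δ') ((U • z : ℍ) : ℂ) * denom U z = denom (mapGL ℝ δ) z := by
    have h1 := UpperHalfPlane.denom_cocycle_σ (mapGL ℝ δ') U z
    have h2 := UpperHalfPlane.denom_cocycle_σ (ModularForm.heckeDiagMatrix p) (mapGL ℝ δ) z
    rw [UpperHalfPlane.σ, if_pos hdet] at h1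
    rw [ModularForm.denom_heckeDiagMatrix hp, map_one, one_mul, hmul] at h2
    rw [← h2, h1]
    rfl
  have h10 : ((δ' 1 0 : ℤ) : ℝ) * U 0 0 = ((δ 1 0 : ℤ) : ℝ) := by
    have := congrArg (fun M : GL (Fin 2) ℝ => (M : Matrix (Fin 2) (Fin 2) ℝ) 1 0) hmul
    simp [Matrix.mul_apply, Fin.sum_univ_two, ModularForm.val_heckeDiagMatrix hp, hU10] at this
    exact this.symm
  have hdU : denom U z = ((U 1 1 : ℝ) : ℂ) := by
    simp [UpperHalfPlane.denom, hU10]
  have hdetU : (U.det.val : ℝ) = U 0 0 * U 1 1 := by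
    rw [Matrix.GeneralLinearGroup.val_det_apply, Matrix.det_fin_two, hU10]; ring
  have hne : denom (mapGL ℝ δ') ((U • z : ℍ) : ℂ) ≠ 0 := UpperHalfPlane.denom_ne_zero _ _
  have hne2 : denom U z ≠ 0 := UpperHalfPlane.denom_ne_zero _ _
  have hne3 : denom (mapGL ℝ δ) z ≠ 0 := UpperHalfPlane.denom_ne_zero _ _
  simp only [D2, ContinuousAlgEquiv.refl_apply]
  change 2 * ↑Real.pi * Complex.I * ((δ' 1 0 : ℤ) : ℂ) / denom (mapGL ℝ δ') ((U • z : ℍ) : ℂ) *
        ((|U.det.val| : ℝ) : ℂ) ^ ((2 : ℤ) - 1) * denom U z ^ (-2 : ℤ) =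
    2 * ↑Real.pi * Complex.I * ((δ 1 0 : ℤ) : ℂ) / denom (mapGL ℝ δ) z
  rw [abs_of_pos hdet, hdetU, ← hden]
  have h10' : ((δ 1 0 : ℤ) : ℂ) = ((δ' 1 0 : ℤ) : ℂ) * ((U 0 0 : ℝ) : ℂ) := by
    have := congrArg (fun x : ℝ => (x : ℂ)) h10
    push_cast at this
    exact this.symm
  rw [h10', hdU] at *
  norm_num
  field_simp

/-- the function `p E₂(p z) - E₂(z)` -/
noncomputable def EEfun (p : ℕ) : ℍ → ℂ := E2 ∣[(2 : ℤ)] ModularForm.heckeDiagMatrix p - E2

theorem eis_EE_slash {p : ℕ} (hp : p ≠ 0) (δ δ' : SL(2, ℤ)) (U : GL (Fin 2) ℝ) (hU10 : U 1 0 = 0)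
    (hdet : 0 < U.det.val)
    (hmul : ModularForm.heckeDiagMatrix p * mapGL ℝ δ = mapGL ℝ δ' * U) :
    EEfun p ∣[(2 : ℤ)] δ = E2 ∣[(2 : ℤ)] U - E2 := by
  have h1 : (E2 ∣[(2 : ℤ)] ModularForm.heckeDiagMatrix p) ∣[(2 : ℤ)] δ =
      E2 ∣[(2 : ℤ)] U - (1 / (2 * riemannZeta 2)) • D2 δ := by
    rw [ModularForm.SL_slash, ← SlashAction.slash_mul]
    change E2 ∣[(2 : ℤ)] (ModularForm.heckeDiagMatrix p * mapGL ℝ δ) = _
    rw [hmul, SlashAction.slash_mul]
    change (E2 ∣[(2 : ℤ)] δ') ∣[(2 : ℤ)] U = _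
    rw [E2_slash_action, sub_eq_add_neg, SlashAction.add_slash, SlashAction.neg_slash,
      ModularForm.smul_slash, eis_D2_slash hp δ δ' U hU10 hdet hmul, UpperHalfPlane.σ, if_pos hdet,
      ← sub_eq_add_neg]
    rfl
  rw [EEfun, sub_eq_add_neg, SlashAction.add_slash, SlashAction.neg_slash, h1, E2_slash_action]
  abel

theorem eis_decomp_Gamma0 {p : ℕ} (hp : p ≠ 0) (δ : SL(2, ℤ)) (hδ : δ ∈ Gamma0 p) :
    ∃ δ' : SL(2, ℤ), ModularForm.heckeDiagMatrix p * mapGL ℝ δ =
      mapGL ℝ δ' * ModularForm.heckeDiagMatrix p := by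
  rw [Gamma0_mem, ZMod.intCast_zmod_eq_zero_iff_dvd] at hδ
  obtain ⟨c', hc'⟩ := hδ
  have hdet := δ.det_coe
  rw [Matrix.det_fin_two] at hdet
  refine ⟨⟨!![δ 0 0, p * δ 0 1; c', δ 1 1], ?_⟩, ?_⟩
  · rw [Matrix.det_fin_two_of]
    rw [hc'] at hdet
    linear_combination hdet
  · apply Units.ext
    ext i j
    fin_cases i <;> fin_cases j <;>
      simp [Matrix.mul_apply, Fin.sum_univ_two, ModularForm.val_heckeDiagMatrix hp, hc'] <;> ring

theorem eis_decomp_other {p : ℕ} [Fact p.Prime] (δ : SL(2, ℤ)) (hδ : δ ∉ Gamma0 p) :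
    ∃ (δ' : SL(2, ℤ)) (j : ℕ), ModularForm.heckeDiagMatrix p * mapGL ℝ δ =
      mapGL ℝ δ' * ModularForm.heckeMatrix p j := by
  have hp : p ≠ 0 := (Fact.out : p.Prime).ne_zero
  rw [Gamma0_mem] at hδ
  set j : ℕ := (((δ 1 1 : ℤ) : ZMod p) / ((δ 1 0 : ℤ) : ZMod p)).val with hj
  have hdvd : (p : ℤ) ∣ δ 1 1 - j * δ 1 0 := by
    rw [← ZMod.intCast_zmod_eq_zero_iff_dvd]
    push_cast
    rw [hj, ZMod.natCast_zmod_val]
    field_simp
    ring
  obtain ⟨e, he⟩ := hdvd
  have hdet := δ.det_coe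
  rw [Matrix.det_fin_two] at hdet
  refine ⟨⟨!![p * δ 0 0, δ 0 1 - j * δ 0 0; δ 1 0, e], ?_⟩, j, ?_⟩
  · rw [Matrix.det_fin_two_of]
    linear_combination hdet + δ 0 0 * (-he)
  · have he' : ((δ 1 1 : ℤ) : ℝ) = (p : ℝ) * e + j * ((δ 1 0 : ℤ) : ℝ) := by
      have : δ 1 1 = p * e + j * δ 1 0 := by linear_combination he
      exact_mod_cast this
    apply Units.ext
    ext i' j'
    fin_cases i' <;> fin_cases j' <;>
      simp [Matrix.mul_apply, Fin.sum_univ_two, ModularForm.val_heckeDiagMatrix hp,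
        ModularForm.val_heckeMatrix hp, he'] <;> ring

open scoped ArithmeticFunction.sigma

theorem eis_sigP (p : ℕ) (hp : p ≠ 0) (m : ℕ) (hm : m ≠ 0) :
    (sigP p m : ℤ) = (σ 1 m : ℤ) - (if p ∣ m then (p : ℤ) * (σ 1 (m / p) : ℤ) else 0) := by
  have h1 : σ 1 m = sigP p m + ∑ d ∈ m.divisors with p ∣ d, d := by
    rw [ArithmeticFunction.sigma_one_apply, sigP, add_comm]
    exact (Finset.sum_filter_add_sum_filter_not _ _ _).symm
  have h2 : ∑ d ∈ m.divisors with p ∣ d, d = if p ∣ m then p * σ 1 (m / p) else 0 := by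
    split_ifs with hpm
    · rw [ArithmeticFunction.sigma_one_apply, Finset.mul_sum]
      symm
      refine Finset.sum_nbij' (fun d => p * d) (fun d => d / p) ?_ ?_ ?_ ?_ ?_
      · intro d hd
        rw [Nat.mem_divisors] at hd
        simp only [Finset.mem_filter, Nat.mem_divisors]
        refine ⟨⟨?_, hm⟩, dvd_mul_right _ _⟩
        obtain ⟨k, hk⟩ := hpm
        rw [hk, Nat.mul_div_cancel_left _ (Nat.pos_of_ne_zero hp)] at hd
        rw [hk]
        exact Nat.mul_dvd_mul_left p hd.1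
      · intro d hd
        simp only [Finset.mem_filter, Nat.mem_divisors] at hd
        rw [Nat.mem_divisors]
        obtain ⟨⟨hdm, _⟩, k, rfl⟩ := hd
        rw [Nat.mul_div_cancel_left _ (Nat.pos_of_ne_zero hp)]
        obtain ⟨l, hl⟩ := hpm
        rw [hl, Nat.mul_div_cancel_left _ (Nat.pos_of_ne_zero hp)]
        rw [hl] at hdm
        refine ⟨Nat.dvd_of_mul_dvd_mul_left (Nat.pos_of_ne_zero hp) hdm, ?_⟩
        rintro rfl
        exact hm (by rw [hl, mul_zero])
      · intro d _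
        exact Nat.mul_div_cancel_left _ (Nat.pos_of_ne_zero hp)
      · intro d hd
        simp only [Finset.mem_filter] at hd
        exact Nat.mul_div_cancel' hd.2
      · intro d _
        rfl
    · apply Finset.sum_eq_zero
      intro d hd
      simp only [Finset.mem_filter, Nat.mem_divisors] at hd
      exact absurd (hd.2.trans hd.1.1) hpm
  rw [h1, h2]
  split_ifs <;> push_cast <;> ring


/-- the Eisenstein series of weight two on `Γ₀(p)` -/
noncomputable def EEform (p : ℕ) [Fact p.Prime] : ModularForm (Gamma0 p) 2 where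
  toFun := EEfun p
  slash_action_eq' γ hγ := by
    have hp : p ≠ 0 := (Fact.out : p.Prime).ne_zero
    obtain ⟨γ0, hγ0, rfl⟩ := hγ
    obtain ⟨δ', h⟩ := eis_decomp_Gamma0 hp γ0 hγ0
    exact eis_EE_slash hp γ0 δ' _ (by simp [ModularForm.val_heckeDiagMatrix hp])
      (ModularForm.det_heckeDiagMatrix_pos p) h
  holo' := (E2_mdifferentiable.slash 2 _).sub E2_mdifferentiable
  bdd_at_cusps' hc := by
    have hp : p ≠ 0 := (Fact.out : p.Prime).ne_zero
    rw [OnePoint.isBoundedAt_iff_forall_SL2Z (hc.mono (Subgroup.map_le_range _ _))]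
    intro δ _
    by_cases hδ : δ ∈ Gamma0 p
    · obtain ⟨δ', h⟩ := eis_decomp_Gamma0 hp δ hδ
      have h10 : (ModularForm.heckeDiagMatrix p : GL (Fin 2) ℝ) 1 0 = 0 := by
        simp [ModularForm.val_heckeDiagMatrix hp]
      rw [eis_EE_slash hp δ δ' _ h10 (ModularForm.det_heckeDiagMatrix_pos p) h]
      exact (isBoundedAtImInfty_E2.slash 2 h10).sub isBoundedAtImInfty_E2
    · obtain ⟨δ', j, h⟩ := eis_decomp_other δ hδ
      have h10 : (ModularForm.heckeMatrix p j : GL (Fin 2) ℝ) 1 0 = 0 := by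
        simp [ModularForm.val_heckeMatrix hp]
      rw [eis_EE_slash hp δ δ' _ h10 (ModularForm.det_heckeMatrix_pos p j) h]
      exact (isBoundedAtImInfty_E2.slash 2 h10).sub isBoundedAtImInfty_E2

theorem exists_EE (p : ℕ) [Fact p.Prime] :
    ∃ h : ModularForm (Gamma0 p) 2, HasQ h (EEser p) := by
  have hp : p ≠ 0 := (Fact.out : p.Prime).ne_zero
  refine ⟨EEform p, ?_⟩
  rw [HasQ]
  ext m
  symm
  rw [PowerSeries.coeff_map]
  refine ModularFormClass.qExpansion_coeff_unique (f := EEform p)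
    (c := fun m => Int.castRingHom ℂ ((EEser p).coeff m)) one_pos
    (CongruenceSubgroup.one_mem_strictPeriods_Gamma0 p) ?_ m
  intro τ
  set q := Function.Periodic.qParam 1 (τ : ℂ) with hq
  set c2 : ℕ → ℂ := fun m => (if m = 0 then 1 else -24 * σ 1 m : ℂ) with hc2
  have hq' : q = Complex.exp (2 * Real.pi * Complex.I * τ) := by
    rw [hq, Function.Periodic.qParam, Complex.ofReal_one, div_one]
  have H1 : HasSum (fun m : ℕ => c2 m • q ^ m) (E2 τ) := by
    rw [hq']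
    exact hasSum_qExpansion_E2 (z := τ)
  have H2 : HasSum (fun m : ℕ => c2 m • (q ^ p) ^ m) (E2 (ModularForm.heckeDiagMatrix p • τ)) := by
    have := hasSum_qExpansion_E2 (z := ModularForm.heckeDiagMatrix p • τ)
    rw [ModularForm.coe_heckeDiagMatrix_smul hp] at this
    have hqq : q ^ p = Complex.exp (2 * Real.pi * Complex.I * ((p : ℂ) * τ)) := by
      rw [hq', ← Complex.exp_nat_mul]
      congr 1
      ring
    rw [hqq]
    exact this
  have H3 : HasSum (fun m : ℕ => (if p ∣ m then c2 (m / p) else 0) • q ^ m)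
      (E2 (ModularForm.heckeDiagMatrix p • τ)) := by
    have hinj : Function.Injective (fun m : ℕ => p * m) := fun a b h =>
      Nat.eq_of_mul_eq_mul_left (Nat.pos_of_ne_zero hp) h
    rw [← hinj.hasSum_iff]
    · convert H2 using 2 with m
      simp only [Function.comp_apply, dvd_mul_right, if_true,
        Nat.mul_div_cancel_left _ (Nat.pos_of_ne_zero hp), pow_mul]
    · intro x hx
      have : ¬ p ∣ x := fun ⟨k, hk⟩ => hx ⟨k, hk.symm⟩
      simp [this]
  have hval : EEform p τ = (p : ℂ) * E2 (ModularForm.heckeDiagMatrix p • τ) - E2 τ := by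
    change EEfun p τ = _
    rw [EEfun, Pi.sub_apply, ModularForm.slash_heckeDiagMatrix_apply 2 hp]
    norm_num
  rw [hval]
  have H4 := (H3.mul_left (p : ℂ)).sub H1
  have hfun : (fun m : ℕ => Int.castRingHom ℂ ((EEser p).coeff m) • q ^ m) =
      fun m : ℕ => (p : ℂ) * (if p ∣ m then c2 (m / p) else 0) • q ^ m - c2 m • q ^ m := by
    funext m
    simp only [smul_eq_mul]
    rw [← mul_assoc, ← sub_mul]
    congr 1
    rcases eq_or_ne m 0 with rfl | hm
    · simp [EEser, eSer, sigP, hc2]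
    · have h5 : (EEser p).coeff m = 24 * (sigP p m : ℤ) := by
        rw [EEser, map_add, PowerSeries.coeff_C, if_neg hm, zero_add, eSer]
        have : (24 : PowerSeries ℤ) = PowerSeries.C 24 := by simp
        rw [this, PowerSeries.coeff_C_mul, PowerSeries.coeff_mk]
      rw [h5, eis_sigP p hp m hm]
      simp only [hc2, if_neg hm]
      split_ifs with h6 h7
      · exfalso
        obtain ⟨k, rfl⟩ := h6
        rw [Nat.mul_div_cancel_left _ (Nat.pos_of_ne_zero hp)] at h7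
        exact hm (by rw [h7, mul_zero])
      · simp only [eq_intCast]; push_cast; ring
      · simp only [eq_intCast]; push_cast; ring
  rw [hfun]
  exact H4

end Fermat.Agent.S16
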