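import Fermat.Agent.S16.Lam

/-!
# S16/Rank : `2 dim_ℂ S₂(Γ₀(p)) ≤ rank_ℤ Λ`
-/

set_option autoImplicit false

open CongruenceSubgroup
open scoped MatrixGroups ModularForm Manifold

namespace Fermat.Agent.S16

namespace Rank

open Fermat.Agent.S22 Fermat.Agent.S21 Matrix.SpecialLinearGroup UpperHalfPlane Complex

variable {N : ℕ} [NeZero N]

/-- a cusp form all of whose periods are purely imaginary vanishes. -/
theorem eq_zero_of_re_periods (a : CuspForm (Gamma0 N) 2)
    (hab : ∀ γ : Gamma0 N, (ModularCurve.periodMap N a (Additive.ofMul γ)).re = 0) : a = 0 := by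
  apply eq_zero_of_prim_const
  obtain ⟨M, hM, hgood⟩ := exists_uniform_period N
  have hMR : (0 : ℝ) < (M : ℝ) := by exact_mod_cast hM
  set Ψ : ℍ → ℂ := fun z => prim a z with hΨ
  have hform : ∀ δ : SL(2, ℤ), ∃ G₁ : ℍ → ℂ, ∃ K : ℂ, Good M G₁ ∧
      ∀ z : ℍ, Ψ (δ • z) = 1 * G₁ z + 0 * G₁ z + K := by
    intro δ
    obtain ⟨K₁, hK₁⟩ := prim_sl_smul a δ
    refine ⟨_, K₁, (hgood a δ).prim, fun z => ?_⟩
    simp only [hΨ]
    rw [hK₁]
    ring
  have hE := const_of_norm_invariant (Gamma0 N) (fun z => cexp (Ψ z)) (by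
      intro γ hγ z
      rw [Complex.norm_exp, Complex.norm_exp]
      congr 1
      have h1 := hab ⟨γ, hγ⟩
      rw [periodMap_apply] at h1
      have h2 := prim_Gamma0_sub a hγ z UpperHalfPlane.I
      have h7 : (Ψ (γ • z) - Ψ z).re = 0 := by
        simp only [hΨ]
        rw [h2]; exact h1
      rw [Complex.sub_re] at h7
      linarith) hMR
    (by
      intro δ
      obtain ⟨G₁, K, h₁, h⟩ := hform δ
      simp only [h]
      exact (exp_good h₁ h₁ 1 0 K).1)
    (by
      intro δ
      obtain ⟨G₁, K, h₁, h⟩ := hform δ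
      simp only [h]
      exact (exp_good h₁ h₁ 1 0 K).2.1)
    (by
      intro δ
      obtain ⟨G₁, K, h₁, h⟩ := hform δ
      simp only [h]
      exact (exp_good h₁ h₁ 1 0 K).2.2)
  have hΨhol : MDiff Ψ := (tower_cuspForm a 1).isPrim.mdiff
  apply const_of_hasDerivAt_zero (D := Ψ)
  intro u
  have hd : DifferentiableAt ℂ (Ψ ∘ ofComplex) (u : ℂ) :=
    (UpperHalfPlane.mdifferentiable_iff.mp hΨhol).differentiableAt
      (isOpen_upperHalfPlaneSet'.mem_nhds u.2)
  have h1 := hd.hasDerivAt.cexp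
  have h2 : HasDerivAt (fun x : ℂ => cexp ((Ψ ∘ ofComplex) x)) 0 (u : ℂ) := by
    have : (fun x : ℂ => cexp ((Ψ ∘ ofComplex) x)) = fun _ => cexp (Ψ u) := by
      funext x
      exact hE _ _
    rw [this]
    exact hasDerivAt_const _ _
  have h3 := h1.unique h2
  have h4 : deriv (Ψ ∘ ofComplex) (u : ℂ) = 0 :=
    (mul_eq_zero.mp h3).resolve_left (Complex.exp_ne_zero _)
  rw [← h4]
  exact hd.hasDerivAt

end Rank

theorem two_mul_finrank_le (p : ℕ) [NeZero p] :
    2 * Module.finrank ℂ (CuspForm (Gamma0 p) 2)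
      ≤ Module.finrank ℤ ↥(Fermat.Agent.S22.Lat p 0) := by
  have := Lat_free p
  have := Lat_finite p
  let b := Module.finBasis ℤ ↥(Fermat.Agent.S22.Lat p 0)
  let Θ : CuspForm (Gamma0 p) 2 →ₗ[ℝ]
      (Fin (Module.finrank ℤ ↥(Fermat.Agent.S22.Lat p 0)) → ℝ) :=
    { toFun := fun f j =>
        (((b j : ↥(Fermat.Agent.S22.Lat p 0)) :
          CuspForm (Gamma0 p) (((0 : ℕ) : ℤ) + 2) →ₗ[ℂ] ℂ) f).re
      map_add' := fun f g => by
        funext j
        simp only [Pi.add_apply]
        rw [← Complex.add_re]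
        congr 1
        exact map_add _ f g
      map_smul' := fun c f => by
        funext j
        simp only [Pi.smul_apply, RingHom.id_apply, smul_eq_mul]
        rw [← Complex.re_ofReal_mul]
        congr 1
        exact map_smul ((b j : ↥(Fermat.Agent.S22.Lat p 0)) :
          CuspForm (Gamma0 p) (((0 : ℕ) : ℤ) + 2) →ₗ[ℂ] ℂ) (c : ℂ) f }
  have hinj : Function.Injective Θ := by
    rw [injective_iff_map_eq_zero]
    intro f hf
    apply Rank.eq_zero_of_re_periods
    have key : ∀ l : ↥(Fermat.Agent.S22.Lat p 0),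
        ((l : CuspForm (Gamma0 p) (((0 : ℕ) : ℤ) + 2) →ₗ[ℂ] ℂ) f).re = 0 := by
      intro l
      have hl : l ∈ Submodule.span ℤ (Set.range b) := by rw [b.span_eq]; trivial
      induction hl using Submodule.span_induction with
      | mem l hl =>
        obtain ⟨j, rfl⟩ := hl
        exact congrFun hf j
      | zero => simp
      | add x y _ _ hx hy =>
        rw [Submodule.coe_add, LinearMap.add_apply, Complex.add_re, hx, hy, add_zero]
      | smul n x _ hx =>
        rw [Submodule.coe_smul, LinearMap.smul_apply, zsmul_eq_mul, ← Complex.ofReal_intCast,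
          Complex.re_ofReal_mul, hx, mul_zero]
    intro γ
    rw [← lam_apply]
    exact key _
  have h := LinearMap.finrank_le_finrank_of_injective hinj
  rw [finrank_real_of_complex, Module.finrank_fin_fun] at h
  exact h

end Fermat.Agent.S16
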