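import Fermat.Agent.S16.CountGamma
import Fermat.Agent.S16.Rank

/-!
# S16/Factor : every `ParEll` homomorphism to a finite abelian group factors through `Λ`
-/

set_option autoImplicit false

open CongruenceSubgroup
open scoped MatrixGroups

namespace Fermat.Agent.S16

namespace Factor

theorem finite_hom (p : ℕ) [NeZero p] (B : Type) [AddCommGroup B] [Finite B] :
    Finite (Additive (Gamma0 p) →+ B) := by
  have hfg : Group.FG (Gamma0 p) := (Group.fg_iff_subgroup_fg _).mpr (Fermat.Agent.S22.fg_Gamma0 p)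
  obtain ⟨S, hS⟩ := Group.fg_def.mp hfg
  refine Finite.of_injective
    (fun (φ : Additive (Gamma0 p) →+ B) (s : S) => φ (Additive.ofMul s.1)) ?_
  intro φ ψ h
  have h1 : AddMonoidHom.toMultiplicativeRight φ = AddMonoidHom.toMultiplicativeRight ψ :=
    MonoidHom.eq_of_eqOn_dense hS (fun s hs => congrArg Multiplicative.ofAdd (congrFun h ⟨s, hs⟩))
  exact AddMonoidHom.toMultiplicativeRight.injective h1

theorem card_hom (p : ℕ) [NeZero p] (B : Type) [AddCommGroup B] [Finite B] :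
    Nat.card (↥(Fermat.Agent.S22.Lat p 0) →+ B)
      = Nat.card B ^ Module.finrank ℤ ↥(Fermat.Agent.S22.Lat p 0) := by
  have := Lat_free p
  have := Lat_finite p
  let b := Module.finBasis ℤ ↥(Fermat.Agent.S22.Lat p 0)
  have e1 : (↥(Fermat.Agent.S22.Lat p 0) →+ B) ≃ (↥(Fermat.Agent.S22.Lat p 0) →ₗ[ℤ] B) :=
    (addMonoidHomLequivInt ℤ).toEquiv
  have e2 : (Fin (Module.finrank ℤ ↥(Fermat.Agent.S22.Lat p 0)) → B)
      ≃ (↥(Fermat.Agent.S22.Lat p 0) →ₗ[ℤ] B) := (b.constr ℤ).toEquiv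
  rw [Nat.card_congr (e1.trans e2.symm), Nat.card_fun, Nat.card_fin]

end Factor

open Factor in
theorem exists_factor (p : ℕ) [Fact p.Prime] (B : Type) [AddCommGroup B] [Finite B]
    (φ : Additive (Gamma0 p) →+ B) (hφ : ParEll φ) :
    ∃ y : ↥(Fermat.Agent.S22.Lat p 0) →+ B, ∀ γ, y (lam p γ) = φ γ := by
  have := finite_hom p B
  have hfin : Finite {φ : Additive (Gamma0 p) →+ B // ParEll φ} := Subtype.finite
  let F : (↥(Fermat.Agent.S22.Lat p 0) →+ B) → {φ : Additive (Gamma0 p) →+ B // ParEll φ} :=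
    fun y => ⟨y.comp (lam p), fun γ hγ => by
      rw [AddMonoidHom.comp_apply, lam_parEll p γ hγ, map_zero]⟩
  have hinj : Function.Injective F := by
    intro y y' h
    ext l
    obtain ⟨γ, rfl⟩ := lam_surjective p l
    exact DFunLike.congr_fun (congrArg Subtype.val h) γ
  have hB : 0 < Nat.card B := Nat.card_pos
  have hcard : Nat.card {φ : Additive (Gamma0 p) →+ B // ParEll φ}
      ≤ Nat.card (↥(Fermat.Agent.S22.Lat p 0) →+ B) := by
    rw [card_hom]
    exact (card_parEll_le p B).trans (Nat.pow_le_pow_right hB (two_mul_finrank_le p))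
  obtain ⟨y, hy⟩ := (hinj.bijective_of_nat_card_le hcard).2 ⟨φ, hφ⟩
  exact ⟨y, fun γ => DFunLike.congr_fun (congrArg Subtype.val hy) γ⟩

end Fermat.Agent.S16
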