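import Fermat.Agent.S16.Defs
import Fermat.Agent.S23.QExp

/-!
# S16/Fricke : the Fricke involution and the calculus of pair forms   (helper4)

`fricke p = (0,-1;p,0)`, `h ∣[k] fricke p (z) = p^{k-1} (p z)^{-k} h(-1/(p z))`,
`frickeFun p i h = p^{1-i} • h ∣[2i] fricke p`.
-/

set_option autoImplicit false

open UpperHalfPlane hiding I
open CongruenceSubgroup ModularFormClass Matrix.SpecialLinearGroup
open scoped MatrixGroups ModularForm Manifold

namespace Fermat.Agent.S16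

variable {p : ℕ} [NeZero p]

lemma fricke_coe (p : ℕ) [NeZero p] :
    ((fricke p : GL (Fin 2) ℝ) : Matrix (Fin 2) (Fin 2) ℝ) = !![0, -1; (p : ℝ), 0] := rfl

lemma fricke_det (p : ℕ) [NeZero p] : ((fricke p).det : ℝ) = p := by
  rw [Matrix.GeneralLinearGroup.val_det_apply, fricke_coe, Matrix.det_fin_two_of]
  ring

lemma fricke_pC_ne (p : ℕ) [NeZero p] : (p : ℂ) ≠ 0 := by exact_mod_cast NeZero.ne p

lemma fricke_pR_pos (p : ℕ) [NeZero p] : (0 : ℝ) < p := by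
  exact_mod_cast Nat.pos_of_ne_zero (NeZero.ne p)

lemma fricke_sigma (p : ℕ) [NeZero p] (c : ℂ) : σ (fricke p) c = c := by
  have : 0 < ((fricke p).det : ℝ) := by rw [fricke_det]; exact fricke_pR_pos p
  rw [σ, if_pos this, ContinuousAlgEquiv.refl_apply]

lemma fricke_denom (p : ℕ) [NeZero p] (z : ℍ) : denom (fricke p) z = (p : ℂ) * z := by
  simp [denom, fricke_coe]

lemma fricke_slash_apply (p : ℕ) [NeZero p] (k : ℤ) (h : ℍ → ℂ) (z : ℍ) :
    (h ∣[k] fricke p) z = h (fricke p • z) * (p : ℂ) ^ (k - 1) * ((p : ℂ) * z) ^ (-k) := by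
  rw [ModularForm.slash_apply, fricke_sigma, fricke_det, fricke_denom, abs_of_pos (fricke_pR_pos p)]
  simp

open ConjAct Pointwise in
theorem fricke_le (p : ℕ) [NeZero p] :
    ((Gamma0 p : Subgroup SL(2, ℤ)) : Subgroup (GL (Fin 2) ℝ)) ≤
      toConjAct (fricke p)⁻¹ • ((Gamma0 p : Subgroup SL(2, ℤ)) : Subgroup (GL (Fin 2) ℝ)) := by
  rintro _ ⟨γ, hγ, rfl⟩
  rw [map_inv, Subgroup.mem_inv_pointwise_smul_iff, toConjAct_smul]
  have hc : (p : ℤ) ∣ γ 1 0 := by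
    have := Gamma0_mem.mp hγ
    exact (ZMod.intCast_zmod_eq_zero_iff_dvd _ _).mp this
  obtain ⟨c', hc'⟩ := hc
  have hdet : γ 0 0 * γ 1 1 - γ 0 1 * γ 1 0 = 1 := by
    have := γ.det_coe
    rw [Matrix.det_fin_two] at this
    exact this
  let γ' : SL(2, ℤ) := ⟨!![γ 1 1, -c'; -(p * γ 0 1), γ 0 0], by
    rw [Matrix.det_fin_two_of]; rw [hc'] at hdet; linear_combination hdet⟩
  have key : fricke p * mapGL ℝ γ = mapGL ℝ γ' * fricke p := by
    apply Units.ext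
    rw [Units.val_mul, Units.val_mul, fricke_coe]
    ext i j
    fin_cases i <;> fin_cases j <;>
      simp [γ', Matrix.mul_apply, Fin.sum_univ_two, mapGL, hc'] <;> ring
  refine ⟨γ', ?_, ?_⟩
  · rw [SetLike.mem_coe, Gamma0_mem]
    simp [γ']
  · rw [key]
    simp


/-- `h ∣[k] fricke p` as a modular form on `Γ₀(p)`. -/
noncomputable def frickeForm0 {k : ℤ} (h : ModularForm (Gamma0 p) k) : ModularForm (Gamma0 p) k where
  toFun := ⇑h ∣[k] fricke p
  slash_action_eq' γ hγ := (ModularForm.translate h (fricke p)).slash_action_eq' γ (fricke_le p hγ)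
  holo' := (ModularForm.translate h (fricke p)).holo'
  bdd_at_cusps' hc := (ModularForm.translate h (fricke p)).bdd_at_cusps' (hc.mono (fricke_le p))

/-- the Fricke transform of a modular form is a modular form. -/
theorem exists_frickeForm (i : ℕ) (h : ModularForm (Gamma0 p) ((2 * i : ℕ) : ℤ)) :
    ∃ h' : ModularForm (Gamma0 p) ((2 * i : ℕ) : ℤ), (h' : ℍ → ℂ) = frickeFun p i h :=
  ⟨((p : ℂ) ^ (1 - (i : ℤ))) • frickeForm0 h, rfl⟩

lemma fricke_smul_smul (p : ℕ) [NeZero p] (z : ℍ) : fricke p • fricke p • z = z := by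
  rw [← mul_smul]
  apply UpperHalfPlane.ext
  have hdet : 0 < ((fricke p * fricke p).det : ℝ) := by
    rw [map_mul, Units.val_mul, fricke_det]
    exact mul_pos (fricke_pR_pos p) (fricke_pR_pos p)
  rw [UpperHalfPlane.coe_smul_of_det_pos hdet]
  have hp := fricke_pC_ne p
  simp [num, denom, fricke_coe, Matrix.mul_apply, Fin.sum_univ_two]
  field_simp

lemma fricke_smul_coe (p : ℕ) [NeZero p] (z : ℍ) :
    ((fricke p • z : ℍ) : ℂ) = -1 / ((p : ℂ) * z) := by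
  have hdet : 0 < ((fricke p).det : ℝ) := by rw [fricke_det]; exact fricke_pR_pos p
  rw [UpperHalfPlane.coe_smul_of_det_pos hdet]
  simp [num, denom, fricke_coe]

theorem frickeFun_frickeFun (i : ℕ) (h : ℍ → ℂ) : frickeFun p i (frickeFun p i h) = h := by
  ext z
  have hp := fricke_pC_ne p
  have hz : (z : ℂ) ≠ 0 := UpperHalfPlane.ne_zero z
  simp only [frickeFun, Pi.smul_apply, smul_eq_mul, fricke_slash_apply, fricke_smul_smul,
    fricke_smul_coe]
  have e1 : ((p : ℂ) * (-1 / ((p : ℂ) * z))) ^ (-((2 * i : ℕ) : ℤ)) * ((p : ℂ) * z) ^ (-((2 * i : ℕ) : ℤ))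
      = (p : ℂ) ^ (-((2 * i : ℕ) : ℤ)) := by
    rw [← mul_zpow]
    have : (p : ℂ) * (-1 / ((p : ℂ) * z)) * ((p : ℂ) * z) = -(p : ℂ) := by field_simp
    rw [this, zpow_neg, zpow_neg, zpow_natCast, zpow_natCast, pow_mul, pow_mul, neg_sq]
  have e2 : (p : ℂ) ^ (1 - (i : ℤ)) * (p : ℂ) ^ (1 - (i : ℤ)) * (p : ℂ) ^ (((2 * i : ℕ) : ℤ) - 1) *
      (p : ℂ) ^ (((2 * i : ℕ) : ℤ) - 1) * (p : ℂ) ^ (-((2 * i : ℕ) : ℤ)) = 1 := by
    rw [← zpow_add₀ hp, ← zpow_add₀ hp, ← zpow_add₀ hp, ← zpow_add₀ hp]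
    have : (1 - (i : ℤ)) + (1 - (i : ℤ)) + (((2 * i : ℕ) : ℤ) - 1) + (((2 * i : ℕ) : ℤ) - 1)
        + -((2 * i : ℕ) : ℤ) = 0 := by push_cast; ring
    rw [this, zpow_zero]
  calc _ = h z * ((p : ℂ) ^ (1 - (i : ℤ)) * (p : ℂ) ^ (1 - (i : ℤ)) * (p : ℂ) ^ (((2 * i : ℕ) : ℤ) - 1) *
      (p : ℂ) ^ (((2 * i : ℕ) : ℤ) - 1) * (((p : ℂ) * (-1 / ((p : ℂ) * z))) ^ (-((2 * i : ℕ) : ℤ)) *
        ((p : ℂ) * z) ^ (-((2 * i : ℕ) : ℤ)))) := by ring
    _ = h z := by rw [e1, e2, mul_one]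


open Fermat.Agent.S23 in
lemma an_frickeFun (i : ℕ) (h : ModularForm (Gamma0 p) ((2 * i : ℕ) : ℤ)) :
    An (frickeFun p i h) := by
  obtain ⟨h', hh'⟩ := exists_frickeForm i h
  rw [← hh']
  exact An.of_Gamma0 h'

lemma frickeFun_add (i : ℕ) (f g : ℍ → ℂ) :
    frickeFun p i (f + g) = frickeFun p i f + frickeFun p i g := by
  simp only [frickeFun, SlashAction.add_slash, smul_add]

lemma frickeFun_smul (i : ℕ) (c : ℂ) (f : ℍ → ℂ) :
    frickeFun p i (c • f) = c • frickeFun p i f := by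
  simp only [frickeFun, ModularForm.smul_slash, fricke_sigma]
  rw [smul_comm]

lemma frickeFun_mul (i j : ℕ) (f g : ℍ → ℂ) :
    frickeFun p (i + j) (f * g) = frickeFun p i f * frickeFun p j g := by
  have hp := fricke_pC_ne p
  have hk : ((2 * (i + j) : ℕ) : ℤ) = ((2 * i : ℕ) : ℤ) + ((2 * j : ℕ) : ℤ) := by push_cast; ring
  simp only [frickeFun]
  rw [hk, ModularForm.mul_slash, fricke_det, abs_of_pos (fricke_pR_pos p)]
  ext z
  simp only [Pi.smul_apply, Pi.mul_apply, smul_eq_mul, Complex.real_smul]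
  have e : (p : ℂ) ^ (1 - ((i + j : ℕ) : ℤ)) * (p : ℂ) = (p : ℂ) ^ (1 - (i : ℤ)) * (p : ℂ) ^ (1 - (j : ℤ)) := by
    rw [← zpow_add₀ hp, ← zpow_add_one₀ hp]
    congr 1
    push_cast
    ring
  generalize (f ∣[((2 * i : ℕ) : ℤ)] fricke p) z = A
  generalize (g ∣[((2 * j : ℕ) : ℤ)] fricke p) z = B
  simp only [Complex.ofReal_natCast]
  linear_combination (A * B) * e

theorem PF.swap {i : ℕ} {a b : PowerSeries ℤ} (h : PF p i a b) : PF p i b a := by
  obtain ⟨f, ha, hb⟩ := h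
  obtain ⟨f', hf'⟩ := exists_frickeForm i f
  refine ⟨f', ?_, ?_⟩
  · rw [hf']; exact hb
  · rw [hf', frickeFun_frickeFun]; exact ha

open Fermat.Agent.S23 in
theorem PF.mul {i j : ℕ} {a b a' b' : PowerSeries ℤ} (h : PF p i a b) (h' : PF p j a' b') :
    PF p (i + j) (a * a') (b * b') := by
  obtain ⟨f, ha, hb⟩ := h
  obtain ⟨g, ha', hb'⟩ := h'
  have hk : ((2 * i : ℕ) : ℤ) + ((2 * j : ℕ) : ℤ) = ((2 * (i + j) : ℕ) : ℤ) := by push_cast; ring
  refine ⟨ModularForm.mcast hk (f.mul g), ?_, ?_⟩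
  · have : (⇑(ModularForm.mcast hk (f.mul g)) : ℍ → ℂ) = ⇑f * ⇑g := rfl
    rw [this, HasQ, qExp_mul (An.of_Gamma0 f) (An.of_Gamma0 g), ha, ha', map_mul]
  · have : (⇑(ModularForm.mcast hk (f.mul g)) : ℍ → ℂ) = ⇑f * ⇑g := rfl
    rw [this, frickeFun_mul, HasQ, qExp_mul (an_frickeFun i f) (an_frickeFun j g), hb, hb', map_mul]

open Fermat.Agent.S23 in
theorem PF.add {i : ℕ} {a b a' b' : PowerSeries ℤ} (h : PF p i a b) (h' : PF p i a' b') :
    PF p i (a + a') (b + b') := by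
  obtain ⟨f, ha, hb⟩ := h
  obtain ⟨g, ha', hb'⟩ := h'
  refine ⟨f + g, ?_, ?_⟩
  · rw [FunLike.coe_add, HasQ, qExp_add (An.of_Gamma0 f) (An.of_Gamma0 g), ha, ha', map_add]
  · rw [FunLike.coe_add, frickeFun_add, HasQ, qExp_add (an_frickeFun i f) (an_frickeFun i g),
      hb, hb', map_add]

lemma fricke_map_C_mul (c : ℤ) (a : PowerSeries ℤ) :
    (PowerSeries.C c * a).map (Int.castRingHom ℂ) = (c : ℂ) • a.map (Int.castRingHom ℂ) := by
  ext n
  rw [map_mul, PowerSeries.map_C, PowerSeries.coeff_C_mul, PowerSeries.coeff_smul]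
  simp

open Fermat.Agent.S23 in
theorem PF.smul {i : ℕ} {a b : PowerSeries ℤ} (c : ℤ) (h : PF p i a b) :
    PF p i (PowerSeries.C c * a) (PowerSeries.C c * b) := by
  obtain ⟨f, ha, hb⟩ := h
  refine ⟨(c : ℂ) • f, ?_, ?_⟩
  · have : (⇑((c : ℂ) • f) : ℍ → ℂ) = (c : ℂ) • ⇑f := rfl
    rw [this, HasQ, qExp_smul (An.of_Gamma0 f), ha, fricke_map_C_mul]
  · have : (⇑((c : ℂ) • f) : ℍ → ℂ) = (c : ℂ) • ⇑f := rfl
    rw [this, frickeFun_smul, HasQ, qExp_smul (an_frickeFun i f), hb, fricke_map_C_mul]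

open Fermat.Agent.S23 in
/-- an integer factor can be cancelled. -/
theorem PF.cancel {i : ℕ} {a b : PowerSeries ℤ} {c : ℤ} (hc : c ≠ 0)
    (h : PF p i (PowerSeries.C c * a) (PowerSeries.C c * b)) : PF p i a b := by
  obtain ⟨f, ha, hb⟩ := h
  have hc' : (c : ℂ) ≠ 0 := by exact_mod_cast hc
  refine ⟨(c : ℂ)⁻¹ • f, ?_, ?_⟩
  · have : (⇑((c : ℂ)⁻¹ • f) : ℍ → ℂ) = (c : ℂ)⁻¹ • ⇑f := rfl
    rw [this, HasQ, qExp_smul (An.of_Gamma0 f), ha, fricke_map_C_mul, smul_smul,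
      inv_mul_cancel₀ hc', one_smul]
  · have : (⇑((c : ℂ)⁻¹ • f) : ℍ → ℂ) = (c : ℂ)⁻¹ • ⇑f := rfl
    rw [this, frickeFun_smul, HasQ, qExp_smul (an_frickeFun i f), hb, fricke_map_C_mul, smul_smul,
      inv_mul_cancel₀ hc', one_smul]

theorem PF.one : PF p 0 1 1 := by
  have hk : (0 : ℤ) = ((2 * 0 : ℕ) : ℤ) := by simp
  have hp := fricke_pC_ne p
  refine ⟨ModularForm.mcast hk (1 : ModularForm (Gamma0 p) 0), ?_, ?_⟩
  · have : (⇑(ModularForm.mcast hk (1 : ModularForm (Gamma0 p) 0)) : ℍ → ℂ) = 1 := rfl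
    rw [this, HasQ, qExpansion_one]
    simp
  · have : (⇑(ModularForm.mcast hk (1 : ModularForm (Gamma0 p) 0)) : ℍ → ℂ) = 1 := rfl
    have h1 : frickeFun p 0 (1 : ℍ → ℂ) = 1 := by
      ext z
      simp only [frickeFun, Pi.smul_apply, smul_eq_mul, fricke_slash_apply, Pi.one_apply]
      simp
    rw [this, h1, HasQ, qExpansion_one]
    simp


lemma fricke_Gamma0_le_SL (N : ℕ) :
    (Subgroup.map (Matrix.SpecialLinearGroup.mapGL ℝ) (Gamma0 N)) ≤ 𝒮ℒ := by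
  rintro _ ⟨γ, -, rfl⟩
  exact ⟨γ, rfl⟩

/-- Restriction of a level one form to `Γ₀(N)`. -/
def frickeRestrict (N : ℕ) {k : ℤ} (G : ModularForm 𝒮ℒ k) : ModularForm (Gamma0 N) k where
  toFun := G
  slash_action_eq' γ hγ := G.slash_action_eq' γ (fricke_Gamma0_le_SL N hγ)
  holo' := G.holo'
  bdd_at_cusps' hc := G.bdd_at_cusps' (hc.mono (fricke_Gamma0_le_SL N))

/-- the point `p z`. -/
def frickePmul (p : ℕ) [NeZero p] (z : ℍ) : ℍ :=
  ⟨(p : ℂ) * z, by simpa using mul_pos (fricke_pR_pos p) z.im_pos⟩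

lemma frickePmul_coe (p : ℕ) [NeZero p] (z : ℍ) : ((frickePmul p z : ℍ) : ℂ) = (p : ℂ) * z := rfl

lemma fricke_smul_eq (p : ℕ) [NeZero p] (z : ℍ) : fricke p • z = ModularGroup.S • frickePmul p z := by
  apply UpperHalfPlane.ext
  rw [fricke_smul_coe, UpperHalfPlane.modular_S_smul]
  change -1 / ((p : ℂ) * z) = (-((p : ℂ) * z))⁻¹
  rw [neg_div, one_div, inv_neg]

lemma frickeFun_levelOne (i : ℕ) (H : ModularForm 𝒮ℒ ((2 * i : ℕ) : ℤ)) (z : ℍ) :
    frickeFun p i H z = (p : ℂ) ^ i * H (frickePmul p z) := by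
  have hp := fricke_pC_ne p
  have hz : (z : ℂ) ≠ 0 := UpperHalfPlane.ne_zero z
  have hS : H (ModularGroup.S • frickePmul p z) = ((p : ℂ) * z) ^ ((2 * i : ℕ) : ℤ) * H (frickePmul p z) := by
    have hmem : mapGL ℝ ModularGroup.S ∈ 𝒮ℒ := ⟨ModularGroup.S, rfl⟩
    have := SlashInvariantForm.slash_action_eqn'' H hmem (frickePmul p z)
    have h2 : denom (mapGL ℝ ModularGroup.S) (frickePmul p z) = (p : ℂ) * z := by
      have := ModularGroup.denom_S (frickePmul p z)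
      rw [frickePmul_coe] at this
      exact this
    rw [h2] at this
    exact this
  simp only [frickeFun, Pi.smul_apply, smul_eq_mul, fricke_slash_apply]
  rw [fricke_smul_eq, hS]
  have e1 : ((p : ℂ) * z) ^ ((2 * i : ℕ) : ℤ) * ((p : ℂ) * z) ^ (-((2 * i : ℕ) : ℤ)) = 1 := by
    rw [← zpow_add₀ (mul_ne_zero hp hz), add_neg_cancel, zpow_zero]
  have e2 : (p : ℂ) ^ (1 - (i : ℤ)) * (p : ℂ) ^ (((2 * i : ℕ) : ℤ) - 1) = (p : ℂ) ^ i := by
    rw [← zpow_add₀ hp, ← zpow_natCast]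
    congr 1
    push_cast
    ring
  calc _ = H (frickePmul p z) * ((p : ℂ) ^ (1 - (i : ℤ)) * (p : ℂ) ^ (((2 * i : ℕ) : ℤ) - 1)) *
        (((p : ℂ) * z) ^ ((2 * i : ℕ) : ℤ) * ((p : ℂ) * z) ^ (-((2 * i : ℕ) : ℤ))) := by ring
    _ = _ := by rw [e1, e2]; ring


lemma fricke_qParam_pmul (p : ℕ) [NeZero p] (z : ℍ) :
    Function.Periodic.qParam 1 ((frickePmul p z : ℍ) : ℂ) = Function.Periodic.qParam 1 (z : ℂ) ^ p := by
  rw [frickePmul_coe, Function.Periodic.qParam, Function.Periodic.qParam, ← Complex.exp_nat_mul]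
  congr 1
  push_cast
  ring

/-- level one forms. -/
theorem PF.of_L1 {i : ℕ} {a : PowerSeries ℤ} (h : L1 (2 * i) a) :
    PF p i a (PowerSeries.C ((p : ℤ) ^ i) * PowerSeries.expand p (NeZero.ne p) a) := by
  obtain ⟨H, hH⟩ := h
  refine ⟨frickeRestrict p H, hH, ?_⟩
  obtain ⟨h', hh'⟩ := exists_frickeForm i (frickeRestrict p H)
  have hfun : ∀ z, h' z = (p : ℂ) ^ i * H (frickePmul p z) := by
    intro z
    rw [hh']
    exact frickeFun_levelOne i H z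
  rw [← hh', HasQ]
  ext m
  symm
  refine ModularFormClass.qExpansion_coeff_unique (f := h')
    (c := fun m => PowerSeries.coeff m ((PowerSeries.C ((p : ℤ) ^ i) *
      PowerSeries.expand p (NeZero.ne p) a).map (Int.castRingHom ℂ)))
    one_pos (one_mem_strictPeriods_Gamma0 p) ?_ m
  intro z
  rw [hfun z]
  have h0 := ModularForm.hasSum_qExpansion (f := H) one_pos one_mem_strictPeriods_SL (frickePmul p z)
  rw [fricke_qParam_pmul] at h0
  have h1 := h0.mul_left ((p : ℂ) ^ i)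
  have hpos : 0 < p := Nat.pos_of_ne_zero (NeZero.ne p)
  have hinj : Function.Injective (fun m : ℕ => p * m) :=
    fun a b h => Nat.eq_of_mul_eq_mul_left hpos h
  rw [← hinj.hasSum_iff]
  · have hfe : ((fun m : ℕ => PowerSeries.coeff m ((PowerSeries.C ((p : ℤ) ^ i) *
        PowerSeries.expand p (NeZero.ne p) a).map (Int.castRingHom ℂ)) •
          Function.Periodic.qParam 1 (z : ℂ) ^ m) ∘ fun m : ℕ => p * m) =
        fun m : ℕ => (p : ℂ) ^ i * ((PowerSeries.coeff m) (qExpansion 1 ⇑H) *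
          (Function.Periodic.qParam 1 (z : ℂ) ^ p) ^ m) := by
      funext m
      simp only [Function.comp_apply, PowerSeries.coeff_map, PowerSeries.coeff_C_mul,
        PowerSeries.coeff_expand_mul, smul_eq_mul, pow_mul]
      rw [hH, PowerSeries.coeff_map]
      simp only [eq_intCast]
      push_cast
      ring
    rw [hfe]
    exact h1
  · intro n hn
    have : ¬ p ∣ n := fun ⟨m, hm⟩ => hn ⟨m, hm.symm⟩
    rw [PowerSeries.coeff_map, PowerSeries.coeff_C_mul,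
      PowerSeries.coeff_expand_of_not_dvd _ _ _ this]
    simp

end Fermat.Agent.S16
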