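import Fermat.Agent.S16.Defs
import Fermat.Agent.S49

/-!
# S16/HeckeCoeff : `a_k(f) = a_1(t_k f)`   (ALGEBRA / arithmetic functions)
-/

set_option autoImplicit false

open CongruenceSubgroup ModularCurve CuspForm ModularFormClass

namespace Fermat.Agent.S16

namespace HeckeCoeff

theorem sigP_one (p : ℕ) (hp : p.Prime) : sigP p 1 = 1 := by
  have : ¬ p ∣ 1 := hp.one_lt.ne' ∘ Nat.dvd_one.1
  simp [sigP, Finset.sum_filter, this]

theorem sigP_mul_self (p : ℕ) (hp : p.Prime) (n : ℕ) : sigP p (n * p) = sigP p n := by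
  rcases Nat.eq_zero_or_pos n with rfl | hn
  · simp
  · unfold sigP
    congr 1
    ext d
    simp only [Finset.mem_filter, Nat.mem_divisors]
    constructor
    · rintro ⟨⟨h1, -⟩, h2⟩
      exact ⟨⟨(Nat.Coprime.dvd_of_dvd_mul_right
        ((Nat.Prime.coprime_iff_not_dvd hp).2 h2).symm h1), hn.ne'⟩, h2⟩
    · rintro ⟨⟨h1, -⟩, h2⟩
      exact ⟨⟨Dvd.dvd.mul_right h1 p, Nat.mul_ne_zero hn.ne' hp.ne_zero⟩, h2⟩

/-- splitting the divisors of `n ℓ` -/
theorem sum_divisors_mul_prime (g : ℕ → ℕ) (ℓ : ℕ) (hℓ : ℓ.Prime) (n : ℕ) (hn : 0 < n) :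
    ∑ d ∈ (n * ℓ).divisors, g d
      = ∑ d ∈ n.divisors, g (ℓ * d) + ∑ d ∈ n.divisors with ¬ ℓ ∣ d, g d := by
  rw [← Finset.sum_filter_add_sum_filter_not (n * ℓ).divisors (fun d => ℓ ∣ d)]
  congr 1
  · symm
    apply Finset.sum_bij (fun d _ => ℓ * d)
    · intro d hd
      rw [Nat.mem_divisors] at hd
      simp only [Finset.mem_filter, Nat.mem_divisors]
      exact ⟨⟨by rw [mul_comm n ℓ]; exact Nat.mul_dvd_mul_left ℓ hd.1,
        Nat.mul_ne_zero hn.ne' hℓ.ne_zero⟩, Dvd.intro d rfl⟩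
    · intro d _ d' _ h
      exact Nat.eq_of_mul_eq_mul_left hℓ.pos h
    · intro d hd
      simp only [Finset.mem_filter, Nat.mem_divisors] at hd
      obtain ⟨⟨h1, -⟩, d', rfl⟩ := hd
      refine ⟨d', ?_, rfl⟩
      rw [Nat.mem_divisors]
      rw [mul_comm n ℓ] at h1
      exact ⟨Nat.dvd_of_mul_dvd_mul_left hℓ.pos h1, hn.ne'⟩
    · intro d _
      rfl
  · apply Finset.sum_congr _ (fun _ _ => rfl)
    ext d
    simp only [Finset.mem_filter, Nat.mem_divisors]
    constructor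
    · rintro ⟨⟨h1, -⟩, h2⟩
      exact ⟨⟨(Nat.Coprime.dvd_of_dvd_mul_right
        ((Nat.Prime.coprime_iff_not_dvd hℓ).2 h2).symm h1), hn.ne'⟩, h2⟩
    · rintro ⟨⟨h1, -⟩, h2⟩
      exact ⟨⟨Dvd.dvd.mul_right h1 ℓ, Nat.mul_ne_zero hn.ne' hℓ.ne_zero⟩, h2⟩

/-- auxiliary: `σ'` as a sum of `g d = if p ∣ d then 0 else d` -/
theorem sigP_eq (p n : ℕ) : sigP p n = ∑ d ∈ n.divisors, if p ∣ d then 0 else d := by
  rw [sigP, Finset.sum_filter]
  refine Finset.sum_congr rfl fun d _ => ?_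
  by_cases h : p ∣ d <;> simp [h]

theorem sigP_mul_prime_aux (p : ℕ) (hp : p.Prime) (ℓ : ℕ) (hℓ : ℓ.Prime) (hne : ℓ ≠ p) (n : ℕ)
    (hn : 0 < n) :
    sigP p (n * ℓ) = ℓ * sigP p n
      + ∑ d ∈ n.divisors with ¬ ℓ ∣ d, (if p ∣ d then 0 else d) := by
  rw [sigP_eq, sum_divisors_mul_prime _ ℓ hℓ n hn, sigP_eq, Finset.mul_sum]
  congr 1
  refine Finset.sum_congr rfl fun d _ => ?_
  have : p ∣ ℓ * d ↔ p ∣ d := by
    rw [hp.dvd_mul]
    constructor
    · rintro (h | h)
      · exact absurd ((Nat.prime_dvd_prime_iff_eq hp hℓ).1 h).symm hne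
      · exact h
    · exact Or.inr
  by_cases h : p ∣ d <;> simp [this, h]

theorem sigP_mul_prime (p : ℕ) (hp : p.Prime) (ℓ : ℕ) (hℓ : ℓ.Prime) (hne : ℓ ≠ p) (n : ℕ) :
    (1 + ℓ) * sigP p n = sigP p (n * ℓ) + if ℓ ∣ n then ℓ * sigP p (n / ℓ) else 0 := by
  rcases Nat.eq_zero_or_pos n with rfl | hn
  · simp [sigP]
  · rw [sigP_mul_prime_aux p hp ℓ hℓ hne n hn]
    split_ifs with hd
    · obtain ⟨n', rfl⟩ := hd
      have hn' : 0 < n' := Nat.pos_of_mul_pos_left hn |> fun h => by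
        rcases Nat.eq_zero_or_pos n' with h0 | h0
        · rw [h0] at hn; simp at hn
        · exact h0
      rw [Nat.mul_div_cancel_left _ hℓ.pos]
      have h1 := sigP_mul_prime_aux p hp ℓ hℓ hne n' hn'
      rw [mul_comm n' ℓ] at h1
      have h2 : ∑ d ∈ (ℓ * n').divisors with ¬ ℓ ∣ d, (if p ∣ d then 0 else d)
          = ∑ d ∈ n'.divisors with ¬ ℓ ∣ d, (if p ∣ d then 0 else d) := by
        apply Finset.sum_congr _ (fun _ _ => rfl)
        ext d
        simp only [Finset.mem_filter, Nat.mem_divisors]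
        constructor
        · rintro ⟨⟨h1, -⟩, h2⟩
          exact ⟨⟨(Nat.Coprime.dvd_of_dvd_mul_left
            ((Nat.Prime.coprime_iff_not_dvd hℓ).2 h2).symm h1), hn'.ne'⟩, h2⟩
        · rintro ⟨⟨h1, -⟩, h2⟩
          exact ⟨⟨Dvd.dvd.mul_left h1 ℓ, hn.ne'⟩, h2⟩
      rw [h2]
      rw [h1]
      ring
    · have h2 : ∑ d ∈ n.divisors with ¬ ℓ ∣ d, (if p ∣ d then 0 else d) = sigP p n := by
        rw [sigP_eq]
        apply Finset.sum_congr _ (fun _ _ => rfl)
        ext d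
        simp only [Finset.mem_filter, Nat.mem_divisors, and_iff_left_iff_imp]
        rintro ⟨h1, -⟩ h3
        exact hd (h3.trans h1)
      rw [h2]
      ring


/-- the coefficient functionals -/
noncomputable def cf (N : ℕ) (n : ℕ) : CuspForm (Gamma0 N) 2 →ₗ[ℂ] ℂ where
  toFun f := qCoeff f n
  map_add' f g := P2MW.S_CuspForm_intLattice_fg.W3WsD.qCoeff_add f g n
  map_smul' c f := by
    simp only [RingHom.id_apply, smul_eq_mul]
    exact Fermat.Agent.S49.qCoeff_csmul c f n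

theorem cf_apply (N n : ℕ) (f : CuspForm (Gamma0 N) 2) : cf N n f = qCoeff f n := rfl

/-- the action of a Hecke polynomial -/
noncomputable def E (p : ℕ) [NeZero p] : HeckeAlg →+* Module.End ℂ (CuspForm (Gamma0 p) 2) :=
  (heckeAlgebra p 2 ∅).val.toRingHom.comp (heckeEvalForms p 2)

theorem E_apply (p : ℕ) [NeZero p] (P : HeckeAlg) :
    E p P = (heckeEvalForms p 2 P : Module.End ℂ (CuspForm (Gamma0 p) 2)) := rfl

theorem cf_E_gen_of_ne (p : ℕ) [Fact p.Prime] (ℓ : Nat.Primes) (hne : (ℓ : ℕ) ≠ p)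
    (f : CuspForm (Gamma0 p) 2) (n : ℕ) :
    cf p n (E p (heckeGen ℓ) f) = cf p (n * ℓ) f
      + if (ℓ : ℕ) ∣ n then (ℓ : ℂ) * cf p (n / ℓ) f else 0 := by
  have hnd : ¬ (ℓ : ℕ) ∣ p := fun h => hne ((Nat.prime_dvd_prime_iff_eq ℓ.2 Fact.out).1 h)
  rw [E_apply, heckeEvalForms_heckeGen_of_not_dvd hnd, heckeAlgebra.coe_T]
  exact Fermat.Agent.S49.qCoeff_T ℓ.2 hnd f n

theorem cf_E_gen_self (p : ℕ) [Fact p.Prime] (ℓ : Nat.Primes) (he : (ℓ : ℕ) = p)
    (f : CuspForm (Gamma0 p) 2) (n : ℕ) :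
    cf p n (E p (heckeGen ℓ) f) = cf p (n * ℓ) f := by
  have hd : (ℓ : ℕ) ∣ p := by rw [he]
  rw [E_apply, heckeEvalForms_heckeGen_of_dvd hd, heckeAlgebra.coe_U]
  exact Fermat.Agent.S49.qCoeff_U ℓ.2 hd f n

theorem E_C (p : ℕ) [NeZero p] (c : ℤ) (f : CuspForm (Gamma0 p) 2) :
    E p (MvPolynomial.C c) f = (c : ℂ) • f := by
  have : (MvPolynomial.C c : HeckeAlg) = (c : HeckeAlg) := by simp
  rw [this, map_intCast]
  simp only [Module.End.intCast_apply]
  exact (Int.cast_smul_eq_zsmul ℂ c f).symm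

end HeckeCoeff

open HeckeCoeff in
theorem exists_coeffPoly (p : ℕ) [Fact p.Prime] (k : ℕ) (hk : 0 < k) :
    ∃ P : HeckeAlg,
      (∀ f : CuspForm (Gamma0 p) 2,
        qCoeff f k = qCoeff ((heckeEvalForms p 2 P : Module.End ℂ (CuspForm (Gamma0 p) 2)) f) 1) ∧
      MvPolynomial.aeval (eisensteinSystem p) P = (sigP p k : ℤ) := by
  have hpp : p.Prime := Fact.out
  suffices h : ∃ P : HeckeAlg, (∀ f : CuspForm (Gamma0 p) 2, cf p 1 (E p P f) = cf p k f) ∧
      MvPolynomial.aeval (eisensteinSystem p) P = (sigP p k : ℤ) by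
    obtain ⟨P, h1, h2⟩ := h
    exact ⟨P, fun f => (h1 f).symm, h2⟩
  induction k using Nat.strong_induction_on with
  | _ k ih =>
    rcases Nat.lt_or_ge 1 k with hk1 | hk1
    · have hpr : k.minFac.Prime := Nat.minFac_prime (by omega)
      set ℓ : Nat.Primes := ⟨k.minFac, hpr⟩ with hℓ
      obtain ⟨k', hk'⟩ : (ℓ : ℕ) ∣ k := Nat.minFac_dvd k
      have hℓ2 : 2 ≤ (ℓ : ℕ) := hpr.two_le
      have hk'pos : 0 < k' := by
        rcases Nat.eq_zero_or_pos k' with h | h
        · rw [h] at hk'; omega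
        · exact h
      have hk'lt : k' < k := by
        rw [hk']; nlinarith
      have hkk : k = k' * ℓ := by rw [hk', mul_comm]
      obtain ⟨P', hP', eP'⟩ := ih k' hk'lt hk'pos
      by_cases hp : (ℓ : ℕ) = p
      · refine ⟨P' * heckeGen ℓ, fun f => ?_, ?_⟩
        · rw [map_mul, Module.End.mul_apply, hP', cf_E_gen_self p ℓ hp, ← hkk]
        · rw [map_mul, eP', aeval_heckeGen, eisensteinSystem_of_dvd (by rw [hp]), mul_one, hkk,
            hp, sigP_mul_self p hpp]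
      · have hnd : ¬ (ℓ : ℕ) ∣ p := fun h => hp ((Nat.prime_dvd_prime_iff_eq hpr hpp).1 h)
        have hs := sigP_mul_prime p hpp ℓ hpr hp k'
        by_cases hd : (ℓ : ℕ) ∣ k'
        · obtain ⟨k'', hk''⟩ := hd
          have hk''pos : 0 < k'' := by
            rcases Nat.eq_zero_or_pos k'' with h | h
            · rw [h] at hk''; omega
            · exact h
          have hk''lt : k'' < k := by
            have : k'' < k' := by rw [hk'']; nlinarith
            omega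
          have hdiv : k' / ℓ = k'' := by
            rw [hk'']; exact Nat.mul_div_cancel_left _ (by omega)
          obtain ⟨P'', hP'', eP''⟩ := ih k'' hk''lt hk''pos
          have hd' : (ℓ : ℕ) ∣ k' := ⟨k'', hk''⟩
          refine ⟨P' * heckeGen ℓ - MvPolynomial.C (ℓ : ℤ) * P'', fun f => ?_, ?_⟩
          · have h1 := cf_E_gen_of_ne p ℓ hp f k'
            rw [if_pos hd', hdiv, ← hkk] at h1
            rw [map_sub, LinearMap.sub_apply, map_sub, map_mul, Module.End.mul_apply, hP', h1,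
              map_mul, Module.End.mul_apply, E_C, map_smul, hP'', smul_eq_mul]
            push_cast
            ring
          · rw [if_pos hd', hdiv, ← hkk] at hs
            rw [map_sub, map_mul, map_mul, eP', eP'', aeval_heckeGen,
              eisensteinSystem_of_not_dvd hnd, MvPolynomial.aeval_C]
            simp only [algebraMap_int_eq, eq_intCast, Int.cast_id]
            have hs' : ((1 : ℤ) + (ℓ : ℕ)) * sigP p k' = sigP p k + (ℓ : ℕ) * sigP p k'' := by
              exact_mod_cast hs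
            linarith
        · refine ⟨P' * heckeGen ℓ, fun f => ?_, ?_⟩
          · have h1 := cf_E_gen_of_ne p ℓ hp f k'
            rw [if_neg hd, add_zero, ← hkk] at h1
            rw [map_mul, Module.End.mul_apply, hP', h1]
          · rw [if_neg hd, add_zero, ← hkk] at hs
            rw [map_mul, eP', aeval_heckeGen, eisensteinSystem_of_not_dvd hnd]
            have hs' : ((1 : ℤ) + (ℓ : ℕ)) * sigP p k' = sigP p k := by
              exact_mod_cast hs
            linarith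
    · have : k = 1 := by omega
      subst this
      exact ⟨1, fun f => by simp, by simp [sigP_one p hpp]⟩

end Fermat.Agent.S16
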