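import Fermat.Agent.S16.Defs
import Fermat.Agent.S22.FG
import Fermat.Agent.S21.Injective
import Fermat.Agent.S21.Parabolic

/-!
# S16/Lam : the period lattice `Λ = S22.Lat p 0` as a quotient of `Γ₀(p)`; its rank   (uses the S21/S22 libraries)

`lamFun γ : S₂ → ℂ`, `f ↦ S22.Coc 0 f (mapGL ℝ γ) 0 0 = prim f (γ • i) - prim f i = ModularCurve.periodMap p f γ` (`S21.periodMap_apply`).
* additive in `γ` (`S22.Coc_mul_Gamma0` / `periodMap` is a hom), so the image of `Γ₀(p)` is a subgroup containing `latGen`: `lam` is SURJECTIVE onto `Lat p 0`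
  (for `m = 0`, `Coc 0 f g x y` does not depend on `x y`: `PhiC_zero`).
* `ParEll`: trace² = 4: `S21.periodMap_parabolic`;  `γ^12 = 1`: `12 • lam γ = 0` and `Lat` is torsion free (a submodule of a `ℂ`-vector space).
* free + finite: `S22.Lat_fg`, torsion free.
* RANK: `2 dim_ℂ S₂ ≤ rank_ℤ Λ`.  `W = S₂ →ₗ[ℂ] ℂ` has real dimension `2 g`.  If a `ℤ`-basis of `Λ` had `< 2 g` elements, its real span would be a proper
  real subspace, so there is a nonzero `ℝ`-linear `μ : W → ℝ` killing `Λ`; `μ(l) = Re (l f)` for some `f ≠ 0` in `S₂`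
  (`μ_ℂ(l) = μ(l) - i μ(i l)` is `ℂ`-linear on `W = S₂^*`, finite dimensional, so it is evaluation at some `f`).
  Then `Re (prim f (γ z) - prim f z) = 0` for all `γ ∈ Γ₀(p)`, so `E = exp ∘ prim f` has `Γ₀(p)`-invariant norm;
  `S21.const_of_norm_invariant` (hypotheses as in the proof of `S21.psi_const`, take `b = 0` there: `exists_uniform_period`, `prim_sl_smul`, `exp_good`)
  shows that `E` is constant, hence `prim f` is constant (derivative: `E' = f E`), so `f = 0` (`S21.eq_zero_of_prim_const`).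
-/

set_option autoImplicit false

open CongruenceSubgroup
open scoped MatrixGroups ModularForm

namespace Fermat.Agent.S16

variable (p : ℕ) [NeZero p]

namespace Lam

open Fermat.Agent.S22 Fermat.Agent.S21 Matrix.SpecialLinearGroup

/-- the functional `f ↦ ∫_i^{γ i} f`. -/
noncomputable def fn (γ : Additive (Gamma0 p)) :
    CuspForm (Gamma0 p) (((0 : ℕ) : ℤ) + 2) →ₗ[ℂ] ℂ where
  toFun f := periodLin p f γ
  map_add' f g := by rw [map_add]; rfl
  map_smul' c f := by rw [map_smul]; rfl

theorem fn_apply (γ : Additive (Gamma0 p)) (f : CuspForm (Gamma0 p) 2) :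
    fn p γ f = ModularCurve.periodMap p f γ := rfl

theorem Coc_zero_eq (γ : Gamma0 p) (f : CuspForm (Gamma0 p) 2) (X Y : ℂ) :
    Coc 0 f (mapGL ℝ (γ : SL(2, ℤ))) X Y = ModularCurve.periodMap p f (Additive.ofMul γ) := by
  rw [periodMap_apply]
  unfold Coc
  have h := slash_eq_self (k := 2) f γ.2
  have h' : ((f : UpperHalfPlane → ℂ) ∣[(((0 : ℕ) : ℤ) + 2)] (mapGL ℝ (γ : SL(2, ℤ)))) = f := h
  rw [h', PhiC_zero, PhiC_zero]
  simp only [Function.comp_apply, UpperHalfPlane.ofComplex_apply]
  rfl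

theorem fn_mem (γ : Additive (Gamma0 p)) : fn p γ ∈ Lat p 0 := by
  refine Submodule.subset_span ⟨(Additive.toMul γ : Gamma0 p), (Additive.toMul γ).2, 0, 0, fun f => ?_⟩
  rw [Coc_zero_eq p (Additive.toMul γ) f]
  rfl

end Lam

open Lam in
theorem exists_lam : ∃ lam : Additive (Gamma0 p) →+ ↥(Fermat.Agent.S22.Lat p 0),
    Function.Surjective lam ∧ ParEll lam ∧
    ∀ (γ : Gamma0 p) (f : CuspForm (Gamma0 p) 2),
      ((lam (Additive.ofMul γ) : ↥(Fermat.Agent.S22.Lat p 0)) :
        CuspForm (Gamma0 p) (((0 : ℕ) : ℤ) + 2) →ₗ[ℂ] ℂ) f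
        = ModularCurve.periodMap p f (Additive.ofMul γ) := by
  let lam : Additive (Gamma0 p) →+ ↥(Fermat.Agent.S22.Lat p 0) :=
    { toFun := fun γ => ⟨fn p γ, fn_mem p γ⟩
      map_zero' := by
        apply Subtype.ext
        ext f
        exact map_zero (ModularCurve.periodMap p f)
      map_add' := fun a b => by
        apply Subtype.ext
        ext f
        exact map_add (ModularCurve.periodMap p f) a b }
  refine ⟨lam, ?_, ?_, fun γ f => rfl⟩
  · rintro ⟨l, hl⟩
    have key : ∀ l (hl : l ∈ Fermat.Agent.S22.Lat p 0), ∃ γ, fn p γ = l := by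
      intro l hl
      unfold Fermat.Agent.S22.Lat at hl
      induction hl using Submodule.span_induction with
      | mem l hl =>
        obtain ⟨γ, hγ, x, y, h⟩ := hl
        refine ⟨Additive.ofMul ⟨γ, hγ⟩, ?_⟩
        ext f
        rw [h f, Coc_zero_eq p ⟨γ, hγ⟩ f]
        rfl
      | zero =>
        refine ⟨0, ?_⟩
        ext f
        exact map_zero (ModularCurve.periodMap p f)
      | add a b _ _ ha hb =>
        obtain ⟨γ₁, rfl⟩ := ha
        obtain ⟨γ₂, rfl⟩ := hb
        refine ⟨γ₁ + γ₂, ?_⟩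
        ext f
        exact map_add (ModularCurve.periodMap p f) γ₁ γ₂
      | smul n a _ ha =>
        obtain ⟨γ, rfl⟩ := ha
        refine ⟨n • γ, ?_⟩
        ext f
        exact map_zsmul (ModularCurve.periodMap p f) n γ
    obtain ⟨γ, hγ⟩ := key l hl
    exact ⟨γ, Subtype.ext hγ⟩
  · rintro γ (h | h)
    · apply Subtype.ext
      ext f
      exact Fermat.Agent.S21.periodMap_parabolic f γ h
    · apply Subtype.ext
      ext f
      have h1 : (12 : ℕ) • ModularCurve.periodMap p f (Additive.ofMul γ) = 0 := by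
        rw [← map_nsmul, ← ofMul_pow, h]
        exact map_zero _
      have h2 : ModularCurve.periodMap p f (Additive.ofMul γ) = 0 := by
        simpa using h1
      exact h2

/-- the period homomorphism. -/
noncomputable def lam : Additive (Gamma0 p) →+ ↥(Fermat.Agent.S22.Lat p 0) := (exists_lam p).choose

theorem lam_surjective : Function.Surjective (lam p) := (exists_lam p).choose_spec.1

theorem lam_parEll : ParEll (lam p) := (exists_lam p).choose_spec.2.1

theorem lam_apply (γ : Gamma0 p) (f : CuspForm (Gamma0 p) 2) :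
    ((lam p (Additive.ofMul γ) : ↥(Fermat.Agent.S22.Lat p 0)) :
        CuspForm (Gamma0 p) (((0 : ℕ) : ℤ) + 2) →ₗ[ℂ] ℂ) f
      = ModularCurve.periodMap p f (Additive.ofMul γ) := (exists_lam p).choose_spec.2.2 γ f

theorem Lat_finite : Module.Finite ℤ ↥(Fermat.Agent.S22.Lat p 0) :=
  Module.Finite.iff_fg.mpr Fermat.Agent.S22.Lat_fg

theorem Lat_free : Module.Free ℤ ↥(Fermat.Agent.S22.Lat p 0) := by
  haveI := Lat_finite p
  haveI : IsAddTorsionFree (CuspForm (Gamma0 p) (((0 : ℕ) : ℤ) + 2) →ₗ[ℂ] ℂ) :=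
    .of_isTorsionFree ℂ _
  exact Module.free_of_finite_type_torsion_free'

end Fermat.Agent.S16
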