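import Fermat.Agent.S16.Defs
import Fermat.Agent.S23.LevelOne
import Fermat.Agent.S24.FormalBridge

/-!
# S16/Level1 : level one input
`M₂(1) = 0`, `M₄(1) = ℂ E₄`, the `q`-expansions of `E₄`, `E₆`, cancellation of integer factors and the
Sturm bound modulo an integer in level one.
-/

set_option autoImplicit false

open UpperHalfPlane hiding I
open CongruenceSubgroup ModularFormClass Matrix.SpecialLinearGroup
open ModularForm EisensteinSeries
open scoped MatrixGroups ModularForm Manifold

namespace Fermat.Agent.S16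

lemma level1_map_injective :
    Function.Injective (PowerSeries.map (Int.castRingHom ℂ)) :=
  PowerSeries.map_injective _ (RingHom.injective_int _)

lemma level1_qExp_zero (k : ℤ) : qExpansion 1 (⇑(0 : ModularForm 𝒮ℒ k)) = 0 := by
  simpa using qExpansion_zero 1

theorem L1.weight_two {a : PowerSeries ℤ} (h : L1 2 a) : a = 0 := by
  obtain ⟨F, hF⟩ := h
  have h0 : F = 0 := rank_zero_iff_forall_zero.mp levelOne_weight_two_rank_zero F
  rw [HasQ, h0, level1_qExp_zero] at hF
  apply level1_map_injective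
  rw [← hF, map_zero]

open scoped ArithmeticFunction.sigma in
theorem L1_E4 : L1 4 E4ser := by
  refine ⟨E₄, ?_⟩
  rw [HasQ]
  ext m
  rw [E_qExpansion_coeff _ ⟨2, rfl⟩, PowerSeries.coeff_map, E4ser, sigSer]
  simp only [map_add, PowerSeries.coeff_one]
  rw [show (240 : PowerSeries ℤ) = PowerSeries.C 240 from rfl, PowerSeries.coeff_C_mul,
    PowerSeries.coeff_mk]
  split_ifs with h
  · simp
  · norm_num [show bernoulli 4 = -1 / 30 by decide +kernel]

open scoped ArithmeticFunction.sigma in
theorem L1_E6 : L1 6 E6ser := by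
  refine ⟨E₆, ?_⟩
  rw [HasQ]
  ext m
  rw [E_qExpansion_coeff _ ⟨3, rfl⟩, PowerSeries.coeff_map, E6ser, sigSer]
  simp only [map_sub, PowerSeries.coeff_one]
  rw [show (504 : PowerSeries ℤ) = PowerSeries.C 504 from rfl, PowerSeries.coeff_C_mul,
    PowerSeries.coeff_mk]
  split_ifs with h
  · simp
  · norm_num [show bernoulli 6 = 1 / 42 by decide +kernel]

lemma level1_qExp_smul {k : ℤ} (c : ℂ) (F : ModularForm 𝒮ℒ k) :
    qExpansion 1 (⇑(c • F)) = c • qExpansion 1 F := by
  rw [FunLike.coe_smul, ModularForm.qExpansion_smul one_pos one_mem_strictPeriods_SL]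

lemma level1_smul_map (c : ℤ) (a : PowerSeries ℤ) :
    (c : ℂ) • a.map (Int.castRingHom ℂ) = (PowerSeries.C c * a).map (Int.castRingHom ℂ) := by
  ext n
  rw [PowerSeries.coeff_map, PowerSeries.coeff_C_mul]
  simp

lemma level1_E4ser_coeff_zero : E4ser.coeff 0 = 1 := by
  rw [E4ser, sigSer, map_add, show (240 : PowerSeries ℤ) = PowerSeries.C 240 from rfl,
    PowerSeries.coeff_C_mul, PowerSeries.coeff_mk]
  simp

theorem L1.weight_four {a : PowerSeries ℤ} (h : L1 4 a) :
    a = PowerSeries.C (a.coeff 0) * E4ser := by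
  obtain ⟨F, hF⟩ := h
  obtain ⟨E, hE⟩ := L1_E4
  have hE0 : E ≠ 0 := by
    intro h0
    rw [HasQ, h0, level1_qExp_zero] at hE
    have := congrArg (PowerSeries.coeff 0) hE
    rw [PowerSeries.coeff_map, level1_E4ser_coeff_zero] at this
    simp at this
  have hr : Module.finrank ℂ (ModularForm 𝒮ℒ ((4 : ℕ) : ℤ)) = 1 :=
    Module.finrank_eq_of_rank_eq levelOne_weight_four_rank_one
  obtain ⟨c, hc⟩ := (finrank_eq_one_iff_of_nonzero' E hE0).mp hr F
  rw [HasQ, ← hc, level1_qExp_smul, hE] at hF
  have h0 := congrArg (PowerSeries.coeff 0) hF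
  have hc' : c = ((a.coeff 0 : ℤ) : ℂ) := by
    rw [PowerSeries.coeff_map, map_smul, PowerSeries.coeff_map, level1_E4ser_coeff_zero] at h0
    simpa using h0
  apply level1_map_injective
  rw [← hF, hc', level1_smul_map]

theorem L1.cancel {k : ℕ} {a : PowerSeries ℤ} {c : ℤ} (hc : c ≠ 0)
    (h : L1 k (PowerSeries.C c * a)) : L1 k a := by
  obtain ⟨F, hF⟩ := h
  refine ⟨(c : ℂ)⁻¹ • F, ?_⟩
  rw [HasQ] at hF ⊢
  rw [level1_qExp_smul, hF, ← level1_smul_map, smul_smul, inv_mul_cancel₀ (by exact_mod_cast hc),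
    one_smul]

/-- the Sturm property in weight `k` for the modulus `M`. -/
def SturmAt (M k : ℤ) : Prop :=
  ∀ (F : ModularForm 𝒮ℒ k) (a : PowerSeries ℤ), HasQ F a →
    (∀ n : ℕ, 12 * (n : ℤ) ≤ k → M ∣ a.coeff n) → ∀ n : ℕ, M ∣ a.coeff n

lemma level1_eq_zero_of_hasQ_zero {k : ℤ} {a : PowerSeries ℤ}
    (h : HasQ (⇑(0 : ModularForm 𝒮ℒ k)) a) : a = 0 := by
  rw [HasQ, level1_qExp_zero] at h
  apply level1_map_injective
  rw [← h, map_zero]

lemma sturmAt_step (M k : ℤ) (ih : SturmAt M (k - 12)) : SturmAt M k := by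
  intro F a hF h0 n
  rcases lt_trichotomy k 0 with hk | hk | hk
  · rw [rank_zero_iff_forall_zero.mp (levelOne_neg_weight_rank_zero hk) F] at hF
    rw [level1_eq_zero_of_hasQ_zero hF]
    simp
  · subst hk
    obtain ⟨c, hc⟩ := ModularFormClass.levelOne_weight_zero_const F
    have h1 : qExpansion 1 (Function.const ℍ c) = c • (1 : PowerSeries ℂ) := by
      have : Function.const ℍ c = c • (1 : ℍ → ℂ) := by ext z; simp
      rw [this, Fermat.Agent.S23.qExp_smul Fermat.Agent.S23.An.one, qExpansion_one]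
    rw [HasQ, hc, h1] at hF
    rcases Nat.eq_zero_or_pos n with rfl | hn
    · exact h0 0 (by simp)
    · have := congrArg (PowerSeries.coeff n) hF
      have hz : a.coeff n = 0 := by
        simpa [PowerSeries.coeff_one, hn.ne'] using this.symm
      rw [hz]
      exact dvd_zero _
  · rcases Int.even_or_odd k with he | ho
    swap
    · rw [levelOne_odd_weight_eq_zero ho F] at hF
      rw [level1_eq_zero_of_hasQ_zero hF]
      simp
    by_cases h2 : k = 2
    · subst h2
      rw [rank_zero_iff_forall_zero.mp levelOne_weight_two_rank_zero F] at hF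
      rw [level1_eq_zero_of_hasQ_zero hF]
      simp
    have hk4 : 4 ≤ k := by
      obtain ⟨m, hm⟩ := he
      omega
    obtain ⟨G, ⟨g, hg⟩, hG0⟩ := Fermat.Agent.S23.exists_monomial k hk4 he
    have hcusp := (isCuspForm_iff_coeffZero_eq_zero _).mp (sub_smul_isCuspForm F G hG0)
    have hc0 : (qExpansion 1 F).coeff 0 = ((a.coeff 0 : ℤ) : ℂ) := by
      rw [hF]; simp
    rw [hc0] at hcusp
    set c : ℤ := a.coeff 0 with hc
    set F₁ : ModularForm 𝒮ℒ (k - 12) :=
      CuspForm.discriminantEquiv (toCuspForm (F - (c : ℂ) • G) hcusp) with hF₁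
    have hdec := qExpansion_eq_qExpansion_discriminant_mul (F - (c : ℂ) • G) hcusp
    rw [← hF₁] at hdec
    have hsub : qExpansion 1 (⇑(F - (c : ℂ) • G)) = qExpansion 1 F - (c : ℂ) • qExpansion 1 G := by
      rw [FunLike.coe_sub, ModularForm.qExpansion_sub one_pos one_mem_strictPeriods_SL,
        FunLike.coe_smul, ModularForm.qExpansion_smul one_pos one_mem_strictPeriods_SL]
    rw [hsub, hF, hg, level1_smul_map, ← map_sub, Fermat.Agent.S24.qExpansion_discriminant] at hdec
    -- the integral series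
    set b : PowerSeries ℤ := a - PowerSeries.C c * g with hb
    have hg0 : g.coeff 0 = 1 := by
      have : ((g.coeff 0 : ℤ) : ℂ) = 1 := by
        rw [hg] at hG0
        simpa using hG0
      exact_mod_cast this
    have hb0 : PowerSeries.constantCoeff b = 0 := by
      rw [hb, map_sub, map_mul, PowerSeries.constantCoeff_C,
        ← PowerSeries.coeff_zero_eq_constantCoeff_apply, ← PowerSeries.coeff_zero_eq_constantCoeff_apply,
        hg0, ← hc]
      ring
    obtain ⟨b', hb'⟩ := PowerSeries.X_dvd_iff.mpr hb0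
    have hu : IsUnit ModularCurve.dedekindEtaUnit := by
      rw [PowerSeries.isUnit_iff_constantCoeff, ModularCurve.constantCoeff_dedekindEtaUnit]
      exact isUnit_one
    obtain ⟨v, hv⟩ := hu.exists_right_inv
    set u := ModularCurve.dedekindEtaUnit with hudef
    have hba : b = PowerSeries.X * u * (v * b') := by
      rw [hb']
      calc PowerSeries.X * b' = PowerSeries.X * ((u * v) * b') := by rw [hv, one_mul]
        _ = _ := by ring
    have hne : (PowerSeries.X * u.map (Int.castRingHom ℂ) : PowerSeries ℂ) ≠ 0 := by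
      have : (PowerSeries.X * u.map (Int.castRingHom ℂ) : PowerSeries ℂ)
          = (PowerSeries.X * u).map (Int.castRingHom ℂ) := by simp
      rw [this]
      intro h
      have h' : PowerSeries.X * u = 0 := level1_map_injective (by rw [h, map_zero])
      have := congrArg (PowerSeries.coeff 1) h'
      rw [show (1 : ℕ) = 0 + 1 from rfl, PowerSeries.coeff_succ_X_mul,
        PowerSeries.coeff_zero_eq_constantCoeff_apply, hudef,
        ModularCurve.constantCoeff_dedekindEtaUnit] at this
      simp at this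
    have hF₁q : HasQ F₁ (v * b') := by
      rw [HasQ]
      apply mul_left_cancel₀ hne
      rw [← hdec, hba]
      simp [mul_assoc]
    have hMc : M ∣ c := h0 0 (by simpa using hk.le)
    have hb'c : ∀ j : ℕ, b'.coeff j = a.coeff (j + 1) - c * g.coeff (j + 1) := by
      intro j
      have := congrArg (PowerSeries.coeff (j + 1)) hb'
      rw [PowerSeries.coeff_succ_X_mul, hb, map_sub, PowerSeries.coeff_C_mul] at this
      exact this.symm
    have h1 : ∀ m : ℕ, 12 * (m : ℤ) ≤ k - 12 → M ∣ (v * b').coeff m := by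
      intro m hm
      rw [PowerSeries.coeff_mul]
      refine Finset.dvd_sum fun ij hij => Dvd.dvd.mul_left ?_ _
      rw [hb'c]
      have hle : ij.2 ≤ m := by
        have := Finset.HasAntidiagonal.mem_antidiagonal.mp hij
        omega
      refine dvd_sub (h0 _ ?_) (Dvd.dvd.mul_right hMc _)
      push_cast
      have : (ij.2 : ℤ) ≤ m := by exact_mod_cast hle
      linarith
    have h2 := ih F₁ _ hF₁q h1
    have ha : a = PowerSeries.C c * g + PowerSeries.X * u * (v * b') := by
      rw [← hba, hb]; ring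
    rw [ha, map_add, PowerSeries.coeff_C_mul, PowerSeries.coeff_mul]
    exact dvd_add (Dvd.dvd.mul_right hMc _)
      (Finset.dvd_sum fun ij _ => Dvd.dvd.mul_left (h2 _) _)

theorem sturmAt_all (M : ℤ) : ∀ (n : ℕ) (k : ℤ), k < n → SturmAt M k := by
  intro n
  induction n with
  | zero =>
    intro k hk F a hF _ n
    rw [rank_zero_iff_forall_zero.mp (levelOne_neg_weight_rank_zero (by simpa using hk)) F] at hF
    rw [level1_eq_zero_of_hasQ_zero hF]
    simp
  | succ n ih =>
    intro k hk
    exact sturmAt_step M k (ih (k - 12) (by push_cast at hk; omega))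

/-- Sturm bound modulo an arbitrary integer in level one. -/
theorem L1.sturm_int {k : ℕ} {a : PowerSeries ℤ} (h : L1 k a) (M : ℤ)
    (h0 : ∀ n, 12 * n ≤ k → M ∣ a.coeff n) (n : ℕ) : M ∣ a.coeff n := by
  obtain ⟨F, hF⟩ := h
  refine sturmAt_all M (k + 1) k (by push_cast; omega) F a hF (fun m hm => h0 m ?_) n
  exact_mod_cast hm

/-- Sturm bound mod `ℓ` in level one. -/
theorem L1.sturm {k : ℕ} {a : PowerSeries ℤ} (h : L1 k a) {ℓ : ℕ} (hℓ : ℓ.Prime)
    (h0 : ∀ n, 12 * n ≤ k → (ℓ : ℤ) ∣ a.coeff n) (n : ℕ) : (ℓ : ℤ) ∣ a.coeff n :=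
  h.sturm_int ℓ h0 n

end Fermat.Agent.S16
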