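import Fermat.Agent.S16.Trace
import Fermat.Agent.S16.Level1
import Fermat.Agent.S16.Eis

/-!
# S16/PFBasic : formal consequences of the pair form calculus (small, FORMAL)
All proofs are formal from the statements of `Fricke`, `Trace`, `Level1`, `Eis` (stubs are enough).
* `PF.snd_eq`: `PF.trace` with `i = 1` and `L1.weight_two` give `a + Up p b = 0`; apply this to `h.swap`.
* `Up_EEser`: `σ'(n p) = σ'(n)` (divisors of `n p` prime to `p` = divisors of `n` prime to `p`).
-/

set_option autoImplicit false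

namespace Fermat.Agent.S16

open PowerSeries

theorem coeff_Up (p : ℕ) (a : PowerSeries ℤ) (n : ℕ) : (Up p a).coeff n = a.coeff (n * p) := by
  simp [Up]

theorem Up_add (p : ℕ) (a b : PowerSeries ℤ) : Up p (a + b) = Up p a + Up p b := by
  ext n; simp [coeff_Up]

theorem Up_neg (p : ℕ) (a : PowerSeries ℤ) : Up p (-a) = -Up p a := by
  ext n; simp [coeff_Up]

theorem Up_sub (p : ℕ) (a b : PowerSeries ℤ) : Up p (a - b) = Up p a - Up p b := by
  ext n; simp [coeff_Up]

theorem Up_C_mul (p : ℕ) (c : ℤ) (a : PowerSeries ℤ) : Up p (C c * a) = C c * Up p a := by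
  ext n; rw [coeff_Up, coeff_C_mul, coeff_C_mul, coeff_Up]

theorem Up_expand {p : ℕ} (hp : p ≠ 0) (a : PowerSeries ℤ) : Up p (expand p hp a) = a := by
  ext n; rw [coeff_Up, mul_comm, coeff_expand_mul]

variable {p : ℕ} [Fact p.Prime]

theorem PF.neg {i : ℕ} {a b : PowerSeries ℤ} (h : PF p i a b) : PF p i (-a) (-b) := by
  have := h.smul (-1)
  simpa using this

theorem PF.sub {i : ℕ} {a b a' b' : PowerSeries ℤ} (h : PF p i a b) (h' : PF p i a' b') :
    PF p i (a - a') (b - b') := by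
  rw [sub_eq_add_neg, sub_eq_add_neg]
  exact h.add h'.neg

theorem PF.pow {i : ℕ} {a b : PowerSeries ℤ} (h : PF p i a b) (N : ℕ) :
    PF p (N * i) (a ^ N) (b ^ N) := by
  induction N with
  | zero => simpa using (PF.one : PF p 0 1 1)
  | succ N ih =>
    rw [Nat.succ_mul, pow_succ, pow_succ]
    exact ih.mul h

theorem PF.add_Up_eq_zero {a b : PowerSeries ℤ} (h : PF p 1 a b) : a + Up p b = 0 := by
  have h1 := (h.trace le_rfl).weight_two
  simpa using h1

theorem PF.snd_eq {a b : PowerSeries ℤ} (h : PF p 1 a b) : b = -(Up p a) := by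
  have := h.swap.add_Up_eq_zero
  exact eq_neg_of_add_eq_zero_left this

theorem PF.Up_Up {a b : PowerSeries ℤ} (h : PF p 1 a b) : Up p (Up p a) = a := by
  have h1 := h.add_Up_eq_zero
  rw [h.snd_eq, Up_neg] at h1
  exact (sub_eq_zero.mp (by rwa [← sub_eq_add_neg] at h1)).symm

theorem sigP_mul_self (p n : ℕ) [Fact p.Prime] : sigP p (n * p) = sigP p n := by
  have hp : p.Prime := Fact.out
  rcases Nat.eq_zero_or_pos n with rfl | hn
  · simp
  unfold sigP
  congr 1
  ext d
  simp only [Finset.mem_filter, Nat.mem_divisors]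
  constructor
  · rintro ⟨⟨h1, -⟩, h2⟩
    refine ⟨⟨?_, hn.ne'⟩, h2⟩
    exact (Nat.Coprime.dvd_mul_right ((Nat.Prime.coprime_iff_not_dvd hp).mpr h2).symm).mp h1
  · rintro ⟨⟨h1, -⟩, h2⟩
    exact ⟨⟨h1.mul_right p, Nat.mul_ne_zero hn.ne' hp.ne_zero⟩, h2⟩

theorem Up_eSer : Up p (eSer p) = eSer p := by
  ext n
  rw [coeff_Up, eSer, coeff_mk, coeff_mk, sigP_mul_self]

theorem Up_EEser : Up p (EEser p) = EEser p := by
  have h24 : (24 : PowerSeries ℤ) = C 24 := by simp
  have hp : p ≠ 0 := (Fact.out : p.Prime).ne_zero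
  have hC : Up p (C ((p : ℤ) - 1)) = C ((p : ℤ) - 1) := by
    ext n
    rw [coeff_Up, coeff_C, coeff_C]
    simp [hp]
  rw [EEser, h24, Up_add, Up_C_mul, Up_eSer, hC]

theorem PF_EE : PF p 1 (EEser p) (-(EEser p)) := by
  obtain ⟨h, hh⟩ := exists_EE p
  have := PF.of_weight_two h hh
  rwa [Up_EEser] at this

end Fermat.Agent.S16
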