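import Fermat.Agent.S16.PFBasic

/-!
# S16/T1 : the trace of `𝔾 𝔼` and of `𝔾²`  (FORMAL)   (helper4)
-/

set_option autoImplicit false

namespace Fermat.Agent.S16

open PowerSeries

namespace T1aux

lemma Up_C (p : ℕ) [Fact p.Prime] (c : ℤ) : Up p (C c) = C c := by
  have hp : p ≠ 0 := (Fact.out : p.Prime).ne_zero
  ext n
  rw [coeff_Up, coeff_C, coeff_C]
  simp [hp]

lemma Up_G (p : ℕ) [Fact p.Prime] (c : ℤ) (d : PowerSeries ℤ) :
    Up p (C c + 24 * d) = C c + 24 * Up p d := by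
  have h24 : (24 : PowerSeries ℤ) = C 24 := by simp
  rw [Up_add, Up_C, h24, Up_C_mul]

lemma UU {p : ℕ} [Fact p.Prime] {c : ℤ} {x b : PowerSeries ℤ} (hx : PF p 1 (C c + 24 * x) b) :
    Up p (Up p x) = x := by
  have h := hx.Up_Up
  rw [Up_G, Up_G] at h
  have h24 : (24 : PowerSeries ℤ) = C 24 := by simp
  ext n
  have := congrArg (coeff n) h
  rw [map_add, map_add, h24, coeff_C_mul, coeff_C_mul] at this
  linarith

theorem gen {p : ℕ} [Fact p.Prime] {x y bx b' : PowerSeries ℤ} (hx0 : x.coeff 0 = 0)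
    (hy0 : y.coeff 0 = 0)
    (hx : PF p 1 (C ((p : ℤ) - 1) + 24 * x) bx) (hy : PF p 1 (C ((p : ℤ) - 1) + 24 * y) b')
    {n : ℕ} (hn : n ≠ 0) :
    24 * ((p : ℤ) - 1) * (p + 1) * (x.coeff n + y.coeff n) +
      576 * (p * (x * y).coeff n + (Up p x * Up p y).coeff (n * p)) =
      240 * ((p : ℤ) - 1) ^ 2 * (p + 1) * (sigSer 3).coeff n := by
  set P : ℤ := (p : ℤ) - 1 with hP
  have hbx : bx = -(C P + 24 * Up p x) := by rw [hx.snd_eq, Up_G]
  have hby : b' = -(C P + 24 * Up p y) := by rw [hy.snd_eq, Up_G]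
  have hL : L1 4 (C ((p : ℤ) ^ (1 + 1 - 1)) * ((C P + 24 * x) * (C P + 24 * y)) + Up p (bx * b')) :=
    (hx.mul hy).trace (by norm_num)
  have e1 : C ((p : ℤ) ^ (1 + 1 - 1)) * ((C P + 24 * x) * (C P + 24 * y)) + Up p (bx * b') =
      C (((p : ℤ) + 1) * P ^ 2) + C (24 * P * ((p : ℤ) + 1)) * (x + y) + C (576 * (p : ℤ)) * (x * y) +
        C 576 * Up p (Up p x * Up p y) := by
    have e2 : bx * b' = C (P ^ 2) + C (24 * P) * (Up p x + Up p y) + C 576 * (Up p x * Up p y) := by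
      rw [hbx, hby]
      simp only [map_mul, map_pow, map_ofNat]
      ring
    rw [e2, Up_add, Up_add, Up_C, Up_C_mul, Up_C_mul, Up_add, UU hx, UU hy]
    simp only [map_mul, map_pow, map_ofNat, map_add, map_one, Nat.add_sub_cancel, pow_one]
    ring
  rw [e1] at hL
  have hW := hL.weight_four
  have hp0 : p ≠ 0 := (Fact.out : p.Prime).ne_zero
  have c0 : (C (((p : ℤ) + 1) * P ^ 2) + C (24 * P * ((p : ℤ) + 1)) * (x + y) + C (576 * (p : ℤ)) * (x * y) +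
        C 576 * Up p (Up p x * Up p y)).coeff 0 = ((p : ℤ) + 1) * P ^ 2 := by
    have m1 : (x * y).coeff 0 = 0 := by rw [coeff_mul]; simp [hx0]
    have m2 : (Up p x * Up p y).coeff 0 = 0 := by rw [coeff_mul]; simp [coeff_Up, hx0]
    simp only [map_add, coeff_C_mul, coeff_Up, coeff_zero_C, zero_mul, hx0, hy0, m1, m2]
    ring
  rw [c0] at hW
  have hn' := congrArg (coeff n) hW
  have hE : E4ser.coeff n = 240 * (sigSer 3).coeff n := by
    have h : (240 : PowerSeries ℤ) = C 240 := by simp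
    rw [E4ser, h, map_add, coeff_C_mul, coeff_one, if_neg hn, zero_add]
  simp only [map_add, coeff_C_mul, coeff_Up, coeff_C, if_neg hn, hE] at hn'
  linear_combination hn'

lemma dvd24 {p : ℕ} (hp : p.Prime) (hp5 : 5 ≤ p) : (24 : ℤ) ∣ (p : ℤ) ^ 2 - 1 := by
  have h2 : ¬ 2 ∣ p := fun h => by
    have := (Nat.prime_dvd_prime_iff_eq Nat.prime_two hp).mp h; omega
  have h3 : ¬ 3 ∣ p := fun h => by
    have := (Nat.prime_dvd_prime_iff_eq Nat.prime_three hp).mp h; omega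
  have hr : p % 24 = 1 ∨ p % 24 = 5 ∨ p % 24 = 7 ∨ p % 24 = 11 ∨ p % 24 = 13 ∨ p % 24 = 17 ∨
      p % 24 = 19 ∨ p % 24 = 23 := by omega
  have hz : ((p : ℤ) ^ 2 - 1) % 24 = 0 := by
    have hc : ((p : ℤ)) % 24 = ((p % 24 : ℕ) : ℤ) := by push_cast; rfl
    rw [Int.sub_emod, pow_two, Int.mul_emod, hc]
    rcases hr with h | h | h | h | h | h | h | h <;> rw [h] <;> norm_num
  exact Int.dvd_of_emod_eq_zero hz

lemma eSer_coeff_zero (p : ℕ) : (eSer p).coeff 0 = 0 := by simp [eSer, sigP]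

lemma eSer_coeff_one (p : ℕ) [Fact p.Prime] : (eSer p).coeff 1 = 1 := by
  have hp : p.Prime := Fact.out
  have : ¬ p ∣ 1 := fun h => hp.one_lt.ne' (Nat.dvd_one.mp h)
  simp [eSer, sigP, Finset.filter_singleton, hp.one_lt.ne']

lemma eSer_coeff_two (p : ℕ) [Fact p.Prime] (hp5 : 5 ≤ p) : (eSer p).coeff 2 = 3 := by
  have h1 : ¬ p ∣ 1 := fun h => by have := Nat.le_of_dvd (by norm_num) h; omega
  have h2 : ¬ p ∣ 2 := fun h => by have := Nat.le_of_dvd (by norm_num) h; omega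
  have hd : Nat.divisors 2 = {1, 2} := by decide
  rw [eSer, coeff_mk, sigP, hd, Finset.filter_true_of_mem]
  · simp
  · intro d hd
    simp only [Finset.mem_insert, Finset.mem_singleton] at hd
    rcases hd with rfl | rfl <;> assumption

lemma sig3_one : (sigSer 3).coeff 1 = 1 := by simp [sigSer]

lemma sig3_two : (sigSer 3).coeff 2 = 9 := by
  have hd : Nat.divisors 2 = {1, 2} := by decide
  simp [sigSer, ArithmeticFunction.sigma_apply, hd]

theorem T1n {p : ℕ} [Fact p.Prime] (hp5 : 5 ≤ p) {d b : PowerSeries ℤ} (hd0 : d.coeff 0 = 0)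
    (hG : PF p 1 (C ((p : ℤ) - 1) + 24 * d) b) {M : ℤ} (hM : ∀ k, M ∣ d.coeff k)
    {n : ℕ} (hn : n ≠ 0) :
    24 * M ∣ ((p : ℤ) ^ 2 - 1) * (10 * ((p : ℤ) - 1) * (sigSer 3).coeff n - (eSer p).coeff n) := by
  have hE : PF p 1 (C ((p : ℤ) - 1) + 24 * eSer p) (-(EEser p)) := PF_EE
  have h := gen hd0 (eSer_coeff_zero p) hG hE hn
  rw [Up_eSer] at h
  obtain ⟨w, hw⟩ := dvd24 (Fact.out : p.Prime) hp5
  obtain ⟨d', rfl⟩ : C M ∣ d := by
    choose f hf using hM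
    exact ⟨mk f, by ext n; rw [coeff_C_mul, coeff_mk, hf n]⟩
  rw [Up_C_mul, mul_assoc (C M) d', mul_assoc (C M) (Up p d'), coeff_C_mul, coeff_C_mul,
    coeff_C_mul] at h
  refine ⟨w * d'.coeff n + (p * (d' * eSer p).coeff n + (Up p d' * eSer p).coeff (n * p)), ?_⟩
  have e : ((p : ℤ) - 1) * (p + 1) = 24 * w := by rw [← hw]; ring
  have h' : 24 * (24 * w) * (M * d'.coeff n + (eSer p).coeff n) +
      576 * (p * (M * (d' * eSer p).coeff n) + M * (Up p d' * eSer p).coeff (n * p)) =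
      240 * ((p : ℤ) - 1) * (24 * w) * (sigSer 3).coeff n := by
    rw [← e]; linear_combination h
  rw [hw]
  have : (24 : ℤ) * (24 * w * (10 * ((p : ℤ) - 1) * (sigSer 3).coeff n - (eSer p).coeff n)) =
      24 * (24 * M * (w * d'.coeff n + (p * (d' * eSer p).coeff n +
        (Up p d' * eSer p).coeff (n * p)))) := by
    linear_combination -h'
  exact mul_left_cancel₀ (by norm_num) this

end T1aux

open T1aux in
theorem T1 {p : ℕ} [Fact p.Prime] (hp5 : 5 ≤ p) {d b : PowerSeries ℤ} (hd0 : d.coeff 0 = 0)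
    (hG : PF p 1 (C ((p : ℤ) - 1) + 24 * d) b) {M : ℤ} (hM : ∀ k, M ∣ d.coeff k) :
    24 * M ∣ ((p : ℤ) ^ 2 - 1) * (10 * p - 11) ∧ 24 * M ∣ 3 * (((p : ℤ) ^ 2 - 1) * (30 * p - 31)) := by
  constructor
  · have h := T1n hp5 hd0 hG hM (n := 1) one_ne_zero
    rw [sig3_one, eSer_coeff_one] at h
    have e : (10 * ((p : ℤ) - 1) * 1 - 1) = 10 * p - 11 := by ring
    rwa [e] at h
  · have h := T1n hp5 hd0 hG hM (n := 2) two_ne_zero
    rw [sig3_two, eSer_coeff_two p hp5] at h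
    have e : ((p : ℤ) ^ 2 - 1) * (10 * ((p : ℤ) - 1) * 9 - 3) =
        3 * (((p : ℤ) ^ 2 - 1) * (30 * p - 31)) := by ring
    rwa [e] at h

open T1aux in
/-- the trace of `𝔾²`, coefficient of `q`:
`48 (p²-1) d₁ + 576 ((U d)²)_p = 240 (p-1)² (p+1)`. -/
theorem T2 {p : ℕ} [Fact p.Prime] {d b : PowerSeries ℤ} (hd0 : d.coeff 0 = 0)
    (hG : PF p 1 (C ((p : ℤ) - 1) + 24 * d) b) :
    48 * ((p : ℤ) ^ 2 - 1) * d.coeff 1 + 576 * ((Up p d) ^ 2).coeff p
      = 240 * ((p : ℤ) - 1) ^ 2 * (p + 1) := by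
  have h := gen hd0 hd0 hG hG (n := 1) one_ne_zero
  have m1 : (d * d).coeff 1 = 0 := by
    rw [coeff_mul, Finset.Nat.antidiagonal_succ]
    simp [hd0]
  rw [m1, sig3_one, one_mul, ← pow_two] at h
  linear_combination h

end Fermat.Agent.S16
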