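import Fermat.Agent.S16.TS
import Fermat.Agent.S16.T1

/-!
# S16/R5, R3 : the residual cases `ℓ ∣ p + 1`, `ℓ` odd  (FORMAL, applications of `TS`)   (helper4)
-/

set_option autoImplicit false

namespace Fermat.Agent.S16

open PowerSeries

namespace R5aux

lemma exists_C_mul {M : ℤ} {d : PowerSeries ℤ} (h : ∀ k, M ∣ d.coeff k) : C M ∣ d := by
  choose f hf using h
  exact ⟨mk f, by ext n; rw [coeff_C_mul, coeff_mk, hf n]⟩

lemma coeff_dvd_of_C_dvd {M : ℤ} {d : PowerSeries ℤ} (h : C M ∣ d) (n : ℕ) : M ∣ d.coeff n := by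
  obtain ⟨y, rfl⟩ := h
  rw [coeff_C_mul]
  exact dvd_mul_right _ _

lemma C_dvd_Up {p : ℕ} {M : ℤ} {d : PowerSeries ℤ} (h : C M ∣ d) : C M ∣ Up p d := by
  obtain ⟨y, rfl⟩ := h
  rw [Up_C_mul]
  exact dvd_mul_right _ _

lemma Up_C (p : ℕ) [Fact p.Prime] (c : ℤ) : Up p (C c) = C c := by
  have hp : p ≠ 0 := (Fact.out : p.Prime).ne_zero
  ext n
  rw [coeff_Up, coeff_C, coeff_C]
  simp [hp]

lemma Up_G (p : ℕ) [Fact p.Prime] (c : ℤ) (d : PowerSeries ℤ) :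
    Up p (C c + 24 * d) = C c + 24 * Up p d := by
  have h24 : (24 : PowerSeries ℤ) = C 24 := by simp
  rw [Up_add, Up_C, h24, Up_C_mul]

theorem main {p : ℕ} [Fact p.Prime] {ℓ : ℕ} (hℓ : ℓ.Prime) (hdvd : ℓ ∣ p + 1)
    {d b : PowerSeries ℤ}
    (hG : PF p 1 (C ((p : ℤ) - 1) + 24 * d) b) (hM : ∀ k, (ℓ : ℤ) ∣ d.coeff k)
    {i : ℕ} (hi : 1 ≤ i) (hi6 : 2 * i < 12) {H : PowerSeries ℤ} (hH : L1 (2 * i) H)
    (hH0 : H.coeff 0 = 1) (hpi : (ℓ : ℤ) ∣ (-1) ^ i - (p : ℤ) ^ i) :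
    (ℓ : ℤ) ∣ ((p : ℤ) - 1) ^ i * (1 - H).coeff 1 := by
  set P : ℤ := (p : ℤ) - 1 with hP
  have hd : C (ℓ : ℤ) ∣ d := exists_C_mul hM
  have hb : b = -(C P + 24 * Up p d) := by rw [hG.snd_eq, Up_G]
  have hPF1 : PF p i ((C P + 24 * d) ^ i) (b ^ i) := by simpa using hG.pow i
  have hPF2 := (PF.of_L1 (p := p) hH).smul (P ^ i)
  have hPF := hPF1.sub hPF2
  set s : PowerSeries ℤ := C (P ^ i) * (1 - H) with hs
  have h1 : C (ℓ : ℤ) ∣ ((C P + 24 * d) ^ i - C (P ^ i) * H) - s := by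
    have e : ((C P + 24 * d) ^ i - C (P ^ i) * H) - s = (C P + 24 * d) ^ i - (C P) ^ i := by
      rw [hs, map_pow]; ring
    rw [e]
    refine dvd_trans ?_ (sub_dvd_pow_sub_pow _ _ i)
    have : C P + 24 * d - C P = 24 * d := by ring
    rw [this]
    exact hd.mul_left _
  have h2 : C (ℓ : ℤ) ∣ (b ^ i - C (P ^ i) * (C ((p : ℤ) ^ i) * expand p (NeZero.ne p) H)) -
      C ((p : ℤ) ^ i) * expand p (NeZero.ne p) s := by
    have e : (b ^ i - C (P ^ i) * (C ((p : ℤ) ^ i) * expand p (NeZero.ne p) H)) -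
        C ((p : ℤ) ^ i) * expand p (NeZero.ne p) s =
        (b ^ i - (-(C P)) ^ i) + C (P ^ i * ((-1) ^ i - (p : ℤ) ^ i)) := by
      rw [hs, map_mul, map_sub, map_one, expand_C]
      simp only [map_mul, map_sub, map_pow, map_neg, map_one]
      rw [neg_pow (C P) i]
      ring
    rw [e]
    refine dvd_add (dvd_trans ?_ (sub_dvd_pow_sub_pow _ _ i)) ?_
    · have : b - -(C P) = -(24 * Up p d) := by rw [hb]; ring
      rw [this]
      exact ((C_dvd_Up hd).mul_left _).neg_right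
    · exact (map_dvd C hpi).mul_left _ |> fun h => by simpa [map_mul] using h
  have h3 : ∀ n, 12 * n ≤ 2 * i → (ℓ : ℤ) ∣ s.coeff n := by
    intro n hn
    have hn0 : n = 0 := by omega
    subst hn0
    rw [hs, coeff_C_mul, map_sub, hH0]
    simp
  have := TS hℓ hdvd hi hPF (coeff_dvd_of_C_dvd h1) (coeff_dvd_of_C_dvd h2) h3 1
  rwa [hs, coeff_C_mul] at this

lemma sigSer_coeff_zero (k : ℕ) : (sigSer k).coeff 0 = 0 := by simp [sigSer]

lemma sigSer_coeff_one (k : ℕ) : (sigSer k).coeff 1 = 1 := by simp [sigSer]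

lemma coeff_ofNat_mul (c : ℤ) (a : PowerSeries ℤ) (n : ℕ) : (C c * a).coeff n = c * a.coeff n :=
  coeff_C_mul n a c

lemma E4_coeff_zero : E4ser.coeff 0 = 1 := by
  have h : (240 : PowerSeries ℤ) = C 240 := by simp
  rw [E4ser, h, map_add, coeff_C_mul, sigSer_coeff_zero]; simp

lemma E6_coeff_zero : E6ser.coeff 0 = 1 := by
  have h : (504 : PowerSeries ℤ) = C 504 := by simp
  rw [E6ser, h, map_sub, coeff_C_mul, sigSer_coeff_zero]; simp

lemma one_sub_E4_coeff_one : (1 - E4ser).coeff 1 = -240 := by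
  have h : (240 : PowerSeries ℤ) = C 240 := by simp
  have e : 1 - E4ser = C (-240) * sigSer 3 := by rw [E4ser, h, map_neg]; ring
  rw [e, coeff_C_mul, sigSer_coeff_one]; norm_num

lemma one_sub_E6_coeff_one : (1 - E6ser).coeff 1 = 504 := by
  have h : (504 : PowerSeries ℤ) = C 504 := by simp
  have e : 1 - E6ser = C 504 * sigSer 5 := by rw [E6ser, h]; ring
  rw [e, coeff_C_mul, sigSer_coeff_one]; norm_num

lemma not_dvd_P {p ℓ : ℕ} (hℓ : ℓ.Prime) (h3 : 3 ≤ ℓ) (hdvd : ℓ ∣ p + 1) :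
    ¬ (ℓ : ℤ) ∣ (p : ℤ) - 1 := by
  intro h
  have h1 : (ℓ : ℤ) ∣ (p : ℤ) + 1 := by exact_mod_cast hdvd
  have h2 : (ℓ : ℤ) ∣ 2 := by
    have := dvd_sub h1 h
    have e : (p : ℤ) + 1 - ((p : ℤ) - 1) = 2 := by ring
    rwa [e] at this
  have h4 : ℓ ∣ 2 := by exact_mod_cast h2
  have := Nat.le_of_dvd (by norm_num) h4
  omega

end R5aux

open R5aux in
theorem R5 {p : ℕ} [Fact p.Prime] (hp5 : 5 ≤ p) {ℓ : ℕ} (hℓ : ℓ.Prime) (h5 : 5 ≤ ℓ) (hdvd : ℓ ∣ p + 1)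
    {d b : PowerSeries ℤ} (hd0 : d.coeff 0 = 0)
    (hG : PF p 1 (C ((p : ℤ) - 1) + 24 * d) b) (hM : ∀ k, (ℓ : ℤ) ∣ d.coeff k) : False := by
  have hℓ' : Prime (ℓ : ℤ) := Nat.prime_iff_prime_int.mp hℓ
  have hp1 : (ℓ : ℤ) ∣ (p : ℤ) + 1 := by exact_mod_cast hdvd
  have hnP := not_dvd_P hℓ (by omega) hdvd
  by_cases hl5 : ℓ = 5
  · have hpi : (ℓ : ℤ) ∣ (-1) ^ 3 - (p : ℤ) ^ 3 := by
      have e : (-1 : ℤ) ^ 3 - (p : ℤ) ^ 3 = ((p : ℤ) + 1) * (-((p : ℤ) ^ 2 - p + 1)) := by ring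
      rw [e]; exact hp1.mul_right _
    have := main hℓ hdvd hG hM (i := 3) (by norm_num) (by norm_num) L1_E6 E6_coeff_zero hpi
    rw [one_sub_E6_coeff_one] at this
    rcases hℓ'.dvd_or_dvd this with h | h
    · exact hnP (hℓ'.dvd_of_dvd_pow h)
    · rw [hl5] at h; norm_num at h
  · have hpi : (ℓ : ℤ) ∣ (-1) ^ 2 - (p : ℤ) ^ 2 := by
      have e : (-1 : ℤ) ^ 2 - (p : ℤ) ^ 2 = ((p : ℤ) + 1) * (1 - p) := by ring
      rw [e]; exact hp1.mul_right _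
    have := main hℓ hdvd hG hM (i := 2) (by norm_num) (by norm_num) L1_E4 E4_coeff_zero hpi
    rw [one_sub_E4_coeff_one] at this
    rcases hℓ'.dvd_or_dvd this with h | h
    · exact hnP (hℓ'.dvd_of_dvd_pow h)
    · have h240 : ℓ ∣ 2 ^ 4 * 3 * 5 := by
        have : (ℓ : ℤ) ∣ 240 := (dvd_neg).mp h
        exact_mod_cast this
      rcases (Nat.Prime.dvd_mul hℓ).mp h240 with h | h
      · rcases (Nat.Prime.dvd_mul hℓ).mp h with h | h
        · have := Nat.le_of_dvd (by norm_num) (hℓ.dvd_of_dvd_pow h); omega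
        · have := Nat.le_of_dvd (by norm_num) h; omega
      · have := Nat.le_of_dvd (by norm_num) h; omega

namespace R5aux

lemma zmod27 : ∀ x : ZMod 27, 9 * (x + 1) = 0 → 240 * (x - 1) ^ 2 * (x + 1) = 0 → 3 * (x + 1) = 0 := by
  decide

theorem R3a {p : ℕ} [Fact p.Prime] (hdvd : 3 ∣ p + 1) (h9 : ¬ 9 ∣ p + 1)
    {d b : PowerSeries ℤ} (hd0 : d.coeff 0 = 0)
    (hG : PF p 1 (C ((p : ℤ) - 1) + 24 * d) b) (hM : ∀ k, (3 : ℤ) ∣ d.coeff k) : False := by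
  have hT := T2 hd0 hG
  obtain ⟨d', rfl⟩ := exists_C_mul hM
  obtain ⟨u, hu⟩ : (3 : ℤ) ∣ (p : ℤ) + 1 := by exact_mod_cast hdvd
  have h27 : (27 : ℤ) ∣ 240 * ((p : ℤ) - 1) ^ 2 * (p + 1) := by
    rw [← hT, Up_C_mul, mul_pow, ← map_pow, coeff_C_mul, coeff_C_mul]
    refine ⟨16 * u * ((p : ℤ) - 1) * d'.coeff 1 + 192 * ((Up p d') ^ 2).coeff p, ?_⟩
    have e : (p : ℤ) ^ 2 - 1 = ((p : ℤ) + 1) * ((p : ℤ) - 1) := by ring
    rw [e, hu]
    ring
  have a1 : (9 : ZMod 27) * ((p : ZMod 27) + 1) = 0 := by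
    have : (27 : ℤ) ∣ 9 * ((p : ℤ) + 1) := ⟨u, by rw [hu]; ring⟩
    have := (ZMod.intCast_zmod_eq_zero_iff_dvd _ 27).mpr this
    push_cast at this
    exact this
  have a2 : (240 : ZMod 27) * ((p : ZMod 27) - 1) ^ 2 * ((p : ZMod 27) + 1) = 0 := by
    have := (ZMod.intCast_zmod_eq_zero_iff_dvd _ 27).mpr h27
    push_cast at this
    exact this
  have a3 := zmod27 _ a1 a2
  have a4 : (27 : ℤ) ∣ 3 * ((p : ℤ) + 1) := by
    apply (ZMod.intCast_zmod_eq_zero_iff_dvd _ 27).mp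
    push_cast
    exact a3
  apply h9
  have : (9 : ℤ) ∣ (p : ℤ) + 1 := by
    obtain ⟨w, hw⟩ := a4
    exact ⟨w, by linarith⟩
  exact_mod_cast this

theorem R3b {p : ℕ} [Fact p.Prime] (hp5 : 5 ≤ p) (h9 : 9 ∣ p + 1)
    {d b : PowerSeries ℤ}
    (hG : PF p 1 (C ((p : ℤ) - 1) + 24 * d) b) (hM : ∀ k, (3 : ℤ) ∣ d.coeff k) : False := by
  have hpp : p.Prime := Fact.out
  obtain ⟨t, ht⟩ : (9 : ℤ) ∣ (p : ℤ) + 1 := by exact_mod_cast h9
  obtain ⟨P', hP'⟩ : (2 : ℤ) ∣ (p : ℤ) - 1 := by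
    have hodd : Odd p := hpp.odd_of_ne_two (by omega)
    obtain ⟨m, hm⟩ := hodd
    exact ⟨m, by rw [hm]; push_cast; ring⟩
  set P : ℤ := (p : ℤ) - 1 with hP
  have hd : C (3 : ℤ) ∣ d := exists_C_mul hM
  have hb : b = -(C P + 24 * Up p d) := by rw [hG.snd_eq, Up_G]
  have hPF1 : PF p 2 ((C P + 24 * d) ^ 2) (b ^ 2) := by simpa using hG.pow 2
  have hPF2 := (PF.of_L1 (p := p) (i := 2) L1_E4).smul (P ^ 2)
  have hPF := hPF1.sub hPF2
  set S := sigSer 3 with hS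
  set S' := expand p (NeZero.ne p) S with hS'
  set s : PowerSeries ℤ := C (-10 * P ^ 2) * S with hs
  set h : PowerSeries ℤ := C (2 * P) * d + 24 * d ^ 2 + s with hh
  set h' : PowerSeries ℤ := C (-3 * t * P' ^ 3) + C (2 * P) * Up p d + 24 * (Up p d) ^ 2 +
    C ((p : ℤ) ^ 2) * expand p (NeZero.ne p) s with hh'
  have e1 : (C P + 24 * d) ^ 2 - C (P ^ 2) * E4ser = C 24 * h := by
    rw [hh, hs, E4ser]
    simp only [map_mul, map_pow, map_neg, map_ofNat]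
    ring
  have e2 : b ^ 2 - C (P ^ 2) * (C ((p : ℤ) ^ 2) * expand p (NeZero.ne p) E4ser) = C 24 * h' := by
    have hc : C (P ^ 2) - C (P ^ 2) * C ((p : ℤ) ^ 2) = C 24 * C (-3 * t * P' ^ 3) := by
      rw [← map_mul, ← map_sub, ← map_mul]
      congr 1
      have hp1 : (p : ℤ) = 9 * t - 1 := by linarith
      have hp2 : P = 2 * P' := hP'
      have hp3 : (p : ℤ) = 2 * P' + 1 := by rw [← hp2, hP]; ring
      have : P ^ 2 - P ^ 2 * (p : ℤ) ^ 2 = -(P ^ 3 * ((p : ℤ) + 1)) := by rw [hP]; ring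
      rw [this, ht, hp2]
      ring
    have hx : expand p (NeZero.ne p) E4ser = 1 + 240 * S' := by
      rw [E4ser, map_add, map_mul, map_one, map_ofNat]
    have hy : expand p (NeZero.ne p) s = C (-10 * P ^ 2) * S' := by
      rw [hs, map_mul, expand_C]
    rw [hh', hb, hx, hy]
    have hc' := hc
    simp only [map_mul, map_pow, map_neg, map_ofNat] at hc' ⊢
    linear_combination hc'
  rw [e1, e2] at hPF
  have hPF' := hPF.cancel (by norm_num)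
  have h1 : C (3 : ℤ) ∣ h - s := by
    have : h - s = C (2 * P) * d + 24 * d * d := by rw [hh]; ring
    rw [this]
    exact dvd_add (hd.mul_left _) (hd.mul_left _)
  have h2 : C (3 : ℤ) ∣ h' - C ((p : ℤ) ^ 2) * expand p (NeZero.ne p) s := by
    have : h' - C ((p : ℤ) ^ 2) * expand p (NeZero.ne p) s =
        C 3 * C (-t * P' ^ 3) + C (2 * P) * Up p d + 24 * Up p d * Up p d := by
      rw [hh', ← map_mul]
      have : (3 : ℤ) * (-t * P' ^ 3) = -3 * t * P' ^ 3 := by ring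
      rw [this]
      ring
    rw [this]
    exact dvd_add (dvd_add (dvd_mul_right _ _) ((C_dvd_Up hd).mul_left _))
      ((C_dvd_Up hd).mul_left _)
  have h3 : ∀ n, 12 * n ≤ 2 * 2 → ((3 : ℕ) : ℤ) ∣ s.coeff n := by
    intro n hn
    have hn0 : n = 0 := by omega
    subst hn0
    rw [hs, coeff_C_mul, hS, sigSer_coeff_zero]
    simp
  have h3dvd : 3 ∣ p + 1 := dvd_trans (by norm_num) h9
  have := TS Nat.prime_three h3dvd (by norm_num) hPF' (coeff_dvd_of_C_dvd h1)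
    (coeff_dvd_of_C_dvd h2) h3 1
  rw [hs, coeff_C_mul, hS, sigSer_coeff_one, mul_one] at this
  have hpr : Prime (3 : ℤ) := Int.prime_three
  have hnP := not_dvd_P Nat.prime_three le_rfl h3dvd
  rcases hpr.dvd_or_dvd this with h | h
  · norm_num at h
  · exact hnP (hpr.dvd_of_dvd_pow h)

end R5aux

open R5aux in
theorem R3 {p : ℕ} [Fact p.Prime] (hp5 : 5 ≤ p) (hdvd : 3 ∣ p + 1)
    {d b : PowerSeries ℤ} (hd0 : d.coeff 0 = 0)
    (hG : PF p 1 (C ((p : ℤ) - 1) + 24 * d) b) (hM : ∀ k, (3 : ℤ) ∣ d.coeff k) : False := by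
  by_cases h9 : 9 ∣ p + 1
  · exact R3b hp5 h9 hG hM
  · exact R3a hdvd h9 hd0 hG hM

end Fermat.Agent.S16
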