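import Fermat.Agent.S16.PFBasic

/-!
# S16/TS : the trace–Sturm lemma  (FORMAL)
-/

set_option autoImplicit false

namespace Fermat.Agent.S16

open PowerSeries

namespace TS

theorem C_dvd_iff (c : ℤ) (f : PowerSeries ℤ) : C c ∣ f ↔ ∀ n, c ∣ f.coeff n := by
  constructor
  · rintro ⟨g, rfl⟩ n
    rw [coeff_C_mul]
    exact dvd_mul_right _ _
  · intro h
    choose g hg using h
    refine ⟨PowerSeries.mk g, ?_⟩
    ext n
    rw [coeff_C_mul, coeff_mk, hg n]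

theorem Up_dvd (p : ℕ) (c : ℤ) {f : PowerSeries ℤ} (h : C c ∣ f) : C c ∣ Up p f := by
  obtain ⟨g, rfl⟩ := h
  exact ⟨Up p g, Up_C_mul _ _ _⟩

/-- low coefficients of a power. -/
theorem dvd_coeff_pow {ℓ : ℕ} (s : PowerSeries ℤ) (m N : ℕ)
    (h : ∀ n < m, (ℓ : ℤ) ∣ s.coeff n) (n : ℕ) (hn : n < m * N) : (ℓ : ℤ) ∣ (s ^ N).coeff n := by
  have h1 : (X : PowerSeries (ZMod ℓ)) ^ m ∣ s.map (Int.castRingHom (ZMod ℓ)) := by
    rw [X_pow_dvd_iff]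
    intro k hk
    rw [coeff_map]
    exact (ZMod.intCast_zmod_eq_zero_iff_dvd _ _).mpr (h k hk)
  have h2 : (X : PowerSeries (ZMod ℓ)) ^ (m * N) ∣ (s ^ N).map (Int.castRingHom (ZMod ℓ)) := by
    rw [map_pow, pow_mul]
    exact pow_dvd_pow_of_dvd h1 N
  rw [X_pow_dvd_iff] at h2
  have h3 := h2 n hn
  rw [coeff_map] at h3
  exact (ZMod.intCast_zmod_eq_zero_iff_dvd _ _).mp h3

/-- a power series over `ℤ` whose power vanishes mod `ℓ` vanishes mod `ℓ`. -/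
theorem dvd_coeff_of_pow {ℓ : ℕ} (hℓ : ℓ.Prime) (s : PowerSeries ℤ) (N : ℕ)
    (h : ∀ n, (ℓ : ℤ) ∣ (s ^ N).coeff n) (n : ℕ) : (ℓ : ℤ) ∣ s.coeff n := by
  have : Fact ℓ.Prime := ⟨hℓ⟩
  have h1 : (s.map (Int.castRingHom (ZMod ℓ))) ^ N = 0 := by
    rw [← map_pow]
    ext k
    rw [coeff_map]
    exact (ZMod.intCast_zmod_eq_zero_iff_dvd _ _).mpr (h k)
  have h3 : s.map (Int.castRingHom (ZMod ℓ)) = 0 := eq_zero_of_pow_eq_zero h1
  have h4 := congrArg (fun f => coeff n f) h3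
  simp only [coeff_map, map_zero] at h4
  exact (ZMod.intCast_zmod_eq_zero_iff_dvd _ _).mp h4

end TS

open TS in
theorem TS {p : ℕ} [Fact p.Prime] {ℓ : ℕ} (hℓ : ℓ.Prime) (hdvd : ℓ ∣ p + 1) {i : ℕ} (hi : 1 ≤ i)
    {h h' s : PowerSeries ℤ} (hPF : PF p i h h')
    (h1 : ∀ n, (ℓ : ℤ) ∣ (h - s).coeff n)
    (h2 : ∀ n, (ℓ : ℤ) ∣ (h' - C ((p : ℤ) ^ i) * expand p (NeZero.ne p) s).coeff n)
    (h3 : ∀ n, 12 * n ≤ 2 * i → (ℓ : ℤ) ∣ s.coeff n) (n : ℕ) : (ℓ : ℤ) ∣ s.coeff n := by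
  have hp : p.Prime := Fact.out
  obtain ⟨a, u, hu, hpu⟩ := Nat.exists_eq_pow_mul_and_not_dvd (n := p + 1) (by omega) ℓ hℓ.ne_one
  have hNpos : 0 < ℓ ^ a := pow_pos hℓ.pos a
  have hlp : ¬ ℓ ∣ p := by
    intro hd
    have : ℓ ∣ 1 := (Nat.dvd_add_right hd).mp hdvd
    exact hℓ.one_lt.ne' (Nat.dvd_one.mp this)
  have hcast : ((ℓ : ℕ) : PowerSeries ℤ) = C (ℓ : ℤ) := by simp
  have e1 : ((ℓ : ℕ) : PowerSeries ℤ) ∣ h - s := by
    rw [hcast, C_dvd_iff]; exact h1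
  have e2 : ((ℓ : ℕ) : PowerSeries ℤ) ∣ h' - C ((p : ℤ) ^ i) * expand p (NeZero.ne p) s := by
    rw [hcast, C_dvd_iff]; exact h2
  have e1' := dvd_sub_pow_of_dvd_sub e1 a
  have e2' := dvd_sub_pow_of_dvd_sub e2 a
  have hcast' : ((ℓ : ℕ) : PowerSeries ℤ) ^ (a + 1) = C ((ℓ : ℤ) ^ (a + 1)) := by
    rw [hcast, map_pow]
  rw [hcast'] at e1' e2'
  set N := ℓ ^ a with hN
  have hNi : 1 ≤ N * i := Nat.mul_pos hNpos hi
  have hL := (hPF.pow N).trace hNi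
  -- the second term
  have e3 : Up p ((C ((p : ℤ) ^ i) * expand p (NeZero.ne p) s) ^ N)
      = C ((p : ℤ) ^ (N * i)) * s ^ N := by
    rw [mul_pow, ← map_pow, ← map_pow, Up_C_mul, Up_expand, ← pow_mul, mul_comm i N]
  have e4 := Up_dvd p _ e2'
  rw [Up_sub, e3] at e4
  obtain ⟨r1, hr1⟩ := e1'
  obtain ⟨r2, hr2⟩ := e4
  have hpp : (p : ℤ) ^ (N * i) = (p : ℤ) ^ (N * i - 1) * p := by
    rw [← pow_succ]; congr 1; omega
  have hpu' : (p : ℤ) + 1 = (ℓ : ℤ) ^ a * u := by exact_mod_cast hpu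
  have hF : C ((p : ℤ) ^ (N * i - 1)) * h ^ N + Up p (h' ^ N)
      = C ((ℓ : ℤ) ^ a) * (C ((p : ℤ) ^ (N * i - 1) * u) * s ^ N
          + C (ℓ : ℤ) * (C ((p : ℤ) ^ (N * i - 1)) * r1 + r2)) := by
    have a1 : h ^ N = s ^ N + C ((ℓ : ℤ) ^ (a + 1)) * r1 := by rw [← hr1]; ring
    have a2 : Up p (h' ^ N) = C ((p : ℤ) ^ (N * i)) * s ^ N + C ((ℓ : ℤ) ^ (a + 1)) * r2 := by
      rw [← hr2]; ring
    rw [a1, a2, hpp]
    have a3 : C ((p : ℤ) ^ (N * i - 1)) * s ^ N + C ((p : ℤ) ^ (N * i - 1) * p) * s ^ N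
        = C ((ℓ : ℤ) ^ a) * (C ((p : ℤ) ^ (N * i - 1) * u) * s ^ N) := by
      rw [← add_mul, ← mul_assoc, ← map_add, ← map_mul]
      congr 2
      linear_combination ((p : ℤ) ^ (N * i - 1)) * hpu'
    have a4 : (C ((ℓ : ℤ) ^ (a + 1)) : PowerSeries ℤ) = C ((ℓ : ℤ) ^ a) * C (ℓ : ℤ) := by
      rw [← map_mul, pow_succ]
    rw [a4]
    linear_combination a3
  rw [hF] at hL
  have hL1 := L1.cancel (pow_ne_zero a (by exact_mod_cast hℓ.ne_zero)) hL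
  -- Sturm
  have hlow : ∀ k, 12 * k ≤ 2 * (N * i) → (ℓ : ℤ) ∣ (s ^ N).coeff k := by
    intro k hk
    refine dvd_coeff_pow s (i / 6 + 1) N (fun m hm => h3 m (by omega)) k ?_
    have h6 : i < 6 * (i / 6 + 1) := by omega
    have : N * i < N * (6 * (i / 6 + 1)) := Nat.mul_lt_mul_of_pos_left h6 hNpos
    nlinarith
  have hall := hL1.sturm hℓ (fun k hk => by
    rw [map_add, coeff_C_mul, coeff_C_mul]
    exact dvd_add (Dvd.dvd.mul_left (hlow k hk) _) (dvd_mul_right _ _))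
  refine dvd_coeff_of_pow hℓ s N (fun k => ?_) n
  have h5 := hall k
  rw [map_add, coeff_C_mul, coeff_C_mul, Int.dvd_add_left (dvd_mul_right _ _)] at h5
  have hprime : Prime (ℓ : ℤ) := Nat.prime_iff_prime_int.mp hℓ
  rcases hprime.dvd_or_dvd h5 with h6 | h6
  · exfalso
    rcases hprime.dvd_or_dvd h6 with h7 | h7
    · exact hlp (Int.natCast_dvd_natCast.mp (hprime.dvd_of_dvd_pow h7))
    · exact hu (Int.natCast_dvd_natCast.mp h7)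
  · exact h6

end Fermat.Agent.S16
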