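import Fermat.Agent.S16.Fricke
import Fermat.Agent.S23.QExp
import Fermat.Prelude.Thm_ModularFormClass_qCoeff_heckeU
import Fermat.Prelude.Thm_CongruenceSubgroup_one_mem_strictPeriods_Gamma0

/-!
# S16/Trace : the trace from `Γ₀(p)` to level one in terms of q-expansions  (ANALYTIC)

RECIPE.  `F := ModularForm.trace 𝒮ℒ h` (Mathlib `NumberTheory/ModularForms/NormTrace`), as a function
`∑_{q ∈ 𝒮ℒ/Γ₀(p)} h ∣[k] g⁻¹`.  The `p + 1` elements `1, (S T^j)⁻¹...` (i.e. `h ∣ 1` and `h ∣ (S T^j)`, `0 ≤ j < p`)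
represent all cosets: they are pairwise inequivalent and `Nat.card (SL(2,ℤ) ⧸ Γ₀(p)) = dedekindPsi p = p + 1`
(`Fermat.Agent.S20.card_quot`).  Matrix identity (in `GL(2,ℝ)`):
  `fricke p * heckeMatrix p j = p • (S * T^j)`   [(0,-1;p,0)(1,j;0,p) = (0,-p;p,pj)],
scalars act by `h ∣[k] (p • 1) = p^{k-2} h`, hence
  `∑_j h ∣[k] (S T^j) = p^{2-k} • ModularForm.heckeU k p (h ∣[k] fricke p)`
and `UpperHalfPlane.qCoeff_heckeU` (Prelude) gives the coefficients `a_{n p}`.  With `k = 2 i`,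
`frickeFun p i h = p^{1-i} • h ∣[k] fricke p`:   `p^{i-1} F = p^{i-1} h + heckeU k p (frickeFun p i h)`.
-/

set_option autoImplicit false
set_option linter.unusedSectionVars false
set_option linter.style.haveILetI false

open UpperHalfPlane hiding I
open CongruenceSubgroup ModularFormClass Matrix.SpecialLinearGroup
open scoped MatrixGroups ModularForm Manifold

namespace Fermat.Agent.S16

/-- the representatives `S T^j = (0,-1;1,j)` -/
def traceRep (j : ℤ) : SL(2, ℤ) := ⟨!![0, -1; 1, j], by simp [Matrix.det_fin_two]⟩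

section
variable {p : ℕ} [NeZero p]

theorem trace_det_fricke : ((fricke p).det : ℝ) = p := by
  rw [Matrix.GeneralLinearGroup.val_det_apply]
  simp [fricke, Matrix.GeneralLinearGroup.mkOfDetNeZero, Matrix.det_fin_two]

theorem trace_det_fricke_pos : 0 < ((fricke p).det : ℝ) := by
  rw [trace_det_fricke]; exact_mod_cast Nat.pos_of_ne_zero (NeZero.ne p)

theorem trace_slash_fricke_apply (k : ℤ) (h : ℍ → ℂ) (z : ℍ) :
    (h ∣[k] fricke p) z = h (fricke p • z) * (p : ℂ) ^ (k - 1) * ((p : ℂ) * z) ^ (-k) := by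
  rw [ModularForm.slash_apply, UpperHalfPlane.σ, if_pos trace_det_fricke_pos, trace_det_fricke]
  simp [UpperHalfPlane.denom, fricke, Matrix.GeneralLinearGroup.mkOfDetNeZero]

theorem trace_coe_fricke_smul (z : ℍ) : ((fricke p • z : ℍ) : ℂ) = -1 / ((p : ℂ) * z) := by
  rw [UpperHalfPlane.coe_smul_of_det_pos trace_det_fricke_pos]
  simp [UpperHalfPlane.num, UpperHalfPlane.denom, fricke, Matrix.GeneralLinearGroup.mkOfDetNeZero]

theorem trace_slash_fricke_hecke (k : ℤ) (h : ℍ → ℂ) (j : ℕ) :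
    (h ∣[k] fricke p) ∣[k] ModularForm.heckeMatrix p j =
      ((p : ℂ) ^ (k - 2)) • (h ∣[k] traceRep j) := by
  have hp : p ≠ 0 := NeZero.ne p
  have hp' : (p : ℂ) ≠ 0 := by exact_mod_cast hp
  funext τ
  rw [ModularForm.slash_heckeMatrix_apply k hp, trace_slash_fricke_apply, Pi.smul_apply,
    ModularForm.SL_slash_apply]
  have h1 : fricke p • (ModularForm.heckeMatrix p j • τ) = traceRep j • τ := by
    apply UpperHalfPlane.ext
    rw [trace_coe_fricke_smul, ModularForm.coe_heckeMatrix_smul hp,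
      UpperHalfPlane.coe_specialLinearGroup_apply]
    simp [traceRep]
    field_simp
  have h2 : denom (traceRep j) τ = (τ : ℂ) + j := by
    simp [UpperHalfPlane.denom, traceRep]
  rw [h1, h2, ModularForm.coe_heckeMatrix_smul hp, mul_div_cancel₀ _ hp', smul_eq_mul]
  have : (p : ℂ) ^ (k - 1) = (p : ℂ) * (p : ℂ) ^ (k - 2) := by
    rw [← zpow_one_add₀ hp']; congr 1; ring
  rw [this]
  field_simp

end

section
variable {p : ℕ} [Fact p.Prime]

/-- the class of `γ` in `𝒮ℒ ⧸ Γ₀(p)` -/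
noncomputable def traceCls (p : ℕ) (γ : SL(2, ℤ)) :
    𝒮ℒ ⧸ ((Gamma0 p : Subgroup (GL (Fin 2) ℝ)).subgroupOf 𝒮ℒ) :=
  QuotientGroup.mk ((mapGL ℝ : SL(2, ℤ) →* GL (Fin 2) ℝ).rangeRestrict γ)

theorem traceCls_surjective : Function.Surjective (traceCls p) := by
  intro q
  induction q using QuotientGroup.induction_on with
  | H g =>
    obtain ⟨g, γ, rfl⟩ := g
    exact ⟨γ, rfl⟩

theorem traceCls_eq_iff (γ γ' : SL(2, ℤ)) : traceCls p γ = traceCls p γ' ↔ γ⁻¹ * γ' ∈ Gamma0 p := by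
  rw [traceCls, traceCls, QuotientGroup.eq, Subgroup.mem_subgroupOf, ← map_inv, ← map_mul]
  simp only [MonoidHom.coe_rangeRestrict]
  rw [Subgroup.mem_map]
  constructor
  · rintro ⟨x, hx, hxe⟩
    rwa [← mapGL_injective hxe]
  · intro h
    exact ⟨_, h, rfl⟩

theorem trace_quotientFunc {k : ℤ} (h : ModularForm (Gamma0 p) k) (γ : SL(2, ℤ)) :
    SlashInvariantForm.quotientFunc h (traceCls p γ) = (h : ℍ → ℂ) ∣[k] γ⁻¹ := by
  rw [traceCls]
  erw [SlashInvariantForm.quotientFunc_mk]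
  rw [ModularForm.SL_slash]
  simp only [MonoidHom.coe_rangeRestrict, map_inv]
  rfl

/-- the representatives -/
def traceR (p : ℕ) : Option (Fin p) → SL(2, ℤ)
  | none => 1
  | some j => (traceRep (j : ℕ))⁻¹

theorem trace_bijective : Function.Bijective (fun x => traceCls p (traceR p x)) := by
  have hp : p.Prime := Fact.out
  haveI : NeZero p := ⟨hp.ne_zero⟩
  constructor
  · intro x y hxy
    simp only [traceCls_eq_iff, Gamma0_mem] at hxy
    rcases x with _ | i <;> rcases y with _ | j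
    · rfl
    · exfalso
      simp [traceR, traceRep, Matrix.SpecialLinearGroup.SL2_inv_expl] at hxy
    · exfalso
      simp [traceR, traceRep, Matrix.SpecialLinearGroup.SL2_inv_expl] at hxy
    · congr 1
      simp [traceR, traceRep, Matrix.SpecialLinearGroup.SL2_inv_expl, Matrix.mul_apply, Fin.sum_univ_two] at hxy
      have h1 : ((j : ℕ) : ZMod p) = ((i : ℕ) : ZMod p) := by linear_combination hxy
      rw [ZMod.natCast_eq_natCast_iff', Nat.mod_eq_of_lt j.2, Nat.mod_eq_of_lt i.2] at h1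
      exact Fin.ext h1.symm
  · intro q
    obtain ⟨γ, rfl⟩ := traceCls_surjective q
    by_cases hc : ((γ 1 0 : ℤ) : ZMod p) = 0
    · refine ⟨none, ?_⟩
      simp only [traceCls_eq_iff, Gamma0_mem]
      simpa [traceR] using hc
    · refine ⟨some ⟨(-((γ 0 0 : ℤ) : ZMod p) / ((γ 1 0 : ℤ) : ZMod p)).val, ZMod.val_lt _⟩, ?_⟩
      simp only [traceCls_eq_iff, Gamma0_mem]
      simp [traceR, traceRep, Matrix.mul_apply, Fin.sum_univ_two]
      field_simp
      ring

theorem trace_coe {k : ℤ} (h : ModularForm (Gamma0 p) k) :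
    (ModularForm.trace 𝒮ℒ h : ℍ → ℂ) =
      h + ∑ j ∈ Finset.range p, (h : ℍ → ℂ) ∣[k] traceRep (j : ℕ) := by
  rw [ModularForm.coe_trace]
  letI := Fintype.ofFinite (𝒮ℒ ⧸ ((Gamma0 p : Subgroup (GL (Fin 2) ℝ)).subgroupOf 𝒮ℒ))
  show ∑ q, SlashInvariantForm.quotientFunc h q = _
  rw [← (trace_bijective (p := p)).sum_comp, Fintype.sum_option]
  simp only [trace_quotientFunc, traceR, inv_one, inv_inv]
  congr 1
  · exact SlashAction.slash_one _ _
  · exact Fin.sum_univ_eq_sum_range (fun j : ℕ => (h : ℍ → ℂ) ∣[k] traceRep (j : ℕ)) p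


theorem trace_heckeU_frickeFun (i : ℕ) (hi : 1 ≤ i) (h : ℍ → ℂ) :
    ModularForm.heckeU ((2 * i : ℕ) : ℤ) p (frickeFun p i h) =
      ((p : ℂ) ^ (i - 1)) • ∑ j ∈ Finset.range p, h ∣[((2 * i : ℕ) : ℤ)] traceRep (j : ℕ) := by
  have hp : p ≠ 0 := (Fact.out : p.Prime).ne_zero
  have hp' : (p : ℂ) ≠ 0 := by exact_mod_cast hp
  rw [ModularForm.heckeU, Finset.smul_sum]
  refine Finset.sum_congr rfl fun j _ => ?_
  rw [frickeFun, ModularForm.smul_slash, ModularForm.σ_heckeMatrix, trace_slash_fricke_hecke,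
    smul_smul]
  congr 1
  simp only [ContinuousAlgEquiv.refl_apply]
  rw [← zpow_add₀ hp', ← zpow_natCast]
  congr 1
  push_cast [Nat.cast_sub hi]
  ring

/-- the trace formula, complex version. -/
theorem exists_trace (i : ℕ) (hi : 1 ≤ i) (h : ModularForm (Gamma0 p) ((2 * i : ℕ) : ℤ)) :
    ∃ F : ModularForm 𝒮ℒ ((2 * i : ℕ) : ℤ), ∀ n : ℕ,
      (qExpansion 1 F).coeff n = (p : ℂ) ^ (i - 1) * (qExpansion 1 h).coeff n
        + (qExpansion 1 (frickeFun p i h)).coeff (n * p) := by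
  have hp : p ≠ 0 := (Fact.out : p.Prime).ne_zero
  obtain ⟨h', hh'⟩ := exists_frickeForm i h
  refine ⟨((p : ℂ) ^ (i - 1)) • ModularForm.trace 𝒮ℒ h, fun n => ?_⟩
  set c : ℂ := (p : ℂ) ^ (i - 1) with hc
  set g : ℍ → ℂ := ModularForm.heckeU ((2 * i : ℕ) : ℤ) p (frickeFun p i h) with hg
  have hF : (⇑(c • ModularForm.trace 𝒮ℒ h) : ℍ → ℂ) = c • (h : ℍ → ℂ) + g := by
    rw [hg, trace_heckeU_frickeFun i hi, FunLike.coe_smul, trace_coe, smul_add]
  have a1 : Fermat.Agent.S23.An (⇑(c • ModularForm.trace 𝒮ℒ h)) := Fermat.Agent.S23.An.of_SL _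
  have a2 : Fermat.Agent.S23.An (h : ℍ → ℂ) := Fermat.Agent.S23.An.of_Gamma0 h
  have a3 : Fermat.Agent.S23.An g := by
    have : g = ⇑(c • ModularForm.trace 𝒮ℒ h) + (-c) • (h : ℍ → ℂ) := by
      rw [hF]; funext z; simp
    rw [this]
    exact a1.add (a2.smul _)
  rw [hF, Fermat.Agent.S23.qExp_add (a2.smul _) a3, Fermat.Agent.S23.qExp_smul a2, map_add]
  have h5 := ModularFormClass.qCoeff_heckeU h' (CongruenceSubgroup.one_mem_strictPeriods_Gamma0 p) hp n
  rw [hh'] at h5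
  have h6 : (PowerSeries.coeff n) (qExpansion 1 g) =
      (PowerSeries.coeff (n * p)) (qExpansion 1 (frickeFun p i ⇑h)) := h5
  rw [h6, PowerSeries.coeff_smul, smul_eq_mul]

/-- the trace formula for pair forms. -/
theorem PF.trace {i : ℕ} (hi : 1 ≤ i) {a b : PowerSeries ℤ} (h : PF p i a b) :
    L1 (2 * i) (PowerSeries.C ((p : ℤ) ^ (i - 1)) * a + Up p b) := by
  obtain ⟨hh, ha, hb⟩ := h
  obtain ⟨F, hF⟩ := exists_trace i hi hh
  refine ⟨F, ?_⟩
  rw [HasQ] at ha hb ⊢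
  ext n
  rw [hF, ha, hb, PowerSeries.coeff_map, PowerSeries.coeff_map, PowerSeries.coeff_map, map_add,
    PowerSeries.coeff_C_mul, Up, PowerSeries.coeff_mk]
  simp

/-- weight two: the Fricke transform is `- U_p` (because `M₂(SL₂(ℤ)) = 0`:
`ModularForm.levelOne_weight_two_rank_zero`).  Apply `exists_trace` to the Fricke transform. -/
theorem PF.of_weight_two (h : ModularForm (Gamma0 p) 2) {a : PowerSeries ℤ} (ha : HasQ h a) :
    PF p 1 a (-(Up p a)) := by
  have e : (2 : ℤ) = ((2 * 1 : ℕ) : ℤ) := by norm_num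
  set h1 : ModularForm (Gamma0 p) ((2 * 1 : ℕ) : ℤ) := ModularForm.mcast e h with hh1
  have hcoe : (h1 : ℍ → ℂ) = h := rfl
  obtain ⟨h', hh'⟩ := exists_frickeForm 1 h1
  obtain ⟨F, hF⟩ := exists_trace 1 le_rfl h'
  have hF0 : (F : ℍ → ℂ) = 0 := by
    have : ModularForm.mcast e.symm F = 0 :=
      rank_zero_iff_forall_zero.mp ModularForm.levelOne_weight_two_rank_zero _
    have h2 := congrArg (fun G : ModularForm 𝒮ℒ 2 => (G : ℍ → ℂ)) this
    exact h2
  refine ⟨h1, by rw [hcoe]; exact ha, ?_⟩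
  rw [HasQ] at ha ⊢
  ext n
  have := hF n
  rw [hF0, hh', frickeFun_frickeFun, hcoe, ha] at this
  have h0 : qExpansion 1 (0 : ℍ → ℂ) = 0 := by simpa using qExpansion_zero 1
  rw [h0] at this
  simp only [map_zero, Nat.sub_self, pow_zero, one_mul, PowerSeries.coeff_map] at this
  rw [hcoe]
  simp only [map_neg, PowerSeries.coeff_map, Up, PowerSeries.coeff_mk]
  linear_combination -this

end

end Fermat.Agent.S16
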